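import Mathlib
import Fermat.Agent.S36.Haupt4.LevelQ
import Fermat.Agent.S36.Haupt4.Fibre
import Fermat.Agent.S36.QFormal
import Fermat.Agent.S36.SqRankE
import Fermat.Agent.S36.SqIntE
import Fermat.Agent.S34.Sat
import Fermat.Agent.S24.FF.Shift

/-!
# S36 (C2), the coordinate block of the level-`q²` instance for `u₄` (`q` odd)

The coordinate binders of `MidVal.package_mid` / `SqAbs.hyp` / `SqAbsW.hyp_w` at the coordinate
`u' = u₄ ∈ LE R K` (`4 ∣ R`, chart zero, `U = u4 O`) and `u' = u₄⁻¹` (chart infinity,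
`U = posO O s4Z`), in their literal shapes:

* series level (any DVR `O`): `hord_u4`, `hcop_u4`, `theta_rho_u4_ne_zero`, `qExpand_rho_u4`
  (`hfrob` at `q`), `qExpand_sq_rho_u4` (`hfrob` at `q * q`), and the same for `s4`;
* `E`-level: `hσ1u_u4` (level `q`), `hσu_u4`, `hσy_u4` (level `q²`), `hwu_u4`, `hwu_u4'`
  (level `q`, both directions), `hy_u4`, `hy_u4'` (level `q²`), `finite_u4E`, and the same for
  `u₄⁻¹`;
* arithmetic (`O = OE A K`): `hprime_u4`, `hprime_s4`, `charP_residue`, and the two packages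
  `coord4_zero`, `coord4_inf`.
-/

set_option autoImplicit false
set_option linter.unusedSectionVars false
set_option linter.unusedVariables false
set_option linter.style.haveILetI false
set_option synthInstance.maxHeartbeats 400000

open ModularCurve Polynomial

noncomputable section

namespace Fermat.Agent.S36.SqChart.Coord4

open Fermat.Agent.S18.K1Defs Fermat.Agent.S18.K1Main Fermat.Agent.S30 Fermat.Agent.S30.AuxLevel
open Fermat.Agent.S34 Fermat.Agent.S34.TwoPrimesGauss Fermat.Agent.S34.TwoPrimesRank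
open Fermat.Agent.S34.HauptU.Plug Fermat.Agent.S36 Fermat.Agent.S36.Haupt4
open Fermat.Agent.S36.SqRankE

local notation "Qb" => AlgebraicClosure ℚ

/-! ### The integral series of `u₄⁻¹` -/

/-- The integral power series `q + …` of `1 / u₄`. -/
def s4Z : PowerSeries ℤ := PowerSeries.X * PowerSeries.invOfUnit u4Num 1

theorem coeff_zero_s4Z : PowerSeries.coeff 0 s4Z = 0 := by
  rw [s4Z, PowerSeries.coeff_zero_eq_constantCoeff_apply, map_mul, PowerSeries.constantCoeff_X,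
    zero_mul]

theorem coeff_one_s4Z : PowerSeries.coeff 1 s4Z = 1 := by
  rw [s4Z, show (1 : ℕ) = 0 + 1 from rfl, PowerSeries.coeff_succ_X_mul,
    PowerSeries.coeff_zero_eq_constantCoeff_apply, PowerSeries.constantCoeff_invOfUnit]
  simp

theorem u4Num_mul_s4Z : u4Num * s4Z = PowerSeries.X := by
  rw [s4Z, mul_left_comm, PowerSeries.mul_invOfUnit _ _ (by simp [constantCoeff_u4Num]),
    mul_one]

/-- `u₄ · s₄ = 1` over any commutative ring. -/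
theorem u4_mul_em_s4Z (K : Type*) [CommRing K] : u4 K * em K s4Z = 1 := by
  rw [u4, mul_assoc, ← map_mul, u4Num_mul_s4Z, xinv_mul_em_X]

/-! ### Series level -/

section Series

variable {O : Type*} [CommRing O] [IsDomain O] [IsDiscreteValuationRing O]

theorem rho_u4 : GaussDVR.rho O (u4 O) = u4 (IsLocalRing.ResidueField O) :=
  coeffMap_u4 (IsLocalRing.residue O)

theorem u4_eq_intO : u4 O = HauptU.E.intO O (u4 ℤ) :=
  (coeffMap_u4 (Int.castRingHom O)).symm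

/-- The reduction of `u₄` has order exactly `-1`. -/
theorem order_rho_u4 : (GaussDVR.rho O (u4 O)).order = -1 := by
  rw [rho_u4]
  have h1 : (u4 (IsLocalRing.ResidueField O)).coeff (-1) ≠ 0 := by
    rw [coeff_u4_neg_one]
    exact one_ne_zero
  have hx0 : u4 (IsLocalRing.ResidueField O) ≠ 0 := fun h0 =>
    h1 (by rw [h0, HahnSeries.coeff_zero])
  refine le_antisymm (HahnSeries.order_le_of_coeff_ne_zero h1) ?_
  by_contra hlt
  have h2 : (u4 (IsLocalRing.ResidueField O)).coeff (u4 (IsLocalRing.ResidueField O)).order ≠ 0 :=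
    fun h => hx0 (HahnSeries.coeff_order_eq_zero.mp h)
  exact h2 (coeff_u4_of_lt _ (by omega))

/-- `hord` at `U = u4 O`. -/
theorem hord_u4 : (GaussDVR.rho O (u4 O)).order ≠ 0 := by
  rw [order_rho_u4]; norm_num

/-- `hcop` at `U = u4 O`, any `N`. -/
theorem hcop_u4 (N : ℕ) : IsCoprime (GaussDVR.rho O (u4 O)).order (N : ℤ) := by
  rw [order_rho_u4]
  exact isCoprime_one_left.neg_left

/-- `hθ` at `U = u4 O`: the coefficient of `q⁻¹` in `θ(ū₄)` is `-1`. -/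
theorem theta_rho_u4_ne_zero : QFormal.theta (GaussDVR.rho O (u4 O)) ≠ 0 := by
  intro h
  have h1 := congrArg (fun x : LaurentSeries (IsLocalRing.ResidueField O) => x.coeff (-1)) h
  simp only [QFormal.coeff_theta, HahnSeries.coeff_zero] at h1
  rw [rho_u4, coeff_u4_neg_one, mul_one] at h1
  have h2 : ((-1 : ℤ) : IsLocalRing.ResidueField O) = -1 := by push_cast; rfl
  rw [h2, neg_eq_zero] at h1
  exact one_ne_zero h1

/-- `hfrob` at `U = u4 O`, at the prime `ℓ`. -/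
theorem qExpand_rho_u4 (ℓ : ℕ) [NeZero ℓ] (hℓ : ℓ.Prime)
    [CharP (IsLocalRing.ResidueField O) ℓ] :
    qExpand (IsLocalRing.ResidueField O) ℓ (GaussDVR.rho O (u4 O)) =
      GaussDVR.rho O (u4 O) ^ ℓ := by
  rw [u4_eq_intO]
  exact HauptU.E.qExpand_rho_intO ℓ hℓ (u4 ℤ)

/-- Two Frobenius steps: `hfrob` at `N = ℓ * ℓ` from `hfrob` at `ℓ` (any series). -/
theorem qExpand_sq_of_qExpand {κ : Type*} [CommRing κ] (ℓ : ℕ) [NeZero ℓ] [NeZero (ℓ * ℓ)]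
    {x : LaurentSeries κ} (h : qExpand κ ℓ x = x ^ ℓ) : qExpand κ (ℓ * ℓ) x = x ^ (ℓ * ℓ) := by
  rw [← qExpand_qExpand, h, map_pow, h, ← pow_mul]

/-- `hfrob` at `U = u4 O`, at `N = ℓ * ℓ`. -/
theorem qExpand_sq_rho_u4 (ℓ : ℕ) [NeZero ℓ] [NeZero (ℓ * ℓ)] (hℓ : ℓ.Prime)
    [CharP (IsLocalRing.ResidueField O) ℓ] :
    qExpand (IsLocalRing.ResidueField O) (ℓ * ℓ) (GaussDVR.rho O (u4 O)) =
      GaussDVR.rho O (u4 O) ^ (ℓ * ℓ) :=
  qExpand_sq_of_qExpand ℓ (qExpand_rho_u4 ℓ hℓ)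

/-! #### chart infinity: `U = posO O s4Z` -/

/-- The reduction of `s₄ = 1 / u₄` has order exactly `1`. -/
theorem order_rho_s4 : (GaussDVR.rho O (HauptU.E.posO O s4Z)).order = 1 :=
  HauptU.E.order_rho_posO s4Z coeff_zero_s4Z coeff_one_s4Z

/-- `hord` at `U = posO O s4Z`. -/
theorem hord_s4 : (GaussDVR.rho O (HauptU.E.posO O s4Z)).order ≠ 0 :=
  HauptU.E.order_rho_posO_ne_zero s4Z coeff_zero_s4Z coeff_one_s4Z

/-- `hcop` at `U = posO O s4Z`, any `N`. -/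
theorem hcop_s4 (N : ℕ) : IsCoprime (GaussDVR.rho O (HauptU.E.posO O s4Z)).order (N : ℤ) :=
  HauptU.E.isCoprime_order_rho_posO s4Z coeff_zero_s4Z coeff_one_s4Z N

/-- `hθ` at `U = posO O s4Z`: the coefficient of `q` in `θ(s̄₄)` is `1`. -/
theorem theta_rho_s4_ne_zero : QFormal.theta (GaussDVR.rho O (HauptU.E.posO O s4Z)) ≠ 0 := by
  intro h
  have h1 := congrArg (fun x : LaurentSeries (IsLocalRing.ResidueField O) => x.coeff 1) h
  simp only [QFormal.coeff_theta, HahnSeries.coeff_zero] at h1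
  rw [HauptU.E.posO, HauptU.E.rho_intO, coeffMap_coeff, PowerSeries.coeff_coe,
    if_neg (by norm_num)] at h1
  have h3 : (1 : ℤ).natAbs = 1 := rfl
  rw [h3, coeff_one_s4Z] at h1
  simp at h1

/-- `hfrob` at `U = posO O s4Z`, at the prime `ℓ`. -/
theorem qExpand_rho_s4 (ℓ : ℕ) [NeZero ℓ] (hℓ : ℓ.Prime)
    [CharP (IsLocalRing.ResidueField O) ℓ] :
    qExpand (IsLocalRing.ResidueField O) ℓ (GaussDVR.rho O (HauptU.E.posO O s4Z)) =
      GaussDVR.rho O (HauptU.E.posO O s4Z) ^ ℓ :=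
  HauptU.E.qExpand_rho_posO ℓ hℓ s4Z

/-- `hfrob` at `U = posO O s4Z`, at `N = ℓ * ℓ`. -/
theorem qExpand_sq_rho_s4 (ℓ : ℕ) [NeZero ℓ] [NeZero (ℓ * ℓ)] (hℓ : ℓ.Prime)
    [CharP (IsLocalRing.ResidueField O) ℓ] :
    qExpand (IsLocalRing.ResidueField O) (ℓ * ℓ) (GaussDVR.rho O (HauptU.E.posO O s4Z)) =
      GaussDVR.rho O (HauptU.E.posO O s4Z) ^ (ℓ * ℓ) :=
  qExpand_sq_of_qExpand ℓ (qExpand_rho_s4 ℓ hℓ)

/-- `ι (posO O s4Z) = em E s4Z`. -/
theorem iota_posO_s4Z {E : Type*} [Field E] [Algebra O E] :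
    GaussDVR.iota O E (HauptU.E.posO O s4Z) = em E s4Z := by
  rw [HauptU.E.posO, HauptU.E.iota_intO, Congr.coeffMap_ofPowerSeries, em_apply]

end Series

/-! ### `E`-level: `q`-expansions -/

section Level

variable (R : ℕ) [NeZero R] (K : IntermediateField ℚ Qb)

/-- `LE R K` is finite over `K(u₄)`. -/
theorem finite_u4E (h4 : 4 ∣ R) :
    FiniteDimensional (IntermediateField.adjoin K {u4E R K h4}) (LE R K) := by
  haveI : FiniteDimensional (IntermediateField.adjoin K {E2Deg.jE R K}) (LE R K) :=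
    E2Deg.finite_LE R K
  exact finiteDimensional_u4E R K h4 (E2Deg.jE R K) rfl

/-- `LE R K` is finite over `K(u₄⁻¹)`. -/
theorem finite_u4E_inv (h4 : 4 ∣ R) :
    FiniteDimensional (IntermediateField.adjoin K {(u4E R K h4)⁻¹}) (LE R K) :=
  Fermat.Agent.S24.FF.finiteDimensional_adjoin_inv _ (finite_u4E R K h4)

section Sigma

variable (ℓ : ℕ) [NeZero ℓ]

/-- `σ (α₂ (α₁ x)) = x` as `q`-expansions. -/
theorem sigma_alphaSq (x : LE R K) :
    sigmaHom (R * ℓ * ℓ) K (alphaSq R ℓ K x) = (x : LaurentSeries K) := by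
  rw [alphaSq, RingHom.comp_apply, Fermat.Agent.S34.Sat.sigma_alpha,
    Fermat.Agent.S34.Sat.alphaHom_apply, coe_heckeAlphaBar]

theorem betaHom_apply' (M : ℕ) [NeZero M] (x : LE M K) :
    betaHom M ℓ K x = heckeBetaBar K M ℓ x := rfl

/-- `σ (β₁ x) = x(q^ℓ)` as `q`-expansions. -/
theorem sigma_beta (x : LE R K) :
    sigmaHom (R * ℓ) K (betaHom R ℓ K x) = qExpand K ℓ (x : LaurentSeries K) := by
  rw [sigmaHom_apply, betaHom_apply', coe_heckeBetaBar]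

/-- `σ (β₂ (β₁ x)) = x(q^{ℓ·ℓ})` as `q`-expansions. -/
theorem sigma_betaSq [NeZero (ℓ * ℓ)] (x : LE R K) :
    sigmaHom (R * ℓ * ℓ) K (betaSq R ℓ K x) = qExpand K (ℓ * ℓ) (x : LaurentSeries K) := by
  rw [betaSq, RingHom.comp_apply, sigma_beta, betaHom_apply', coe_heckeBetaBar, qExpand_qExpand]

variable {O : Type} [CommRing O] [IsDomain O] [IsDiscreteValuationRing O]
  [Algebra O K] [IsFractionRing O K]

/-- The `q`-expansion of `u₄⁻¹` is `ι (posO O s4Z)`. -/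
theorem coe_u4E_inv_eq_iota (h4 : 4 ∣ R) :
    (((u4E R K h4)⁻¹ : LE R K) : LaurentSeries K) = GaussDVR.iota O K (HauptU.E.posO O s4Z) := by
  rw [iota_posO_s4Z, Fermat.Agent.S34.Sat.coe_inv_LE, coe_u4E]
  exact inv_eq_of_mul_eq_one_right (u4_mul_em_s4Z K)

/-- `hU`, chart zero: the `q`-expansion of `u₄` is `ι (u4 O)`. -/
theorem hU_u4 (h4 : 4 ∣ R) :
    ((u4E R K h4 : LE R K) : LaurentSeries K) = GaussDVR.iota O K (u4 O) :=
  coe_u4E_eq_iota R K h4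

/-- `hU`, chart at infinity: the `q`-expansion of `u₄⁻¹` is `ι (posO O s4Z)`. -/
theorem hU_s4 (h4 : 4 ∣ R) :
    (((u4E R K h4)⁻¹ : LE R K) : LaurentSeries K) = GaussDVR.iota O K (HauptU.E.posO O s4Z) :=
  coe_u4E_inv_eq_iota R K h4

/-- `hσ₁u` (level `q`), chart zero. -/
theorem hσ1u_u4 (h4 : 4 ∣ R) :
    sigmaHom (R * ℓ) K (alphaHom R ℓ K (u4E R K h4)) = GaussDVR.iota O K (u4 O) := by
  rw [Fermat.Agent.S34.Sat.sigma_alpha]
  exact coe_u4E_eq_iota R K h4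

/-- `hσ₁u` (level `q`), chart at infinity. -/
theorem hσ1u_s4 (h4 : 4 ∣ R) :
    sigmaHom (R * ℓ) K (alphaHom R ℓ K (u4E R K h4)⁻¹)
      = GaussDVR.iota O K (HauptU.E.posO O s4Z) := by
  rw [Fermat.Agent.S34.Sat.sigma_alpha]
  exact coe_u4E_inv_eq_iota R K h4

/-- `σ₁ (β₁ u₄) = ι (U(q^ℓ))` (level `q`), chart zero. -/
theorem hσ1y_u4 (h4 : 4 ∣ R) :
    sigmaHom (R * ℓ) K (betaHom R ℓ K (u4E R K h4)) = GaussDVR.iota O K (qExpand O ℓ (u4 O)) := by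
  rw [sigma_beta, coe_u4E_eq_iota (O := O) R K h4]
  exact (coeffMap_qExpand (algebraMap O K) ℓ (u4 O)).symm

/-- `hσu` (level `q²`), chart zero. -/
theorem hσu_u4 (h4 : 4 ∣ R) :
    sigmaHom (R * ℓ * ℓ) K (alphaSq R ℓ K (u4E R K h4)) = GaussDVR.iota O K (u4 O) := by
  rw [sigma_alphaSq]
  exact coe_u4E_eq_iota R K h4

/-- `hσu` (level `q²`), chart at infinity. -/
theorem hσu_s4 (h4 : 4 ∣ R) :
    sigmaHom (R * ℓ * ℓ) K (alphaSq R ℓ K (u4E R K h4)⁻¹)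
      = GaussDVR.iota O K (HauptU.E.posO O s4Z) := by
  rw [sigma_alphaSq]
  exact coe_u4E_inv_eq_iota R K h4

/-- `hσy` (level `q²`), chart zero: `σ (β₂ (β₁ u₄)) = ι (U(q^{ℓ·ℓ}))`. -/
theorem hσy_u4 [NeZero (ℓ * ℓ)] (h4 : 4 ∣ R) :
    sigmaHom (R * ℓ * ℓ) K (betaSq R ℓ K (u4E R K h4))
      = GaussDVR.iota O K (qExpand O (ℓ * ℓ) (u4 O)) := by
  rw [sigma_betaSq, coe_u4E_eq_iota (O := O) R K h4]
  exact (coeffMap_qExpand (algebraMap O K) (ℓ * ℓ) (u4 O)).symm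

/-- `hσy` (level `q²`), chart at infinity. -/
theorem hσy_s4 [NeZero (ℓ * ℓ)] (h4 : 4 ∣ R) :
    sigmaHom (R * ℓ * ℓ) K (betaSq R ℓ K (u4E R K h4)⁻¹)
      = GaussDVR.iota O K (qExpand O (ℓ * ℓ) (HauptU.E.posO O s4Z)) := by
  rw [sigma_betaSq, coe_u4E_inv_eq_iota (O := O) R K h4]
  exact (coeffMap_qExpand (algebraMap O K) (ℓ * ℓ) (HauptU.E.posO O s4Z)).symm

end Sigma

/-! ### `hwu`, `hy` : integrality between `α u'` and `β u'` -/

section Integral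

variable (ℓ : ℕ) [NeZero ℓ]
  {O : Type*} [CommRing O] [Nontrivial O] [Algebra O K]
  [Algebra O (LE (R * ℓ) K)] [IsScalarTower O K (LE (R * ℓ) K)]
  (h2 : IsUnit (2 : O)) (hℓ : ℓ.Prime) (hodd : ℓ ≠ 2) (hℓR : ¬ ℓ ∣ R) (h4 : 4 ∣ R)

include h2 hℓ hodd hℓR in
/-- `hwu` (level `q`), chart zero: `β₁ u₄ = u₄(q^ℓ)` is integral over `O[α₁ u₄]`. -/
theorem hwu_u4 :
    IsIntegral (Algebra.adjoin O {alphaHom R ℓ K (u4E R K h4)}) (betaHom R ℓ K (u4E R K h4)) := by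
  have h := Hwu.hwu_u4E R ℓ K h2 hℓ hodd hℓR h4
  rw [wHom_alpha] at h
  exact h

include h2 hℓ hodd hℓR in
/-- `hwu'` (level `q`), chart zero: `α₁ u₄` is integral over `O[β₁ u₄]`. -/
theorem hwu_u4' :
    IsIntegral (Algebra.adjoin O {betaHom R ℓ K (u4E R K h4)}) (alphaHom R ℓ K (u4E R K h4)) := by
  have h := Hwu.hwu_u4E' R ℓ K h2 hℓ hodd hℓR h4
  rw [wHom_alpha] at h
  exact h

include h2 hℓ hodd hℓR in
/-- `hwu` (level `q`), chart at infinity. -/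
theorem hwu_s4 :
    IsIntegral (Algebra.adjoin O {alphaHom R ℓ K (u4E R K h4)⁻¹})
      (betaHom R ℓ K (u4E R K h4)⁻¹) := by
  have h := Hwu.hwu_u4E_inv R ℓ K h2 hℓ hodd hℓR h4
  rw [wHom_alpha] at h
  exact h

include h2 hℓ hodd hℓR in
/-- `hwu'` (level `q`), chart at infinity. -/
theorem hwu_s4' :
    IsIntegral (Algebra.adjoin O {betaHom R ℓ K (u4E R K h4)⁻¹})
      (alphaHom R ℓ K (u4E R K h4)⁻¹) := by
  have h := Hwu.hwu_u4E_inv' R ℓ K h2 hℓ hodd hℓR h4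
  rw [wHom_alpha] at h
  exact h

variable [Algebra O (LE (R * ℓ * ℓ) K)] [IsScalarTower O K (LE (R * ℓ * ℓ) K)]

include h2 hℓ hodd hℓR in
/-- `hy` (level `q²`), chart zero: `u₄(q^{ℓ·ℓ})` is integral over `O[u₄(q)]`. -/
theorem hy_u4 :
    IsIntegral (Algebra.adjoin O {alphaSq R ℓ K (u4E R K h4)}) (betaSq R ℓ K (u4E R K h4)) :=
  SqInt.isIntegral_bb_of_aa (alphaHom (R * ℓ) ℓ K) (betaHom (R * ℓ) ℓ K)
    (SqInt.alpha_algebraMap ℓ K (R * ℓ)) (SqInt.beta_algebraMap ℓ K (R * ℓ))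
    (alphaHom R ℓ K (u4E R K h4)) (betaHom R ℓ K (u4E R K h4))
    (SqInt.alpha_beta_comm R ℓ K (u4E R K h4)) (hwu_u4 R K ℓ h2 hℓ hodd hℓR h4)

include h2 hℓ hodd hℓR in
/-- Chart zero: `u₄(q)` is integral over `O[u₄(q^{ℓ·ℓ})]`. -/
theorem hy_u4' :
    IsIntegral (Algebra.adjoin O {betaSq R ℓ K (u4E R K h4)}) (alphaSq R ℓ K (u4E R K h4)) :=
  SqInt.isIntegral_aa_of_bb (alphaHom (R * ℓ) ℓ K) (betaHom (R * ℓ) ℓ K)
    (SqInt.alpha_algebraMap ℓ K (R * ℓ)) (SqInt.beta_algebraMap ℓ K (R * ℓ))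
    (alphaHom R ℓ K (u4E R K h4)) (betaHom R ℓ K (u4E R K h4))
    (SqInt.alpha_beta_comm R ℓ K (u4E R K h4)) (hwu_u4' R K ℓ h2 hℓ hodd hℓR h4)

include h2 hℓ hodd hℓR in
/-- `hy` (level `q²`), chart at infinity. -/
theorem hy_s4 :
    IsIntegral (Algebra.adjoin O {alphaSq R ℓ K (u4E R K h4)⁻¹})
      (betaSq R ℓ K (u4E R K h4)⁻¹) :=
  SqInt.isIntegral_bb_of_aa (alphaHom (R * ℓ) ℓ K) (betaHom (R * ℓ) ℓ K)
    (SqInt.alpha_algebraMap ℓ K (R * ℓ)) (SqInt.beta_algebraMap ℓ K (R * ℓ))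
    (alphaHom R ℓ K (u4E R K h4)⁻¹) (betaHom R ℓ K (u4E R K h4)⁻¹)
    (SqInt.alpha_beta_comm R ℓ K (u4E R K h4)⁻¹) (hwu_s4 R K ℓ h2 hℓ hodd hℓR h4)

include h2 hℓ hodd hℓR in
/-- Chart at infinity, converse. -/
theorem hy_s4' :
    IsIntegral (Algebra.adjoin O {betaSq R ℓ K (u4E R K h4)⁻¹})
      (alphaSq R ℓ K (u4E R K h4)⁻¹) :=
  SqInt.isIntegral_aa_of_bb (alphaHom (R * ℓ) ℓ K) (betaHom (R * ℓ) ℓ K)
    (SqInt.alpha_algebraMap ℓ K (R * ℓ)) (SqInt.beta_algebraMap ℓ K (R * ℓ))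
    (alphaHom R ℓ K (u4E R K h4)⁻¹) (betaHom R ℓ K (u4E R K h4)⁻¹)
    (SqInt.alpha_beta_comm R ℓ K (u4E R K h4)⁻¹) (hwu_s4' R K ℓ h2 hℓ hodd hℓR h4)

end Integral

/-! ### The arithmetic instance `O = A ∩ K`, `A` over the odd prime `ℓ` -/

section Arith

variable (ℓ : ℕ) [NeZero ℓ] (hℓ : ℓ.Prime) (hodd : ℓ ≠ 2)
  (A : ValuationSubring Qb) (hA : A.LiesOverPrime ℓ) (h4 : 4 ∣ R) (hℓR : ¬ ℓ ∣ R)
  [FiniteDimensional ℚ K] [IsDiscreteValuationRing (OE A K)]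
  (z : Qb) (hz : IsPrimitiveRoot z R) (hzK : z ∈ K) (π : OE A K) (hπ : Irreducible π)

include hℓ hodd hA hℓR hz hzK hπ in
/-- `hprime`, chart zero: `π` is a prime element of the level-`R` chart ring of `u₄`. -/
theorem hprime_u4 :
    letI := algebraOL (OE A K) K (LE R K)
    Prime (piC (u4E R K h4) π) := by
  haveI : Fact ℓ.Prime := ⟨hℓ⟩
  exact (Fibre.prime_u4 A R h4 hℓR hA hodd K z hz hzK π hπ).1

include hℓ hodd hA hℓR hz hzK hπ in
/-- `hprime`, chart at infinity. -/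
theorem hprime_s4 :
    letI := algebraOL (OE A K) K (LE R K)
    Prime (piC (u4E R K h4)⁻¹ π) := by
  haveI : Fact ℓ.Prime := ⟨hℓ⟩
  exact (Fibre.prime_u4 A R h4 hℓR hA hodd K z hz hzK π hπ).2

omit [NeZero R] [NeZero ℓ] [FiniteDimensional ℚ K] [IsDiscreteValuationRing (OE A K)] in
include hℓ hA in
/-- The residue field of `A ∩ K` has characteristic `ℓ`. -/
theorem charP_ell : CharP (IsLocalRing.ResidueField (OE A K)) ℓ :=
  Fermat.Agent.S34.Sat.charP_residue_OE' A K hℓ hA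

omit [NeZero R] [NeZero ℓ] [FiniteDimensional ℚ K] [IsDiscreteValuationRing (OE A K)] in
include hℓ hodd hA in
/-- `2` is a unit of `A ∩ K` (`ℓ` odd). -/
theorem isUnit_two : IsUnit (2 : OE A K) := by
  haveI : Fact ℓ.Prime := ⟨hℓ⟩
  exact isUnit_two_OE A hA hodd K

include hℓ hodd hA hℓR in
/-- `hwu` in the `Plug.wHom` shape of `HypE.hyp` / `TwoPrimesGauss`, chart zero. -/
theorem hwuW_u4 :
    letI := algebraOL (OE A K) K (LE (R * ℓ) K)
    IsIntegral (Algebra.adjoin (OE A K) {alphaHom R ℓ K (u4E R K h4)})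
      (wHom R ℓ K hℓ hℓR (alphaHom R ℓ K (u4E R K h4))) := by
  letI := algebraOL (OE A K) K (LE (R * ℓ) K)
  exact Hwu.hwu_u4E R ℓ K (isUnit_two K ℓ hℓ hodd A hA) hℓ hodd hℓR h4

include hℓ hodd hA hℓR in
/-- `hwu` in the `Plug.wHom` shape, chart at infinity. -/
theorem hwuW_s4 :
    letI := algebraOL (OE A K) K (LE (R * ℓ) K)
    IsIntegral (Algebra.adjoin (OE A K) {alphaHom R ℓ K (u4E R K h4)⁻¹})
      (wHom R ℓ K hℓ hℓR (alphaHom R ℓ K (u4E R K h4)⁻¹)) := by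
  letI := algebraOL (OE A K) K (LE (R * ℓ) K)
  exact Hwu.hwu_u4E_inv R ℓ K (isUnit_two K ℓ hℓ hodd A hA) hℓ hodd hℓR h4

include hℓ hodd hA hℓR hz hzK hπ in
/-- **All coordinate binders of `SqAbsW.hyp_w` / `HypE.hyp` (level `q`), chart zero**
(`u' = u₄`, `U = u4 (OE A K)`, `N = ℓ`): `hσ₁u`, `hwu`, `hwu'`, `hθ`, `hprime`, `hcop`, `hord`,
`hfrob`, and the finiteness of `LE R K` over `K(u₄)`. -/
theorem coord4_zero :
    letI := algebraOL (OE A K) K (LE R K)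
    letI := algebraOL (OE A K) K (LE (R * ℓ) K)
    sigmaHom (R * ℓ) K (alphaHom R ℓ K (u4E R K h4))
        = GaussDVR.iota (OE A K) K (u4 (OE A K)) ∧
      IsIntegral (Algebra.adjoin (OE A K) {alphaHom R ℓ K (u4E R K h4)})
        (betaHom R ℓ K (u4E R K h4)) ∧
      IsIntegral (Algebra.adjoin (OE A K) {betaHom R ℓ K (u4E R K h4)})
        (alphaHom R ℓ K (u4E R K h4)) ∧
      QFormal.theta (GaussDVR.rho (OE A K) (u4 (OE A K))) ≠ 0 ∧
      Prime (piC (u4E R K h4) π) ∧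
      IsCoprime (GaussDVR.rho (OE A K) (u4 (OE A K))).order ((ℓ : ℕ) : ℤ) ∧
      (GaussDVR.rho (OE A K) (u4 (OE A K))).order ≠ 0 ∧
      qExpand (IsLocalRing.ResidueField (OE A K)) ℓ (GaussDVR.rho (OE A K) (u4 (OE A K)))
        = GaussDVR.rho (OE A K) (u4 (OE A K)) ^ ℓ ∧
      FiniteDimensional (IntermediateField.adjoin K {u4E R K h4}) (LE R K) := by
  letI := algebraOL (OE A K) K (LE R K)
  letI := algebraOL (OE A K) K (LE (R * ℓ) K)
  haveI := isScalarTower_OL (OE A K) K (LE (R * ℓ) K)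
  haveI := charP_ell K ℓ hℓ A hA
  have h2 := isUnit_two K ℓ hℓ hodd A hA
  exact ⟨hσ1u_u4 R K ℓ h4, hwu_u4 R K ℓ h2 hℓ hodd hℓR h4, hwu_u4' R K ℓ h2 hℓ hodd hℓR h4,
    theta_rho_u4_ne_zero, hprime_u4 R K ℓ hℓ hodd A hA h4 hℓR z hz hzK π hπ, hcop_u4 _,
    hord_u4, qExpand_rho_u4 ℓ hℓ, finite_u4E R K h4⟩

include hℓ hodd hA hℓR hz hzK hπ in
/-- **All coordinate binders of `SqAbsW.hyp_w` / `HypE.hyp` (level `q`), chart at infinity**
(`u' = u₄⁻¹`, `U = posO (OE A K) s4Z`, `N = ℓ`). -/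
theorem coord4_inf :
    letI := algebraOL (OE A K) K (LE R K)
    letI := algebraOL (OE A K) K (LE (R * ℓ) K)
    sigmaHom (R * ℓ) K (alphaHom R ℓ K (u4E R K h4)⁻¹)
        = GaussDVR.iota (OE A K) K (HauptU.E.posO (OE A K) s4Z) ∧
      IsIntegral (Algebra.adjoin (OE A K) {alphaHom R ℓ K (u4E R K h4)⁻¹})
        (betaHom R ℓ K (u4E R K h4)⁻¹) ∧
      IsIntegral (Algebra.adjoin (OE A K) {betaHom R ℓ K (u4E R K h4)⁻¹})
        (alphaHom R ℓ K (u4E R K h4)⁻¹) ∧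
      QFormal.theta (GaussDVR.rho (OE A K) (HauptU.E.posO (OE A K) s4Z)) ≠ 0 ∧
      Prime (piC (u4E R K h4)⁻¹ π) ∧
      IsCoprime (GaussDVR.rho (OE A K) (HauptU.E.posO (OE A K) s4Z)).order ((ℓ : ℕ) : ℤ) ∧
      (GaussDVR.rho (OE A K) (HauptU.E.posO (OE A K) s4Z)).order ≠ 0 ∧
      qExpand (IsLocalRing.ResidueField (OE A K)) ℓ
          (GaussDVR.rho (OE A K) (HauptU.E.posO (OE A K) s4Z))
        = GaussDVR.rho (OE A K) (HauptU.E.posO (OE A K) s4Z) ^ ℓ ∧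
      FiniteDimensional (IntermediateField.adjoin K {(u4E R K h4)⁻¹}) (LE R K) := by
  letI := algebraOL (OE A K) K (LE R K)
  letI := algebraOL (OE A K) K (LE (R * ℓ) K)
  haveI := isScalarTower_OL (OE A K) K (LE (R * ℓ) K)
  haveI := charP_ell K ℓ hℓ A hA
  have h2 := isUnit_two K ℓ hℓ hodd A hA
  exact ⟨hσ1u_s4 R K ℓ h4, hwu_s4 R K ℓ h2 hℓ hodd hℓR h4, hwu_s4' R K ℓ h2 hℓ hodd hℓR h4,
    theta_rho_s4_ne_zero, hprime_s4 R K ℓ hℓ hodd A hA h4 hℓR z hz hzK π hπ, hcop_s4 _,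
    hord_s4, qExpand_rho_s4 ℓ hℓ, finite_u4E_inv R K h4⟩

include hℓ hodd hA hℓR hz hzK hπ in
/-- **All coordinate binders of `MidVal.package_mid` / `InstA.package_alpha` (level `q²`),
chart zero** (`u' = u₄`, `U = u4 (OE A K)`, `N = ℓ * ℓ`): `hσu`, `hord`, `hcop`, `hθ`, `hfrob`,
`hprime`, `hy`, and the finiteness of `LE R K` over `K(u₄)`. -/
theorem coord4_sq_zero :
    letI := algebraOL (OE A K) K (LE R K)
    letI := algebraOL (OE A K) K (LE (R * ℓ * ℓ) K)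
    sigmaHom (R * ℓ * ℓ) K (alphaSq R ℓ K (u4E R K h4))
        = GaussDVR.iota (OE A K) K (u4 (OE A K)) ∧
      (GaussDVR.rho (OE A K) (u4 (OE A K))).order ≠ 0 ∧
      IsCoprime (GaussDVR.rho (OE A K) (u4 (OE A K))).order ((ℓ * ℓ : ℕ) : ℤ) ∧
      QFormal.theta (GaussDVR.rho (OE A K) (u4 (OE A K))) ≠ 0 ∧
      qExpand (IsLocalRing.ResidueField (OE A K)) (ℓ * ℓ) (GaussDVR.rho (OE A K) (u4 (OE A K)))
        = GaussDVR.rho (OE A K) (u4 (OE A K)) ^ (ℓ * ℓ) ∧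
      Prime (piC (u4E R K h4) π) ∧
      IsIntegral (Algebra.adjoin (OE A K) {alphaSq R ℓ K (u4E R K h4)})
        (betaSq R ℓ K (u4E R K h4)) ∧
      FiniteDimensional (IntermediateField.adjoin K {u4E R K h4}) (LE R K) := by
  letI := algebraOL (OE A K) K (LE R K)
  letI := algebraOL (OE A K) K (LE (R * ℓ) K)
  haveI := isScalarTower_OL (OE A K) K (LE (R * ℓ) K)
  letI := algebraOL (OE A K) K (LE (R * ℓ * ℓ) K)
  haveI := isScalarTower_OL (OE A K) K (LE (R * ℓ * ℓ) K)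
  haveI := charP_ell K ℓ hℓ A hA
  have h2 := isUnit_two K ℓ hℓ hodd A hA
  exact ⟨hσu_u4 R K ℓ h4, hord_u4, hcop_u4 _, theta_rho_u4_ne_zero,
    qExpand_sq_rho_u4 ℓ hℓ, hprime_u4 R K ℓ hℓ hodd A hA h4 hℓR z hz hzK π hπ,
    hy_u4 R K ℓ h2 hℓ hodd hℓR h4, finite_u4E R K h4⟩

include hℓ hodd hA hℓR hz hzK hπ in
/-- **All coordinate binders of `MidVal.package_mid` / `InstA.package_alpha` (level `q²`),
chart at infinity** (`u' = u₄⁻¹`, `U = posO (OE A K) s4Z`, `N = ℓ * ℓ`). -/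
theorem coord4_sq_inf :
    letI := algebraOL (OE A K) K (LE R K)
    letI := algebraOL (OE A K) K (LE (R * ℓ * ℓ) K)
    sigmaHom (R * ℓ * ℓ) K (alphaSq R ℓ K (u4E R K h4)⁻¹)
        = GaussDVR.iota (OE A K) K (HauptU.E.posO (OE A K) s4Z) ∧
      (GaussDVR.rho (OE A K) (HauptU.E.posO (OE A K) s4Z)).order ≠ 0 ∧
      IsCoprime (GaussDVR.rho (OE A K) (HauptU.E.posO (OE A K) s4Z)).order
        ((ℓ * ℓ : ℕ) : ℤ) ∧
      QFormal.theta (GaussDVR.rho (OE A K) (HauptU.E.posO (OE A K) s4Z)) ≠ 0 ∧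
      qExpand (IsLocalRing.ResidueField (OE A K)) (ℓ * ℓ)
          (GaussDVR.rho (OE A K) (HauptU.E.posO (OE A K) s4Z))
        = GaussDVR.rho (OE A K) (HauptU.E.posO (OE A K) s4Z) ^ (ℓ * ℓ) ∧
      Prime (piC (u4E R K h4)⁻¹ π) ∧
      IsIntegral (Algebra.adjoin (OE A K) {alphaSq R ℓ K (u4E R K h4)⁻¹})
        (betaSq R ℓ K (u4E R K h4)⁻¹) ∧
      FiniteDimensional (IntermediateField.adjoin K {(u4E R K h4)⁻¹}) (LE R K) := by
  letI := algebraOL (OE A K) K (LE R K)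
  letI := algebraOL (OE A K) K (LE (R * ℓ) K)
  haveI := isScalarTower_OL (OE A K) K (LE (R * ℓ) K)
  letI := algebraOL (OE A K) K (LE (R * ℓ * ℓ) K)
  haveI := isScalarTower_OL (OE A K) K (LE (R * ℓ * ℓ) K)
  haveI := charP_ell K ℓ hℓ A hA
  have h2 := isUnit_two K ℓ hℓ hodd A hA
  exact ⟨hσu_s4 R K ℓ h4, hord_s4, hcop_s4 _, theta_rho_s4_ne_zero,
    qExpand_sq_rho_s4 ℓ hℓ, hprime_s4 R K ℓ hℓ hodd A hA h4 hℓR z hz hzK π hπ,
    hy_s4 R K ℓ h2 hℓ hodd hℓR h4, finite_u4E_inv R K h4⟩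

end Arith

end Level

end Fermat.Agent.S36.SqChart.Coord4
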