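import Mathlib
import Fermat.Agent.S30.GaussDVR
import Fermat.Agent.S30.Congr
import Fermat.Agent.S36.QFormal
import Fermat.Agent.S36.MidCusp

/-!
# S36, C2 modular instance (File 3, layer A): the Gauss twist at the middle cusp (level free)

`O`, `O'` discrete valuation rings with "fraction-side" fields `E`, `E'` (as in `S30/GaussDVR`),
`ψ : O →+* O'` a local homomorphism, `φ : E →+* E'` compatible with it.  `z₀ : O'ˣ` a unit with
`z₀ ≡ 1` modulo the maximal ideal, `λ := z₀ - 1`, `z : E'ˣ` its image.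

* `coeffMap_mem_V`, `coeffMap_mem_fracField`, `red_coeffMap` : extension of coefficients
  `E((q)) → E'((q))` maps the Gauss ring of `O` into the Gauss ring of `O'`, compatibly with the
  reductions (`red_coeffMap_eq_zero_iff`).
* `rescale_mem_V`, `rescale_mem_fracField`, `red_rescale` : the substitution `q ↦ z q` preserves
  the Gauss ring of `O'` and does not change reductions.
* `exists_twist` : **the twist**.  For every `x` in the Gauss ring of `O'` there is `y` in the
  Gauss ring with `x(z q) - x = λ y` and `red y = θ (red x)`, `θ = q d/dq`.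
* `exists_twist_coeffMap` : the same for `x` in the Gauss ring of `O`, read in `E'((q))`.

In the application `O = 𝒪_K` (unramified at `q`), `O' = 𝒪_{K(ζ_q)}`, `z₀ = ζ_q`, and
`x ↦ x(ζ q)` is the expansion of `V_{q²} x` at the middle cusp of `X₀(q² M')`: the statement is
"`V_{q²} r ≡ r` on the middle component and `(V_{q²} r - r)/λ` reduces to `θ r̄`".
-/

set_option autoImplicit false
set_option linter.unusedSectionVars false

open ModularCurve

noncomputable section

namespace Fermat.Agent.S36.SqChart.Twist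

open Fermat.Agent.S30 Fermat.Agent.S36.QFormal

/-! ### Extension of coefficients -/

section CoeffMap

variable {O E O' E' : Type*} [CommRing O] [IsDomain O] [IsDiscreteValuationRing O] [Field E]
  [Algebra O E] [FaithfulSMul O E]
  [CommRing O'] [IsDomain O'] [IsDiscreteValuationRing O'] [Field E']
  [Algebra O' E'] [FaithfulSMul O' E']
  (ψ : O →+* O') (φ : E →+* E')
  (hψφ : ∀ r : O, φ (algebraMap O E r) = algebraMap O' E' (ψ r))

include hψφ in
theorem coeffMap_iota (a : LaurentSeries O) :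
    coeffMap φ (GaussDVR.iota O E a) = GaussDVR.iota O' E' (coeffMap ψ a) := by
  ext n
  simp only [coeffMap_coeff]
  exact hψφ _

include hψφ in
theorem psi_injective : Function.Injective ψ := by
  intro a b h
  apply FaithfulSMul.algebraMap_injective O E
  apply φ.injective
  rw [hψφ, hψφ, h]

theorem rho_coeffMap [IsLocalHom ψ] (a : LaurentSeries O) :
    GaussDVR.rho O' (coeffMap ψ a)
      = coeffMap (IsLocalRing.ResidueField.map ψ) (GaussDVR.rho O a) := by
  ext n
  simp only [coeffMap_coeff]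
  rfl

theorem rho_coeffMap_ne_zero [IsLocalHom ψ] {b : LaurentSeries O} (hb : GaussDVR.rho O b ≠ 0) :
    GaussDVR.rho O' (coeffMap ψ b) ≠ 0 := by
  rw [rho_coeffMap]
  intro h
  apply hb
  apply Congr.coeffMap_injective _ (IsLocalRing.ResidueField.map ψ).injective
  rw [h, map_zero]

include hψφ in
/-- Extension of coefficients maps the Gauss ring into the Gauss ring. -/
theorem coeffMap_mem_V [IsLocalHom ψ] {x : LaurentSeries E} (hx : x ∈ GaussDVR.V O E) :
    coeffMap φ x ∈ GaussDVR.V O' E' := by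
  obtain ⟨a, b, hb, h⟩ := hx
  refine ⟨coeffMap ψ a, coeffMap ψ b, rho_coeffMap_ne_zero ψ hb, ?_⟩
  rw [← coeffMap_iota ψ φ hψφ, ← coeffMap_iota ψ φ hψφ, ← map_mul, h]

include hψφ in
/-- Extension of coefficients maps the fraction field of `O((q))` into that of `O'((q))`. -/
theorem coeffMap_mem_fracField {x : LaurentSeries E} (hx : x ∈ GaussDVR.fracField O E) :
    coeffMap φ x ∈ GaussDVR.fracField O' E' := by
  obtain ⟨a, b, hb, h⟩ := hx
  refine ⟨coeffMap ψ a, coeffMap ψ b, ?_, ?_⟩
  · intro h0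
    apply hb
    apply Congr.coeffMap_injective ψ (psi_injective ψ φ hψφ)
    rw [h0, map_zero]
  · rw [← coeffMap_iota ψ φ hψφ, ← coeffMap_iota ψ φ hψφ, ← map_mul, h]

include hψφ in
/-- Reduction commutes with extension of coefficients. -/
theorem red_coeffMap [IsLocalHom ψ] (x : GaussDVR.V O E) :
    GaussDVR.red O' E' ⟨coeffMap φ (x : LaurentSeries E), coeffMap_mem_V ψ φ hψφ x.2⟩
      = coeffMap (IsLocalRing.ResidueField.map ψ) (GaussDVR.red O E x) := by
  obtain ⟨a, b, hb, h⟩ := (GaussDVR.mem_V O E).mp x.2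
  rw [GaussDVR.red_eq O' E' _ (coeffMap ψ a) (coeffMap ψ b) (rho_coeffMap_ne_zero ψ hb)
      (by
        show coeffMap φ (x : LaurentSeries E) * _ = _
        rw [← coeffMap_iota ψ φ hψφ, ← coeffMap_iota ψ φ hψφ, ← map_mul, h]),
    GaussDVR.red_eq O E x a b hb h, rho_coeffMap, rho_coeffMap, map_div₀]

include hψφ in
theorem red_coeffMap_eq_zero_iff [IsLocalHom ψ] (x : GaussDVR.V O E) :
    GaussDVR.red O' E' ⟨coeffMap φ (x : LaurentSeries E), coeffMap_mem_V ψ φ hψφ x.2⟩ = 0
      ↔ GaussDVR.red O E x = 0 := by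
  rw [red_coeffMap ψ φ hψφ]
  constructor
  · intro h
    apply Congr.coeffMap_injective _ (IsLocalRing.ResidueField.map ψ).injective
    rw [h, map_zero]
  · intro h
    rw [h, map_zero]

end CoeffMap

/-! ### The substitution `q ↦ z q` for a unit `z ≡ 1` -/

section Rescale

variable {O' E' : Type*} [CommRing O'] [IsDomain O'] [IsDiscreteValuationRing O'] [Field E']
  [Algebra O' E'] [FaithfulSMul O' E']

/-- The image in `E'` of a unit of `O'`. -/
def unitE (E' : Type*) [Field E'] [Algebra O' E'] (z₀ : O'ˣ) : E'ˣ :=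
  Units.map (algebraMap O' E' : O' →* E') z₀

@[simp] theorem coe_unitE (z₀ : O'ˣ) : ((unitE E' z₀ : E'ˣ) : E') = algebraMap O' E' (z₀ : O') :=
  rfl

theorem coe_unitE_zpow (z₀ : O'ˣ) (n : ℤ) :
    (((unitE E' z₀) ^ n : E'ˣ) : E') = algebraMap O' E' ((z₀ ^ n : O'ˣ) : O') := by
  unfold unitE
  rw [← map_zpow]
  rfl

theorem rescale_iota (z₀ : O'ˣ) (a : LaurentSeries O') :
    Congr.rescale (unitE E' z₀) (GaussDVR.iota O' E' a)
      = GaussDVR.iota O' E' (Congr.rescale z₀ a) := by
  ext n
  rw [Congr.coeff_rescale, coeffMap_coeff, coeffMap_coeff, Congr.coeff_rescale, map_mul,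
    coe_unitE_zpow]

/-- The image in the residue field of a unit of `O'`. -/
def unitK (z₀ : O'ˣ) : (IsLocalRing.ResidueField O')ˣ :=
  Units.map (IsLocalRing.residue O' : O' →* IsLocalRing.ResidueField O') z₀

theorem rho_rescale (z₀ : O'ˣ) (a : LaurentSeries O') :
    GaussDVR.rho O' (Congr.rescale z₀ a) = Congr.rescale (unitK z₀) (GaussDVR.rho O' a) := by
  ext n
  rw [coeffMap_coeff, Congr.coeff_rescale, Congr.coeff_rescale, coeffMap_coeff, map_mul]
  congr 1
  unfold unitK
  rw [← map_zpow]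
  rfl

theorem unitK_eq_one {z₀ : O'ˣ} (hz : IsLocalRing.residue O' (z₀ : O') = 1) : unitK z₀ = 1 :=
  Units.ext hz

/-- If `z₀ ≡ 1`, the substitution `q ↦ z₀ q` does not change the reduction. -/
theorem rho_rescale_of_one {z₀ : O'ˣ} (hz : IsLocalRing.residue O' (z₀ : O') = 1)
    (a : LaurentSeries O') : GaussDVR.rho O' (Congr.rescale z₀ a) = GaussDVR.rho O' a := by
  rw [rho_rescale, unitK_eq_one hz, Congr.rescale_one]

theorem rescale_mem_fracField (z₀ : O'ˣ) {x : LaurentSeries E'}
    (hx : x ∈ GaussDVR.fracField O' E') :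
    Congr.rescale (unitE E' z₀) x ∈ GaussDVR.fracField O' E' := by
  obtain ⟨a, b, hb, h⟩ := hx
  refine ⟨Congr.rescale z₀ a, Congr.rescale z₀ b, ?_, ?_⟩
  · intro h0
    apply hb
    ext n
    have h1 := congrArg (fun t : LaurentSeries O' => t.coeff n) h0
    simp only [Congr.coeff_rescale, HahnSeries.coeff_zero, Units.mul_right_eq_zero] at h1
    rw [h1, HahnSeries.coeff_zero]
  · rw [← rescale_iota, ← rescale_iota, ← map_mul, h]

theorem rescale_mem_V {z₀ : O'ˣ} (hz : IsLocalRing.residue O' (z₀ : O') = 1)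
    {x : LaurentSeries E'} (hx : x ∈ GaussDVR.V O' E') :
    Congr.rescale (unitE E' z₀) x ∈ GaussDVR.V O' E' := by
  obtain ⟨a, b, hb, h⟩ := hx
  refine ⟨Congr.rescale z₀ a, Congr.rescale z₀ b, ?_, ?_⟩
  · rw [rho_rescale_of_one hz]; exact hb
  · rw [← rescale_iota, ← rescale_iota, ← map_mul, h]

/-- If `z₀ ≡ 1`, the substitution `q ↦ z q` does not change reductions. -/
theorem red_rescale {z₀ : O'ˣ} (hz : IsLocalRing.residue O' (z₀ : O') = 1)
    (x : GaussDVR.V O' E') :
    GaussDVR.red O' E' ⟨Congr.rescale (unitE E' z₀) (x : LaurentSeries E'),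
        rescale_mem_V hz x.2⟩ = GaussDVR.red O' E' x := by
  obtain ⟨a, b, hb, h⟩ := (GaussDVR.mem_V O' E').mp x.2
  rw [GaussDVR.red_eq O' E' _ (Congr.rescale z₀ a) (Congr.rescale z₀ b)
      (by rw [rho_rescale_of_one hz]; exact hb)
      (by
        show Congr.rescale (unitE E' z₀) (x : LaurentSeries E') * _ = _
        rw [← rescale_iota, ← rescale_iota, ← map_mul, h]),
    GaussDVR.red_eq O' E' x a b hb h, rho_rescale_of_one hz, rho_rescale_of_one hz]

/-- `θ` of a quotient. -/
theorem theta_div {k : Type*} [Field k] (a b : LaurentSeries k) (hb : b ≠ 0) :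
    theta (a / b) = (theta a * b - a * theta b) / (b * b) := by
  have h1 : theta a = theta (a / b) * b + a / b * theta b := by
    conv_lhs => rw [← div_mul_cancel₀ a hb]
    rw [theta_mul]
  rw [h1]
  field_simp
  ring

/-- **The twist on integral series**: `a(z₀ q) - a = λ D` with `D ≡ θ a`, `λ = z₀ - 1`. -/
theorem exists_twist_int {z₀ : O'ˣ} (hz : IsLocalRing.residue O' (z₀ : O') = 1)
    (a : LaurentSeries O') :
    ∃ D : LaurentSeries O', Congr.rescale z₀ a = a + HahnSeries.C ((z₀ : O') - 1) * D ∧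
      GaussDVR.rho O' D = theta (GaussDVR.rho O' a) := by
  obtain ⟨c, hc⟩ := MidCusp.exists_rescale_eq z₀ a
  refine ⟨theta a + HahnSeries.C ((z₀ : O') - 1) * c, ?_, ?_⟩
  · rw [hc, sq, map_mul]
    ring
  · have h0 : GaussDVR.rho O' (HahnSeries.C ((z₀ : O') - 1)) = 0 := by
      rw [GaussDVR.rho_C, map_sub, hz, map_one, sub_self, map_zero]
    rw [map_add, map_mul, h0, zero_mul, add_zero]
    exact coeffMap_theta _ a

/-- **The twist.**  `z₀ ≡ 1` a unit of `O'`, `λ = z₀ - 1`: for every `x` of the Gauss ring there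
is `y` in the Gauss ring with `x(z q) - x = λ y` and `red y = θ (red x)`. -/
theorem exists_twist {z₀ : O'ˣ} (hz : IsLocalRing.residue O' (z₀ : O') = 1)
    (x : GaussDVR.V O' E') :
    ∃ y : GaussDVR.V O' E',
      Congr.rescale (unitE E' z₀) (x : LaurentSeries E') - (x : LaurentSeries E')
          = HahnSeries.C (algebraMap O' E' ((z₀ : O') - 1)) * (y : LaurentSeries E') ∧
        GaussDVR.red O' E' y = theta (GaussDVR.red O' E' x) := by
  obtain ⟨a, b, hb, h⟩ := (GaussDVR.mem_V O' E').mp x.2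
  obtain ⟨Da, hDa, hρDa⟩ := exists_twist_int hz a
  obtain ⟨Db, hDb, hρDb⟩ := exists_twist_int hz b
  have hbz : GaussDVR.rho O' (Congr.rescale z₀ b) ≠ 0 := by
    rw [rho_rescale_of_one hz]; exact hb
  have hbb : GaussDVR.rho O' (b * Congr.rescale z₀ b) ≠ 0 := by
    rw [map_mul]; exact mul_ne_zero hb hbz
  have hb0 : GaussDVR.iota O' E' b ≠ 0 :=
    GaussDVR.iota_ne_zero O' E' (GaussDVR.ne_zero_of_rho_ne_zero O' hb)
  have hbz0 : GaussDVR.iota O' E' (Congr.rescale z₀ b) ≠ 0 :=
    GaussDVR.iota_ne_zero O' E' (GaussDVR.ne_zero_of_rho_ne_zero O' hbz)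
  refine ⟨⟨GaussDVR.iota O' E' (Da * b - a * Db) / GaussDVR.iota O' E' (b * Congr.rescale z₀ b),
    GaussDVR.div_mem O' E' _ _ hbb⟩, ?_, ?_⟩
  · -- the identity
    have hxz : Congr.rescale (unitE E' z₀) (x : LaurentSeries E')
        * GaussDVR.iota O' E' (Congr.rescale z₀ b) = GaussDVR.iota O' E' (Congr.rescale z₀ a) := by
      rw [← rescale_iota, ← rescale_iota, ← map_mul, h]
    have hC : (HahnSeries.C (algebraMap O' E' ((z₀ : O') - 1)) : LaurentSeries E')
        = GaussDVR.iota O' E' (HahnSeries.C ((z₀ : O') - 1)) := (GaussDVR.iota_C O' E' _).symm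
    show _ = _ * (GaussDVR.iota O' E' (Da * b - a * Db)
      / GaussDVR.iota O' E' (b * Congr.rescale z₀ b))
    rw [eq_comm, mul_div_assoc', div_eq_iff (by rw [map_mul]; exact mul_ne_zero hb0 hbz0), hC,
      ← map_mul]
    have e1 : HahnSeries.C ((z₀ : O') - 1) * (Da * b - a * Db)
        = Congr.rescale z₀ a * b - a * Congr.rescale z₀ b := by
      rw [hDa, hDb]; ring
    rw [e1, map_sub, map_mul, map_mul, map_mul, ← hxz, ← h]
    ring
  · rw [GaussDVR.red_div O' E' _ _ hbb, GaussDVR.red_eq O' E' x a b hb h, theta_div _ _ hb,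
      map_sub, map_mul, map_mul, map_mul, hρDa, hρDb, rho_rescale_of_one hz]

end Rescale

/-! ### The twist for the Gauss ring of the small field -/

section Both

variable {O E O' E' : Type*} [CommRing O] [IsDomain O] [IsDiscreteValuationRing O] [Field E]
  [Algebra O E] [FaithfulSMul O E]
  [CommRing O'] [IsDomain O'] [IsDiscreteValuationRing O'] [Field E']
  [Algebra O' E'] [FaithfulSMul O' E']
  (ψ : O →+* O') (φ : E →+* E')
  (hψφ : ∀ r : O, φ (algebraMap O E r) = algebraMap O' E' (ψ r))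

include hψφ in
/-- **The twist, read from the small field.**  For `x` in the Gauss ring of `O`:
`x(z q) - x = λ y` in `E'((q))` with `y` in the Gauss ring of `O'` and
`red y = θ (red x)` (coefficients extended to the residue field of `O'`). -/
theorem exists_twist_coeffMap [IsLocalHom ψ] {z₀ : O'ˣ}
    (hz : IsLocalRing.residue O' (z₀ : O') = 1) (x : GaussDVR.V O E) :
    ∃ y : GaussDVR.V O' E',
      Congr.rescale (unitE E' z₀) (coeffMap φ (x : LaurentSeries E))
          - coeffMap φ (x : LaurentSeries E)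
          = HahnSeries.C (algebraMap O' E' ((z₀ : O') - 1)) * (y : LaurentSeries E') ∧
        GaussDVR.red O' E' y
          = theta (coeffMap (IsLocalRing.ResidueField.map ψ) (GaussDVR.red O E x)) := by
  obtain ⟨y, hy, hred⟩ := exists_twist (E' := E') hz
    ⟨coeffMap φ (x : LaurentSeries E), coeffMap_mem_V ψ φ hψφ x.2⟩
  exact ⟨y, hy, by rw [hred, red_coeffMap ψ φ hψφ]⟩

include hψφ in
/-- The twisted series is in the Gauss ring and has the same reduction. -/
theorem red_rescale_coeffMap [IsLocalHom ψ] {z₀ : O'ˣ}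
    (hz : IsLocalRing.residue O' (z₀ : O') = 1) (x : GaussDVR.V O E) :
    GaussDVR.red O' E' ⟨Congr.rescale (unitE E' z₀) (coeffMap φ (x : LaurentSeries E)),
        rescale_mem_V hz (coeffMap_mem_V ψ φ hψφ x.2)⟩
      = coeffMap (IsLocalRing.ResidueField.map ψ) (GaussDVR.red O E x) := by
  rw [← red_coeffMap ψ φ hψφ]
  exact red_rescale hz ⟨coeffMap φ (x : LaurentSeries E), coeffMap_mem_V ψ φ hψφ x.2⟩

end Both

end Fermat.Agent.S36.SqChart.Twist
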