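import Mathlib
import Fermat.Agent.S36.MidVal
import Fermat.Agent.S36.SqExit

/-!
# S36 (C2), Gauss route: the producer of `SqExit.Hyp`

Level-free.  Fields `L' --a1--> L1 --a2, b2--> L2` (levels `M'`, `q M'`, `q² M'`), chart rings
`B1 = Chart O (a1 u')`, `B2 = Chart O ((a2.comp a1) u')`, the two degeneracy maps
`alphaC, betaC : B1 →+* B2` (`s ↦ a2 s`, `s ↦ b2 s`).

* `hyp_of_red` : `SqExit.Hyp` from reduction maps (pure ring theory; any producer of the three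
  valuations can use it);
* `hyp` : `SqExit.Hyp alphaC betaC ϖ (ker redInf₁) (ker redZero₁) (ker rI) (ker rZ) P11 e`
  from the binders of `TwoPrimesGauss.package` at level `q` and of `MidVal.package_mid` at level
  `q²`, plus the `q`-expansion compatibilities of the two towers.

The six inclusions are obtained as follows: `α p∞ ⊆ P∞, P11` directly from `σ₂ ∘ a2 = σ₁`,
`σm ∘ a2 = φ ∘ σ₁`; the other four from the classification of the primes of `B1` over `(ϖ)`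
(`TwoPrimesGauss.eq_ker_or_eq_ker`) and the separator `w₁ u - u ^ q ∈ p∞ ∖ p0`.
-/

set_option autoImplicit false
set_option linter.unusedSectionVars false
set_option linter.unusedVariables false
set_option linter.style.haveILetI false

noncomputable section

namespace Fermat.Agent.S36.SqChart.HypGauss

open ModularCurve Polynomial
open Fermat.Agent.S30 Fermat.Agent.S34 Fermat.Agent.S34.TwoPrimesGauss
open Fermat.Agent.S36 Fermat.Agent.S36.SqChart Fermat.Agent.S36.MultPrimesGauss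
open Fermat.Agent.S36.MidVal

universe u

/-! ### `SqExit.Hyp` from reduction maps -/

section Abstract

variable {B1 B2 K1 K2 Vm : Type*} [CommRing B1] [IsDomain B1] [IsIntegrallyClosed B1]
  [CommRing B2] [IsDomain B2] [IsIntegrallyClosed B2]
  [CommRing K1] [IsDomain K1] [CommRing K2] [IsDomain K2] [CommRing Vm] [IsDomain Vm]

/-- **`SqExit.Hyp` from reduction maps.**  `rI1, rZ1` the two reductions of `B1`, `rI, rZ` two
of the three reductions of `B2`, `τm : B2 →+* Vm` the third valuation with uniformiser `lam`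
and multiplicity `e`. -/
theorem hyp_of_red (α β : B1 →+* B2) (π1 : B1) (rI1 rZ1 : B1 →+* K1) (rI rZ : B2 →+* K2)
    (τm : B2 →+* Vm) (lam : Vm) (hlam : Prime lam) (e : ℕ) (he : 0 < e)
    (hαinj : Function.Injective α) (hαint : α.IsIntegral)
    (hβinj : Function.Injective β) (hβint : β.IsIntegral) (hπ : β π1 = α π1)
    (hπI1 : rI1 π1 = 0) (hπZ1 : rZ1 π1 = 0)
    (hsepI : ∃ c, rI1 c = 0 ∧ rZ1 c ≠ 0) (hsepZ : ∃ c, rZ1 c = 0 ∧ rI1 c ≠ 0)
    (h1 : ∀ s, rI1 s = 0 → rI (α s) = 0) (h2 : ∀ s, rI1 s = 0 → lam ∣ τm (α s))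
    (h3 : ∀ s, rZ1 s = 0 → rZ (α s) = 0) (h4 : ∀ s, rI1 s = 0 → rI (β s) = 0)
    (h5 : ∀ s, rZ1 s = 0 → rZ (β s) = 0) (h6 : ∀ s, rZ1 s = 0 → lam ∣ τm (β s))
    (hsat : ∀ c, rI c = 0 → rZ c = 0 → lam ^ e ∣ τm c → α π1 ∣ c)
    (hπm : lam ^ e ∣ τm (α π1))
    (EI EZ Em : B2) (hEI : rI EI ≠ 0 ∧ rZ EI = 0 ∧ lam ^ e ∣ τm EI)
    (hEZ : rZ EZ ≠ 0 ∧ rI EZ = 0 ∧ lam ^ e ∣ τm EZ)
    (hEm : ¬ lam ∣ τm Em ∧ rI Em = 0 ∧ rZ Em = 0) :
    SqExit.Hyp α β π1 (RingHom.ker rI1) (RingHom.ker rZ1) (RingHom.ker rI) (RingHom.ker rZ)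
      ((Ideal.span {lam}).comap τm) e := by
  have hmem11 : ∀ x : B2, x ∈ (Ideal.span {lam}).comap τm ↔ lam ∣ τm x := fun x => by
    rw [Ideal.mem_comap, Ideal.mem_span_singleton]
  have hπI : rI (α π1) = 0 := h1 π1 hπI1
  have hπZ : rZ (α π1) = 0 := h3 π1 hπZ1
  haveI : (Ideal.span {lam}).IsPrime := (Ideal.span_singleton_prime hlam.ne_zero).mpr hlam
  refine
    { α_inj := hαinj
      α_int := hαint
      β_inj := hβinj
      β_int := hβint
      π_eq := hπ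
      k_pos := he
      poo_prime := RingHom.ker_isPrime rI1
      p0_prime := RingHom.ker_isPrime rZ1
      Poo_prime := RingHom.ker_isPrime rI
      P0_prime := RingHom.ker_isPrime rZ
      P11_prime := Ideal.comap_isPrime τm _
      π_mem_poo := (RingHom.mem_ker).mpr hπI1
      π_mem_p0 := (RingHom.mem_ker).mpr hπZ1
      poo_not_le := ?_
      p0_not_le := ?_
      α_poo_Poo := fun a ha => (RingHom.mem_ker).mpr (h1 a ((RingHom.mem_ker).mp ha))
      α_poo_P11 := fun a ha => (hmem11 _).mpr (h2 a ((RingHom.mem_ker).mp ha))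
      α_p0_P0 := fun a ha => (RingHom.mem_ker).mpr (h3 a ((RingHom.mem_ker).mp ha))
      β_poo_Poo := fun a ha => (RingHom.mem_ker).mpr (h4 a ((RingHom.mem_ker).mp ha))
      β_p0_P0 := fun a ha => (RingHom.mem_ker).mpr (h5 a ((RingHom.mem_ker).mp ha))
      β_p0_P11 := fun a ha => (hmem11 _).mpr (h6 a ((RingHom.mem_ker).mp ha))
      mult_oo := ?_
      mult_0 := ?_
      mult_11 := ?_
      hdet := ?_ }
  · obtain ⟨c, hc1, hc2⟩ := hsepI
    exact fun hle => hc2 ((RingHom.mem_ker).mp (hle ((RingHom.mem_ker).mpr hc1)))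
  · obtain ⟨c, hc1, hc2⟩ := hsepZ
    exact fun hle => hc2 ((RingHom.mem_ker).mp (hle ((RingHom.mem_ker).mpr hc1)))
  · intro x hx
    have hx0 : rI x = 0 := (RingHom.mem_ker).mp hx
    refine ⟨EI, fun h => hEI.1 ((RingHom.mem_ker).mp h), hsat _ ?_ ?_ ?_⟩
    · rw [map_mul, hx0, mul_zero]
    · rw [map_mul, hEI.2.1, zero_mul]
    · rw [map_mul]; exact Dvd.dvd.mul_right hEI.2.2 _
  · intro x hx
    have hx0 : rZ x = 0 := (RingHom.mem_ker).mp hx
    refine ⟨EZ, fun h => hEZ.1 ((RingHom.mem_ker).mp h), hsat _ ?_ ?_ ?_⟩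
    · rw [map_mul, hEZ.2.1, zero_mul]
    · rw [map_mul, hx0, mul_zero]
    · rw [map_mul]; exact Dvd.dvd.mul_right hEZ.2.2 _
  · intro x hx
    have hxe : lam ^ e ∣ τm x := by
      have hle : ((Ideal.span {lam}).comap τm) ^ e ≤ (Ideal.span {lam ^ e}).comap τm := by
        rw [← Ideal.map_le_iff_le_comap, Ideal.map_pow, ← Ideal.span_singleton_pow]
        exact Ideal.pow_right_mono Ideal.map_comap_le e
      exact Ideal.mem_span_singleton.mp (Ideal.mem_comap.mp (hle hx))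
    refine ⟨Em, fun h => hEm.1 ((hmem11 _).mp h), hsat _ ?_ ?_ ?_⟩
    · rw [map_mul, hEm.2.1, zero_mul]
    · rw [map_mul, hEm.2.2, zero_mul]
    · rw [map_mul]; exact Dvd.dvd.mul_left hxe _
  · rintro x ⟨t1, ht1, hd1⟩ ⟨t2, ht2, hd2⟩ ⟨t3, ht3, hd3⟩
    refine hsat x ?_ ?_ ?_
    · obtain ⟨c, hc⟩ := hd1
      have h := congrArg rI hc
      rw [map_mul, map_mul, hπI, zero_mul] at h
      exact (mul_eq_zero.mp h).resolve_left fun h0 => ht1 ((RingHom.mem_ker).mpr h0)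
    · obtain ⟨c, hc⟩ := hd2
      have h := congrArg rZ hc
      rw [map_mul, map_mul, hπZ, zero_mul] at h
      exact (mul_eq_zero.mp h).resolve_left fun h0 => ht2 ((RingHom.mem_ker).mpr h0)
    · have h : lam ^ e ∣ τm t3 * τm x := by
        rw [← map_mul]
        exact hπm.trans (map_dvd τm hd3)
      exact hlam.pow_dvd_of_dvd_mul_left e (fun h0 => ht3 ((hmem11 _).mpr h0)) h

end Abstract

/-! ### Chart maps -/

section ChartMap

variable {O : Type*} [CommRing O] [IsDomain O] [IsDiscreteValuationRing O]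
  {L1 L2 : Type*} [Field L1] [Field L2] [Algebra O L1] [Algebra O L2]

/-- Transitivity of integrality over the rings `O[u]`. -/
theorem isIntegral_adjoin_trans {u v c : L2} (hv : IsIntegral (Algebra.adjoin O {u}) v)
    (hc : IsIntegral (Algebra.adjoin O {v}) c) : IsIntegral (Algebra.adjoin O {u}) c := by
  have hle : Algebra.adjoin O {v} ≤
      (integralClosure (Algebra.adjoin O {u}) L2).restrictScalars O := by
    apply Algebra.adjoin_le
    rintro x hx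
    rw [Set.mem_singleton_iff] at hx
    subst hx
    exact hv
  have h1 : IsIntegral (integralClosure (Algebra.adjoin O {u}) L2) c := by
    obtain ⟨p, hp, hpc⟩ := hc
    refine ⟨p.map ((algebraMap (Algebra.adjoin O {v}) L2).codRestrict
      (integralClosure (Algebra.adjoin O {u}) L2) (fun x => hle x.2)), hp.map _, ?_⟩
    rw [eval₂_map]
    exact hpc
  exact isIntegral_trans (A := integralClosure (Algebra.adjoin O {u}) L2) c h1

/-- The map of chart rings `Chart O u → Chart O v` induced by an `O`-linear field map `f` with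
`f u` integral over `O[v]`. -/
def chartMap (f : L1 →+* L2) (hfO : ∀ r : O, f (algebraMap O L1 r) = algebraMap O L2 r)
    (u : L1) (v : L2) (hv : IsIntegral (Algebra.adjoin O {v}) (f u)) :
    Chart O u →+* Chart O v where
  toFun x := ⟨f (x : L1), isIntegral_adjoin_trans hv (isIntegral_alpha f hfO u x.2)⟩
  map_one' := Subtype.ext (map_one f)
  map_mul' _ _ := Subtype.ext (map_mul f _ _)
  map_zero' := Subtype.ext (map_zero f)
  map_add' _ _ := Subtype.ext (map_add f _ _)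

theorem coe_chartMap (f : L1 →+* L2) (hfO : ∀ r : O, f (algebraMap O L1 r) = algebraMap O L2 r)
    (u : L1) (v : L2) (hv : IsIntegral (Algebra.adjoin O {v}) (f u)) (x : Chart O u) :
    ((chartMap f hfO u v hv x : Chart O v) : L2) = f (x : L1) := rfl

theorem chartMap_injective (f : L1 →+* L2)
    (hfO : ∀ r : O, f (algebraMap O L1 r) = algebraMap O L2 r)
    (u : L1) (v : L2) (hv : IsIntegral (Algebra.adjoin O {v}) (f u)) :
    Function.Injective (chartMap f hfO u v hv) := by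
  intro x y h
  exact Subtype.ext (f.injective (congrArg (fun z : Chart O v => (z : L2)) h))

theorem chartMap_piC (f : L1 →+* L2) (hfO : ∀ r : O, f (algebraMap O L1 r) = algebraMap O L2 r)
    (u : L1) (v : L2) (hv : IsIntegral (Algebra.adjoin O {v}) (f u)) (ϖ : O) :
    chartMap f hfO u v hv (piC u ϖ) = piC v ϖ :=
  Subtype.ext (hfO ϖ)

/-- `chartMap` is integral as soon as `v` is integral over `O[f u]`. -/
theorem chartMap_isIntegral (f : L1 →+* L2)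
    (hfO : ∀ r : O, f (algebraMap O L1 r) = algebraMap O L2 r)
    (u : L1) (v : L2) (hv : IsIntegral (Algebra.adjoin O {v}) (f u))
    (hv' : IsIntegral (Algebra.adjoin O {f u}) v) : (chartMap f hfO u v hv).IsIntegral := by
  intro c
  obtain ⟨q, hq, hqc⟩ := (isIntegral_adjoin_iff (f u) (c : L2)).mp
    (isIntegral_adjoin_trans hv' c.2)
  refine ⟨q.map (polyChart u), hq.map _, Subtype.ext ?_⟩
  rw [eval₂_map]
  have h := hom_eval₂ q ((chartMap f hfO u v hv).comp (polyChart u))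
    (algebraMap (Chart O v) L2) c
  have hcomp : (algebraMap (Chart O v) L2).comp ((chartMap f hfO u v hv).comp (polyChart u)) =
      ((aeval (f u) : O[X] →ₐ[O] L2) : O[X] →+* L2) := by
    rw [← aeval_alpha f hfO u]
    rfl
  rw [hcomp] at h
  rw [show ((q.eval₂ ((chartMap f hfO u v hv).comp (polyChart u)) c : Chart O v) : L2) =
    algebraMap (Chart O v) L2 (q.eval₂ ((chartMap f hfO u v hv).comp (polyChart u)) c) from rfl, h]
  exact hqc

end ChartMap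

/-! ### The two degeneracy maps of chart rings -/

section Maps

variable {O : Type*} [CommRing O] [IsDomain O] [IsDiscreteValuationRing O]
  {L' L1 L2 : Type*} [Field L'] [Field L1] [Field L2] [Algebra O L'] [Algebra O L1] [Algebra O L2]
  (a1 : L' →+* L1)
  (w1 : L1 ≃+* L1) (hw1O : ∀ r : O, w1 (algebraMap O L1 r) = algebraMap O L1 r)
  (hw1w1 : ∀ z : L1, w1 (w1 z) = z)
  (a2 b2 : L1 →+* L2) (ha2O : ∀ r : O, a2 (algebraMap O L1 r) = algebraMap O L2 r)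
  (hb2O : ∀ r : O, b2 (algebraMap O L1 r) = algebraMap O L2 r)
  (u' : L')
  (hwu : IsIntegral (Algebra.adjoin O {a1 u'}) (w1 (a1 u')))
  (hcomm : ∀ x : L', b2 (a1 x) = a2 (w1 (a1 x)))

theorem isIntegral_self_comp :
    IsIntegral (Algebra.adjoin O {(a2.comp a1) u'}) (a2 (a1 u')) :=
  isIntegral_algebraMap (R := Algebra.adjoin O {(a2.comp a1) u'}) (A := L2)
    (x := ⟨(a2.comp a1) u', Algebra.subset_adjoin (Set.mem_singleton _)⟩)

/-- `α : B1 → B2`, `s ↦ a2 s`. -/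
def alphaC : Chart O (a1 u') →+* Chart O ((a2.comp a1) u') :=
  chartMap a2 ha2O (a1 u') ((a2.comp a1) u') (isIntegral_self_comp a1 a2 u')

theorem coe_alphaC (s : Chart O (a1 u')) :
    ((alphaC a1 a2 ha2O u' s : Chart O ((a2.comp a1) u')) : L2) = a2 (s : L1) := rfl

include hwu hcomm ha2O in
theorem isIntegral_b2 :
    IsIntegral (Algebra.adjoin O {(a2.comp a1) u'}) (b2 (a1 u')) := by
  rw [hcomm]
  exact isIntegral_alpha a2 ha2O (a1 u') hwu

/-- `β : B1 → B2`, `s ↦ b2 s`. -/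
def betaC : Chart O (a1 u') →+* Chart O ((a2.comp a1) u') :=
  chartMap b2 hb2O (a1 u') ((a2.comp a1) u') (isIntegral_b2 a1 w1 a2 b2 ha2O u' hwu hcomm)

theorem coe_betaC (s : Chart O (a1 u')) :
    ((betaC a1 w1 a2 b2 ha2O hb2O u' hwu hcomm s : Chart O ((a2.comp a1) u')) : L2)
      = b2 (s : L1) := rfl

/-- The level-`q` swap on the chart ring `B1`. -/
def wC : Chart O (a1 u') →+* Chart O (a1 u') :=
  chartMap (w1 : L1 →+* L1) hw1O (a1 u') (a1 u') hwu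

theorem coe_wC (s : Chart O (a1 u')) :
    ((wC a1 w1 hw1O u' hwu s : Chart O (a1 u')) : L1) = w1 (s : L1) := rfl

include hw1w1 in
theorem wC_wC (s : Chart O (a1 u')) :
    wC a1 w1 hw1O u' hwu (wC a1 w1 hw1O u' hwu s) = s :=
  Subtype.ext (hw1w1 _)

theorem alphaC_injective : Function.Injective (alphaC a1 a2 ha2O u') :=
  chartMap_injective _ _ _ _ _

theorem betaC_injective :
    Function.Injective (betaC a1 w1 a2 b2 ha2O hb2O u' hwu hcomm) :=
  chartMap_injective _ _ _ _ _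

theorem alphaC_piC (ϖ : O) :
    alphaC a1 a2 ha2O u' (piC (a1 u') ϖ) = piC ((a2.comp a1) u') ϖ :=
  chartMap_piC _ _ _ _ _ ϖ

theorem betaC_piC (ϖ : O) :
    betaC a1 w1 a2 b2 ha2O hb2O u' hwu hcomm (piC (a1 u') ϖ) = piC ((a2.comp a1) u') ϖ :=
  chartMap_piC _ _ _ _ _ ϖ

theorem alphaC_isIntegral : (alphaC a1 a2 ha2O u').IsIntegral :=
  chartMap_isIntegral a2 ha2O (a1 u') ((a2.comp a1) u') (isIntegral_self_comp a1 a2 u')
    (isIntegral_algebraMap (R := Algebra.adjoin O {a2 (a1 u')}) (A := L2)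
      (x := ⟨a2 (a1 u'), Algebra.subset_adjoin (Set.mem_singleton _)⟩))

include hw1O hw1w1 in
theorem betaC_isIntegral : (betaC a1 w1 a2 b2 ha2O hb2O u' hwu hcomm).IsIntegral := by
  refine chartMap_isIntegral b2 hb2O (a1 u') ((a2.comp a1) u')
    (isIntegral_b2 a1 w1 a2 b2 ha2O u' hwu hcomm) ?_
  rw [hcomm]
  have h := isIntegral_alpha (w1 : L1 →+* L1) hw1O (a1 u') hwu
  have h' : IsIntegral (Algebra.adjoin O {w1 (a1 u')}) (a1 u') := by
    have e1 : (w1 : L1 →+* L1) (w1 (a1 u')) = a1 u' := hw1w1 _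
    rw [e1] at h
    exact h
  exact isIntegral_alpha a2 ha2O (w1 (a1 u')) h'

include hcomm in
/-- On the level-`M'` chart ring, `β = α ∘ w₁`. -/
theorem betaC_incl (ha1O : ∀ r : O, a1 (algebraMap O L' r) = algebraMap O L1 r)
    (a : Chart O u') :
    betaC a1 w1 a2 b2 ha2O hb2O u' hwu hcomm (incl a1 ha1O u' a) =
      alphaC a1 a2 ha2O u' (wC a1 w1 hw1O u' hwu (incl a1 ha1O u' a)) :=
  Subtype.ext (hcomm (a : L'))

end Maps

/-! ### The Gauss data of the two levels -/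

section Concrete

variable {O : Type*} {E : Type u} [CommRing O] [IsDomain O] [IsDiscreteValuationRing O] [Field E]
  [Algebra O E] [FaithfulSMul O E]
  {O' : Type*} {E' : Type u} [CommRing O'] [IsDomain O'] [IsDiscreteValuationRing O'] [Field E']
  [Algebra O' E'] [FaithfulSMul O' E']
  (ψ : O →+* O') [IsLocalHom ψ] (φ : E →+* E')
  (hψφ : ∀ r : O, φ (algebraMap O E r) = algebraMap O' E' (ψ r))
  {L' L1 L2 : Type*} [Field L'] [Field L1] [Field L2] [Algebra O L'] [Algebra O L1] [Algebra O L2]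
  (ϖ : O) (hϖ : Irreducible ϖ)
  -- level `q`: the binders of `TwoPrimesGauss.package`
  (a1 : L' →+* L1) (ha1O : ∀ r : O, a1 (algebraMap O L' r) = algebraMap O L1 r)
  (σ1 : L1 →+* LaurentSeries E)
  (hσ1O : ∀ r : O, σ1 (algebraMap O L1 r) = HahnSeries.C (algebraMap O E r))
  (hσ1frac : ∀ x : L1, σ1 x ∈ GaussDVR.fracField O E)
  (u' : L') (U : LaurentSeries O) (hσ1u : σ1 (a1 u') = GaussDVR.iota O E U)
  (w1 : L1 ≃+* L1) (hw1O : ∀ r : O, w1 (algebraMap O L1 r) = algebraMap O L1 r)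
  (ℓ : ℕ) [NeZero ℓ]
  (hw1α : ∀ x : L', σ1 (w1 (a1 x)) = qExpand E ℓ (σ1 (a1 x)))
  (hw1w1 : ∀ z : L1, w1 (w1 z) = z)
  (hprime : Prime (piC u' ϖ))
  (hcop : IsCoprime (GaussDVR.rho O U).order (ℓ : ℤ)) (hord : (GaussDVR.rho O U).order ≠ 0)
  (hℓ : 2 ≤ ℓ)
  (hfrob : qExpand (IsLocalRing.ResidueField O) ℓ (GaussDVR.rho O U) = GaussDVR.rho O U ^ ℓ)
  (hwu : IsIntegral (Algebra.adjoin O {a1 u'}) (w1 (a1 u')))
  (hrank1 : ∀ v : Option (Fin 1 ⊕ Fin ℓ) → Chart O (a1 u'),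
    ∃ c : Option (Fin 1 ⊕ Fin ℓ) → Chart O u', c ≠ 0 ∧ ∑ i, incl a1 ha1O u' (c i) * v i = 0)
  -- level `q²`: the binders of `MidVal.package_mid` at `α := a2.comp a1`
  (a2 b2 : L1 →+* L2) (ha2O : ∀ r : O, a2 (algebraMap O L1 r) = algebraMap O L2 r)
  (hb2O : ∀ r : O, b2 (algebraMap O L1 r) = algebraMap O L2 r)
  (hαO : ∀ r : O, (a2.comp a1) (algebraMap O L' r) = algebraMap O L2 r)
  (σ2 : L2 →+* LaurentSeries E)
  (hσ2O : ∀ r : O, σ2 (algebraMap O L2 r) = HahnSeries.C (algebraMap O E r))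
  (hσ2frac : ∀ x : L2, σ2 x ∈ GaussDVR.fracField O E)
  (hσ2u : σ2 ((a2.comp a1) u') = GaussDVR.iota O E U)
  (N : ℕ) [NeZero N]
  (σ₀ : L2 →+* LaurentSeries E)
  (hσ₀O : ∀ r : O, σ₀ (algebraMap O L2 r) = HahnSeries.C (algebraMap O E r))
  (hσ₀frac : ∀ x : L2, σ₀ x ∈ GaussDVR.fracField O E)
  (hσ₀α : ∀ x : L', σ₀ ((a2.comp a1) x) = qExpand E N (σ2 ((a2.comp a1) x)))
  (σm : L2 →+* LaurentSeries E')
  (hσmO : ∀ r : O, σm (algebraMap O L2 r) = HahnSeries.C (algebraMap O' E' (ψ r)))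
  (hσmfrac : ∀ x : L2, σm x ∈ GaussDVR.fracField O' E')
  (hσmα : ∀ x : L', σm ((a2.comp a1) x) = coeffMap φ (σ2 ((a2.comp a1) x)))
  (z₀ : O'ˣ) (hz₀ : Irreducible ((z₀ : O') - 1))
  -- compatibilities of the two towers
  (hσa : ∀ x : L1, σ2 (a2 x) = σ1 x)
  (hσma : ∀ x : L1, σm (a2 x) = coeffMap φ (σ1 x))
  (hσ₀ab : ∀ x : L', σ₀ (a2 (w1 (a1 x))) = qExpand E ℓ (σ1 (a1 x)))
  (hcomm : ∀ x : L', b2 (a1 x) = a2 (w1 (a1 x)))

local notation "rI1" => redInf ϖ hϖ a1 σ1 hσ1O hσ1frac u' U hσ1u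
local notation "rZ1" => redZero ϖ hϖ a1 σ1 hσ1O hσ1frac u' U hσ1u w1 hw1O ℓ hw1α
local notation "rM1" => redM ϖ hϖ a1 ha1O σ1 hσ1O hσ1frac u' U hσ1u
local notation "rI" => redInf ϖ hϖ (a2.comp a1) σ2 hσ2O hσ2frac u' U hσ2u
local notation "rZ" => redZ ϖ hϖ (a2.comp a1) σ2 u' U hσ2u N σ₀ hσ₀O hσ₀frac hσ₀α
local notation "τM" => tauM ψ φ hψφ (a2.comp a1) σ2 u' U hσ2u σm hσmO hσmfrac hσmα z₀ hz₀
local notation "lamV" => GaussDVR.unif E' ((z₀ : O') - 1)
local notation "αC" => alphaC a1 a2 ha2O u'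
local notation "βC" => betaC a1 w1 a2 b2 ha2O hb2O u' hwu hcomm
local notation "ωC" => wC a1 w1 hw1O u' hwu
local notation "ι1" => incl a1 ha1O u'
local notation "ι2" => incl (a2.comp a1) hαO u'
local notation "resψ" => IsLocalRing.ResidueField.map ψ

/-- `rI₁ ∘ w = rZ₁`. -/
theorem redInf_wC (s : Chart O (a1 u')) : rI1 (ωC s) = rZ1 s := rfl

include hσa in
/-- `rI ∘ α = rI₁`. -/
theorem redInf_alphaC (s : Chart O (a1 u')) : rI (αC s) = rI1 s := by
  show GaussDVR.red O E _ = GaussDVR.red O E _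
  congr 1
  exact Subtype.ext (hσa (s : L1))

include hσma in
/-- `red' ∘ τM ∘ α = (κ → κ') ∘ rI₁`. -/
theorem red_tauM_alphaC (s : Chart O (a1 u')) :
    GaussDVR.red O' E' (τM (αC s)) = coeffMap resψ (rI1 s) := by
  set x : GaussDVR.V O E := toV σ1 hσ1O ϖ hϖ hσ1frac (a1 u') U hσ1u s with hx
  have hxe : τM (αC s) = ⟨coeffMap φ (x : LaurentSeries E), Twist.coeffMap_mem_V ψ φ hψφ x.2⟩ :=
    Subtype.ext (hσma (s : L1))
  rw [hxe, Twist.red_coeffMap ψ φ hψφ]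
  rfl

include hσma in
/-- The middle valuation on `α B1` in reduction form. -/
theorem dvd_tauM_alphaC_iff (s : Chart O (a1 u')) : lamV ∣ τM (αC s) ↔ rI1 s = 0 := by
  rw [unif_dvd_iff E' _ hz₀, red_tauM_alphaC ψ φ hψφ ϖ hϖ a1 σ1 hσ1O hσ1frac u' U hσ1u a2 ha2O σ2
    hσ2u σm hσmO hσmfrac hσmα z₀ hz₀ hσma]
  constructor
  · intro h
    apply Congr.coeffMap_injective _ (IsLocalRing.ResidueField.map ψ).injective
    rw [h, map_zero]
  · intro h
    rw [h, map_zero]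

include hσ₀ab in
/-- `rZ (α (w₁ a)) = rM₁(a)(q^ℓ)` for `a` in the level-`M'` chart ring. -/
theorem redZ_alphaC_wC_incl (a : Chart O u') :
    rZ (αC (ωC (ι1 a))) = qExpand (IsLocalRing.ResidueField O) ℓ (rM1 a) := by
  have h1 : rM1 a = GaussDVR.red O E (toV (σ1.comp a1) (sigmaM_O a1 ha1O σ1 hσ1O) ϖ hϖ
      (fun x => hσ1frac (a1 x)) u' U hσ1u a) := rfl
  rw [h1, ← red_qExpand]
  show GaussDVR.red O E _ = GaussDVR.red O E _
  congr 1
  exact Subtype.ext (hσ₀ab (a : L'))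

include hσa hw1α in
/-- `rI (α (w₁ a)) = rM₁(a)(q^ℓ)` for `a` in the level-`M'` chart ring. -/
theorem redInf_alphaC_wC_incl (a : Chart O u') :
    rI (αC (ωC (ι1 a))) = qExpand (IsLocalRing.ResidueField O) ℓ (rM1 a) := by
  rw [redInf_alphaC ϖ hϖ a1 σ1 hσ1O hσ1frac u' U hσ1u a2 ha2O σ2 hσ2O hσ2frac hσ2u hσa,
    redInf_wC ϖ hϖ a1 σ1 hσ1O hσ1frac u' U hσ1u w1 hw1O ℓ hw1α hwu,
    redZero_incl ϖ hϖ a1 ha1O σ1 hσ1O hσ1frac u' U hσ1u w1 hw1O ℓ hw1α]

variable (e : ℕ) (he : 0 < e) (hlame : ((z₀ : O') - 1) ^ e ∣ ψ ϖ)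
  (y : L2) (hyv : y = b2 (w1 (a1 u')))
  (hσy : σ2 y = GaussDVR.iota O E (qExpand O N U))
  (hσ₀y : σ₀ y = GaussDVR.iota O E U)
  (hσmy : σm y = Congr.rescale (Twist.unitE E' z₀) (coeffMap φ (σ2 ((a2.comp a1) u'))))
  (hθ : QFormal.theta (GaussDVR.rho O U) ≠ 0)
  (hNℓ : N = ℓ * ℓ)
  (hrank2 : ∀ v : Fin (1 + N + e + 1) → Chart O ((a2.comp a1) u'),
    ∃ c : Fin (1 + N + e + 1) → Chart O u', c ≠ 0 ∧
      ∑ i, incl (a2.comp a1) hαO u' (c i) * v i = 0)

include hyv hwu hcomm ha2O hb2O in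
/-- `y = V_{q²} u'` lies in the chart ring `B2`. -/
theorem isIntegral_y : IsIntegral (Algebra.adjoin O {(a2.comp a1) u'}) y := by
  rw [hyv]
  exact (βC ⟨w1 (a1 u'), hwu⟩).2

local notation "ρU" => GaussDVR.rho O U
local notation "rM2" => redM ϖ hϖ (a2.comp a1) hαO σ2 hσ2O hσ2frac u' U hσ2u

set_option maxHeartbeats 1600000 in
include hw1w1 hprime hcop hord hℓ hfrob hrank1 hσa hσma hσ₀ab he hlame hyv hσy hσ₀y hσmy hθ hNℓ
  hrank2 in
/-- **The Gauss-route producer of `SqExit.Hyp`.** -/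
theorem hyp :
    SqExit.Hyp αC βC (piC (a1 u') ϖ) (RingHom.ker rI1) (RingHom.ker rZ1) (RingHom.ker rI)
      (RingHom.ker rZ) ((Ideal.span {lamV}).comap τM) e := by
  classical
  haveI : NeZero (ℓ * ℓ) := ⟨hNℓ ▸ NeZero.ne N⟩
  have hρ0 : ρU ≠ 0 := fun h => hord (by rw [h, HahnSeries.order_zero])
  have htr : ∀ p : (IsLocalRing.ResidueField O)[X], p ≠ 0 → p.eval₂ HahnSeries.C ρU ≠ 0 :=
    fun p hp => ExpandIndep.eval₂_ne_zero_of_order_ne_zero ρU hord p hp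
  have hcentre1 : ∀ a : Chart O u', rM1 a = 0 → piC u' ϖ ∣ a :=
    dvd_of_redM_eq_zero ϖ hϖ a1 ha1O σ1 hσ1O hσ1frac u' U hσ1u hprime htr
  have hcentre2 : ∀ a : Chart O u', rM2 a = 0 → piC u' ϖ ∣ a :=
    dvd_of_redM_eq_zero ϖ hϖ (a2.comp a1) hαO σ2 hσ2O hσ2frac u' U hσ2u hprime htr
  have hpN : ∀ x : LaurentSeries (IsLocalRing.ResidueField O), x ^ N = x ^ (ℓ * ℓ) :=
    fun x => by rw [hNℓ]
  have hfrobN : qExpand (IsLocalRing.ResidueField O) N ρU = ρU ^ N := by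
    rw [qExpand_congr hNℓ, ← qExpand_qExpand, hfrob, map_pow, hfrob, ← pow_mul, hpN]
  have hcopN : IsCoprime (GaussDVR.rho O U).order ((N : ℕ) : ℤ) := by
    rw [hNℓ]
    push_cast
    exact IsCoprime.mul_right hcop hcop
  have hℓℓ : 2 ≤ ℓ * ℓ := by nlinarith
  have hN : 2 ≤ N := by rw [hNℓ]; exact hℓℓ
  have hpowne : ∀ m n : ℕ, m ≠ n → ρU ^ m ≠ ρU ^ n := by
    intro m n hmn h
    have h2 := congrArg HahnSeries.order h
    rw [HahnSeries.order_pow, HahnSeries.order_pow, nsmul_eq_mul, nsmul_eq_mul] at h2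
    have h3 : ((m : ℕ) : ℤ) = n := mul_right_cancel₀ hord h2
    exact hmn (by exact_mod_cast h3)
  have hyInt : IsIntegral (Algebra.adjoin O {(a2.comp a1) u'}) y :=
    isIntegral_y a1 u' w1 hwu a2 b2 ha2O hb2O hcomm y hyv
  obtain ⟨hSAT, -, -, -, -, -, -, -, ⟨hδI, hδZ, hδm⟩, ⟨hy1I, hy1Z, hy1m⟩, ⟨hy2Z, hy2I, hy2m⟩⟩ :=
    package_mid ψ φ hψφ ϖ hϖ (a2.comp a1) hαO σ2 hσ2O hσ2frac u' U hσ2u σm hσmO hσmfrac hσmα
      z₀ hz₀ e hlame y hyInt hσmy hθ N σ₀ hσ₀O hσ₀frac hσ₀α hσy hσ₀y he hprime hcopN hord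
      hN hfrobN hrank2
  -- elements of `B1`
  set uC1 : Chart O (a1 u') := ι1 (polyChart u' X) with huC1
  set t : Chart O (a1 u') := ωC uC1 - uC1 ^ ℓ with ht
  have huR1 : rM1 (polyChart u' X) = ρU := by
    rw [redM_polyChart, Polynomial.map_X, eval₂_X]
  have huR2 : rM2 (polyChart u' X) = ρU := by
    rw [redM_polyChart, Polynomial.map_X, eval₂_X]
  have huI1 : rI1 uC1 = ρU := huR1
  have huZ1 : rZ1 uC1 = ρU ^ ℓ := by
    rw [huC1, redZero_incl ϖ hϖ a1 ha1O σ1 hσ1O hσ1frac u' U hσ1u w1 hw1O ℓ hw1α, huR1, hfrob]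
  have hwI1 : rI1 (ωC uC1) = ρU ^ ℓ := huZ1
  have hwZ1 : rZ1 (ωC uC1) = ρU := by
    rw [← redInf_wC ϖ hϖ a1 σ1 hσ1O hσ1frac u' U hσ1u w1 hw1O ℓ hw1α hwu (ωC uC1),
      wC_wC a1 w1 hw1O hw1w1 u' hwu, huI1]
  have htI : rI1 t = 0 := by
    rw [ht, map_sub, map_pow, hwI1, huI1, sub_self]
  have htZ : rZ1 t ≠ 0 := by
    rw [ht, map_sub, map_pow, hwZ1, huZ1, ← pow_mul]
    have := hpowne 1 (ℓ * ℓ) (by omega)
    rw [pow_one] at this
    exact sub_ne_zero.mpr this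
  -- elements of `B2`
  set uC : Chart O ((a2.comp a1) u') := incl (a2.comp a1) hαO u' (polyChart u' X) with huC
  set vC : Chart O ((a2.comp a1) u') := αC (ωC uC1) with hvC
  set yC : Chart O ((a2.comp a1) u') := ⟨y, hyInt⟩ with hyC
  have hαu : αC uC1 = uC := Subtype.ext rfl
  have hβu : βC uC1 = vC :=
    betaC_incl a1 w1 hw1O a2 b2 ha2O hb2O u' hwu hcomm ha1O (polyChart u' X)
  have hβw : βC (ωC uC1) = yC := by
    apply Subtype.ext
    show b2 (w1 (a1 (aeval u' (X : O[X])))) = y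
    rw [aeval_X, hyv]
  have huI : rI uC = ρU := huR2
  have huZ : rZ uC = ρU ^ (ℓ * ℓ) := by
    rw [huC, redZ_incl ϖ hϖ (a2.comp a1) hαO σ2 hσ2O hσ2frac, huR2, hfrobN, hpN]
  have hvI : rI vC = ρU ^ ℓ := by
    rw [hvC, huC1, redInf_alphaC_wC_incl ϖ hϖ a1 ha1O σ1 hσ1O hσ1frac u' U hσ1u w1 hw1O ℓ hw1α
      hwu a2 ha2O σ2 hσ2O hσ2frac hσ2u hσa, huR1, hfrob]
  have hvZ : rZ vC = ρU ^ ℓ := by
    rw [hvC, huC1, redZ_alphaC_wC_incl ϖ hϖ a1 ha1O σ1 hσ1O hσ1frac u' U hσ1u w1 hw1O ℓ hwu a2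
      ha2O σ2 hσ2u N σ₀ hσ₀O hσ₀frac hσ₀α hσ₀ab, huR1, hfrob]
  have hyI : rI yC = ρU ^ (ℓ * ℓ) := by
    have h := hy1I
    rw [map_sub, map_pow, sub_eq_zero] at h
    rw [h, hpN]
    exact congrArg (· ^ (ℓ * ℓ)) huI
  have hyZ : rZ yC = ρU :=
    redHom_of_int σ₀ hσ₀O ϖ hϖ hσ₀frac ((a2.comp a1) u') (qExpand O N U)
      (sigma0_u (a2.comp a1) σ2 u' U hσ2u N σ₀ hσ₀α) yC U hσ₀y
  -- the middle valuation on `α B1`
  have hmidα : ∀ s : Chart O (a1 u'), lamV ∣ τM (αC s) ↔ rI1 s = 0 :=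
    dvd_tauM_alphaC_iff ψ φ hψφ ϖ hϖ a1 σ1 hσ1O hσ1frac u' U hσ1u a2 ha2O σ2 hσ2u σm hσmO hσmfrac
      hσmα z₀ hz₀ hσma
  have hmem11 : ∀ x : Chart O ((a2.comp a1) u'),
      x ∈ (Ideal.span {lamV}).comap τM ↔ lamV ∣ τM x := fun x => by
    rw [Ideal.mem_comap, Ideal.mem_span_singleton]
  have hlamP : Prime (lamV : GaussDVR.V O' E') := prime_unif E' _ hz₀
  have hπm : lamV ^ e ∣ τM (piC ((a2.comp a1) u') ϖ) :=
    pow_dvd_tauM_piC ψ φ hψφ ϖ (a2.comp a1) σ2 u' U hσ2u σm hσmO hσmfrac hσmα z₀ hz₀ e hlame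
  -- classification of contractions
  have hcls : ∀ (γ : Chart O (a1 u') →+* Chart O ((a2.comp a1) u'))
      (hγπ : γ (piC (a1 u') ϖ) = piC ((a2.comp a1) u') ϖ)
      (P : Ideal (Chart O ((a2.comp a1) u'))) (hP : P.IsPrime)
      (hπP : piC ((a2.comp a1) u') ϖ ∈ P)
      (hc : ∀ a : Chart O u', γ (ι1 a) ∈ P → piC u' ϖ ∣ a),
      (γ t ∈ P → P.comap γ = RingHom.ker rI1) ∧ (γ t ∉ P → P.comap γ = RingHom.ker rZ1) := by
    intro γ hγπ P hP hπP hc
    haveI : (P.comap γ).IsPrime := Ideal.comap_isPrime γ P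
    have hcases := eq_ker_or_eq_ker ϖ hϖ a1 ha1O σ1 hσ1O hσ1frac u' U hσ1u w1 hw1O ℓ hw1α hw1w1
      hprime hcop hord hℓ hfrob hwu hrank1 (P.comap γ)
      (by rw [Ideal.mem_comap, hγπ]; exact hπP) (fun a ha => hc a (Ideal.mem_comap.mp ha))
    constructor
    · intro htP
      rcases hcases with h | h
      · exact h
      · exfalso
        have : t ∈ P.comap γ := Ideal.mem_comap.mpr htP
        rw [h] at this
        exact htZ ((RingHom.mem_ker).mp this)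
    · intro htP
      rcases hcases with h | h
      · exfalso
        have : t ∈ P.comap γ := by
          rw [h]
          exact (RingHom.mem_ker).mpr htI
        exact htP (Ideal.mem_comap.mp this)
      · exact h
  have hαt : αC t = vC - uC ^ ℓ := by
    rw [ht, map_sub, map_pow, hαu]
  have hβt : βC t = yC - vC ^ ℓ := by
    rw [ht, map_sub, map_pow, hβu, hβw]
  have hqinj : ∀ {f : LaurentSeries (IsLocalRing.ResidueField O)},
      qExpand (IsLocalRing.ResidueField O) ℓ f = 0 → f = 0 := fun {f} h =>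
    qExpand_injective ℓ (by rw [h, map_zero])
  have hqinjN : ∀ {f : LaurentSeries (IsLocalRing.ResidueField O)},
      qExpand (IsLocalRing.ResidueField O) N f = 0 → f = 0 := fun {f} h =>
    qExpand_injective N (by rw [h, map_zero])
  -- (I3) `α p0 ⊆ P0`
  have h3 : ∀ s : Chart O (a1 u'), rZ1 s = 0 → rZ (αC s) = 0 := by
    have hc := (hcls αC (alphaC_piC a1 a2 ha2O u' ϖ) (RingHom.ker rZ) (RingHom.ker_isPrime _)
      ((RingHom.mem_ker).mpr (redHom_piC σ₀ hσ₀O ϖ hϖ hσ₀frac ((a2.comp a1) u')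
        (qExpand O N U) (sigma0_u (a2.comp a1) σ2 u' U hσ2u N σ₀ hσ₀α)))
      (fun a ha => hcentre2 a (by
        have h1 : αC (ι1 a) = incl (a2.comp a1) hαO u' a := Subtype.ext rfl
        rw [h1] at ha
        have h2 := (RingHom.mem_ker).mp ha
        rw [redZ_incl ϖ hϖ (a2.comp a1) hαO σ2 hσ2O hσ2frac] at h2
        exact hqinjN h2))).2 (by
      rw [hαt, RingHom.mem_ker, map_sub, map_pow, hvZ, huZ, ← pow_mul]
      exact sub_ne_zero.mpr (hpowne _ _ (by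
        have : ℓ < ℓ * ℓ * ℓ := by nlinarith
        omega)))
    intro s hs
    have : s ∈ (RingHom.ker rZ).comap αC := by
      rw [hc]
      exact (RingHom.mem_ker).mpr hs
    exact (RingHom.mem_ker).mp (Ideal.mem_comap.mp this)
  -- contraction along `β` of the level-`M'` chart ring
  have hβι : ∀ a : Chart O u', βC (ι1 a) = αC (ωC (ι1 a)) :=
    betaC_incl a1 w1 hw1O a2 b2 ha2O hb2O u' hwu hcomm ha1O
  -- (I4) `β p∞ ⊆ P∞`
  have h4 : ∀ s : Chart O (a1 u'), rI1 s = 0 → rI (βC s) = 0 := by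
    have hc := (hcls βC (betaC_piC a1 w1 a2 b2 ha2O hb2O u' hwu hcomm ϖ) (RingHom.ker rI)
      (RingHom.ker_isPrime _)
      ((RingHom.mem_ker).mpr (redHom_piC σ2 hσ2O ϖ hϖ hσ2frac ((a2.comp a1) u') U hσ2u))
      (fun a ha => hcentre1 a (by
        rw [hβι] at ha
        have h2 := (RingHom.mem_ker).mp ha
        rw [redInf_alphaC_wC_incl ϖ hϖ a1 ha1O σ1 hσ1O hσ1frac u' U hσ1u w1 hw1O ℓ hw1α
          hwu a2 ha2O σ2 hσ2O hσ2frac hσ2u hσa] at h2
        exact hqinj h2))).1 (by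
      rw [hβt, RingHom.mem_ker, map_sub, map_pow, hyI, hvI, ← pow_mul, sub_self])
    intro s hs
    have : s ∈ (RingHom.ker rI).comap βC := by
      rw [hc]
      exact (RingHom.mem_ker).mpr hs
    exact (RingHom.mem_ker).mp (Ideal.mem_comap.mp this)
  -- (I5) `β p0 ⊆ P0`
  have h5 : ∀ s : Chart O (a1 u'), rZ1 s = 0 → rZ (βC s) = 0 := by
    have hc := (hcls βC (betaC_piC a1 w1 a2 b2 ha2O hb2O u' hwu hcomm ϖ) (RingHom.ker rZ)
      (RingHom.ker_isPrime _)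
      ((RingHom.mem_ker).mpr (redHom_piC σ₀ hσ₀O ϖ hϖ hσ₀frac ((a2.comp a1) u')
        (qExpand O N U) (sigma0_u (a2.comp a1) σ2 u' U hσ2u N σ₀ hσ₀α)))
      (fun a ha => hcentre1 a (by
        rw [hβι] at ha
        have h2 := (RingHom.mem_ker).mp ha
        rw [redZ_alphaC_wC_incl ϖ hϖ a1 ha1O σ1 hσ1O hσ1frac u' U hσ1u w1 hw1O ℓ hwu a2
          ha2O σ2 hσ2u N σ₀ hσ₀O hσ₀frac hσ₀α hσ₀ab] at h2
        exact hqinj h2))).2 (by
      rw [hβt, RingHom.mem_ker, map_sub, map_pow, hyZ, hvZ, ← pow_mul]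
      have := hpowne 1 (ℓ * ℓ) (by omega)
      rw [pow_one] at this
      exact sub_ne_zero.mpr this)
    intro s hs
    have : s ∈ (RingHom.ker rZ).comap βC := by
      rw [hc]
      exact (RingHom.mem_ker).mpr hs
    exact (RingHom.mem_ker).mp (Ideal.mem_comap.mp this)
  -- (I6) `β p0 ⊆ P11`
  have h6 : ∀ s : Chart O (a1 u'), rZ1 s = 0 → lamV ∣ τM (βC s) := by
    haveI : (Ideal.span {(lamV : GaussDVR.V O' E')}).IsPrime :=
      (Ideal.span_singleton_prime hlamP.ne_zero).mpr hlamP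
    have hc := (hcls βC (betaC_piC a1 w1 a2 b2 ha2O hb2O u' hwu hcomm ϖ)
      ((Ideal.span {lamV}).comap τM) (Ideal.comap_isPrime τM _)
      ((hmem11 _).mpr ((dvd_pow_self _ he.ne').trans hπm))
      (fun a ha => hcentre1 a (by
        rw [hβι, hmem11, hmidα, redInf_wC ϖ hϖ a1 σ1 hσ1O hσ1frac u' U hσ1u w1 hw1O ℓ hw1α hwu,
          redZero_incl ϖ hϖ a1 ha1O σ1 hσ1O hσ1frac u' U hσ1u w1 hw1O ℓ hw1α] at ha
        exact hqinj ha))).2 (by
      rw [hβt, hmem11]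
      intro hdvd
      apply hy1m
      have h0 : rI1 (ωC uC1 ^ ℓ - uC1 ^ N) = 0 := by
        rw [map_sub, map_pow, map_pow, hwI1, huI1, ← pow_mul, hpN, sub_self]
      have h1 : lamV ∣ τM (αC (ωC uC1 ^ ℓ - uC1 ^ N)) := (hmidα _).mpr h0
      have h2 : yC - uC ^ N = (yC - vC ^ ℓ) + αC (ωC uC1 ^ ℓ - uC1 ^ N) := by
        rw [map_sub, map_pow, map_pow, hαu]
        ring
      rw [h2, RingHom.map_add]
      exact dvd_add hdvd h1)
    intro s hs
    have : s ∈ ((Ideal.span {lamV}).comap τM).comap βC := by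
      rw [hc]
      exact (RingHom.mem_ker).mpr hs
    exact (hmem11 _).mp (Ideal.mem_comap.mp this)
  -- the level-`q` separators
  have hsepI := exists_sep_inf ϖ hϖ a1 ha1O σ1 hσ1O hσ1frac u' U hσ1u w1 hw1O ℓ hw1α hw1w1
    hprime hcop hord hℓ hfrob hwu hrank1
  have hsepZ := exists_sep_zero ϖ hϖ a1 ha1O σ1 hσ1O hσ1frac u' U hσ1u w1 hw1O ℓ hw1α hw1w1
    hprime hcop hord hℓ hfrob hwu hrank1
  have hδe : lamV ^ e ∣ τM ((yC - uC) ^ e) := by
    rw [map_pow]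
    exact pow_dvd_pow_of_dvd hδm e
  haveI : IsIntegrallyClosed (Chart O (a1 u')) := IsIntegrallyClosed.of_isIntegrallyClosedIn _ L1
  haveI : IsIntegrallyClosed (Chart O ((a2.comp a1) u')) :=
    IsIntegrallyClosed.of_isIntegrallyClosedIn _ L2
  refine hyp_of_red αC βC (piC (a1 u') ϖ) rI1 rZ1 rI rZ τM lamV hlamP e he
    (alphaC_injective a1 a2 ha2O u') (alphaC_isIntegral a1 a2 ha2O u')
    (betaC_injective a1 w1 a2 b2 ha2O hb2O u' hwu hcomm)
    (betaC_isIntegral a1 w1 hw1O hw1w1 a2 b2 ha2O hb2O u' hwu hcomm)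
    ((betaC_piC a1 w1 a2 b2 ha2O hb2O u' hwu hcomm ϖ).trans (alphaC_piC a1 a2 ha2O u' ϖ).symm)
    (redHom_piC σ1 hσ1O ϖ hϖ hσ1frac (a1 u') U hσ1u)
    (redHom_piC (σ1.comp (w1 : L1 →+* L1)) (sigmaW_O σ1 hσ1O w1 hw1O) ϖ hϖ
      (fun x => hσ1frac (w1 x)) (a1 u') (qExpand O ℓ U) (sigmaW_u a1 σ1 u' U hσ1u w1 ℓ hw1α))
    hsepI hsepZ
    (fun s hs => by
      rw [redInf_alphaC ϖ hϖ a1 σ1 hσ1O hσ1frac u' U hσ1u a2 ha2O σ2 hσ2O hσ2frac hσ2u hσa]
      exact hs)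
    (fun s hs => (hmidα s).mpr hs) h3 h4 h5 h6
    (fun c hc1 hc2 hc3 => by
      rw [alphaC_piC]
      exact hSAT c hc1 hc2 hc3)
    (by rw [alphaC_piC]; exact hπm)
    ((uC - yC ^ N) * (yC - uC) ^ e) ((yC - uC ^ N) * (yC - uC) ^ e)
    ((yC - uC ^ N) * (uC - yC ^ N)) ⟨?_, ?_, ?_⟩ ⟨?_, ?_, ?_⟩ ⟨?_, ?_, ?_⟩
  · rw [map_mul, map_pow]
    exact mul_ne_zero hy2I (pow_ne_zero _ hδI)
  · rw [map_mul, hy2Z, zero_mul]
  · rw [map_mul]
    exact Dvd.dvd.mul_left hδe _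
  · rw [map_mul, map_pow]
    exact mul_ne_zero hy1Z (pow_ne_zero _ hδZ)
  · rw [map_mul, hy1I, zero_mul]
  · rw [map_mul]
    exact Dvd.dvd.mul_left hδe _
  · rw [map_mul]
    exact fun h => (hlamP.dvd_or_dvd h).elim hy1m hy2m
  · rw [map_mul, hy1I, zero_mul]
  · rw [map_mul, hy2Z, mul_zero]

end Concrete

end Fermat.Agent.S36.SqChart.HypGauss
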