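import Mathlib
import Fermat.Agent.S36.SqChart.Twist
import Fermat.Agent.S36.MidCuspE
import Fermat.Agent.S36.GaussUp
import Fermat.Agent.S30.GaussDescent
import Fermat.Agent.S30.E2.DegreeL

/-!
# S36, C2 modular instance (File 3, layer A2): the middle-cusp embedding over `𝒪_K ⊆ 𝒪_{K'}`

`A` a valuation ring of `ℚ̄` over the prime `q`, `K ⊆ K'` number fields inside `ℚ̄` (given through
a field homomorphism `φ : K → K'` compatible with the inclusions into `ℚ̄`), `ψ : 𝒪_K → 𝒪_{K'}`
the induced map of valuation rings (`𝒪_E = A ∩ E`), `z₀` a unit of `𝒪_{K'}` which is a primitive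
`q`-th root of unity.  Level `N = R q²`, `q ∤ R`.

* `isLocalHom_psi`, `psi_compat`, `residue_eq_one` : the hypotheses of `SqChart/Twist`.
* `exists_mid` : the middle-cusp embedding `μ : F_{N,K} → K'((q))` of `S36/MidCuspE` with
  (c) `μ = φ` on constants, (a) `μ f = f` for `f` of level `R q`, (b) `μ (h(q^{q²})) = h(z q)`
  for `h` of level `R`, (frac) `μ` lands in the fraction field of `𝒪_{K'}((q))`, and
  (twist) for `h` of level `R` in the Gauss ring of `𝒪_K`:
  `μ (h(q^{q²})) - h = (z₀ - 1) y`, `y` in the Gauss ring of `𝒪_{K'}`, `red y = θ (red h)`.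
* `exists_mid_tower` : the same in terms of the degeneracy maps
  `a₁, b₁ : F_R → F_{Rq}`, `a₂, b₂ : F_{Rq} → F_{Rqq}`.
-/

set_option autoImplicit false
set_option linter.unusedSectionVars false
set_option linter.style.haveILetI false

open ModularCurve

noncomputable section

namespace Fermat.Agent.S36.SqChart.Mid

open Fermat.Agent.S30 Fermat.Agent.S30.GaussDescent Fermat.Agent.S30.CSide
open Fermat.Agent.S36.QFormal Fermat.Agent.S36.SqChart

local notation "Qb" => AlgebraicClosure ℚ

section Base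

variable (A : ValuationSubring Qb) (K K' : IntermediateField ℚ Qb)
  (φ : K →+* K') (hφ : ∀ x : K, ((φ x : K') : Qb) = (x : Qb))
  (ψ : OE A K →+* OE A K') (hψ : ∀ r : OE A K, ((ψ r : OE A K') : K') = φ (r : K))

include hφ hψ in
theorem toA_psi (r : OE A K) : toA A K' (ψ r) = toA A K r :=
  Subtype.ext (by
    show (((ψ r : OE A K') : K') : Qb) = ((r : K) : Qb)
    rw [hψ, hφ])

include hφ hψ in
/-- `𝒪_K → 𝒪_{K'}` is a local homomorphism. -/
theorem isLocalHom_psi : IsLocalHom ψ :=
  ⟨fun r h => isUnit_of_isUnit_toA A K r (by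
    rw [← toA_psi A K K' φ hφ ψ hψ]
    exact h.map (toA A K'))⟩

include hψ in
theorem psi_compat (r : OE A K) :
    φ (algebraMap (OE A K) K r) = algebraMap (OE A K') K' (ψ r) :=
  (hψ r).symm

/-- A root of unity of `q`-power order in `𝒪_{K'}` reduces to `1` when `A` lies over `q`. -/
theorem residue_eq_one {q : ℕ} [Fact q.Prime] (hA : A.LiesOverPrime q) (z₀ : (OE A K')ˣ)
    (hz : ((((z₀ : OE A K') : K') : Qb)) ^ q = 1) :
    IsLocalRing.residue (OE A K') (z₀ : OE A K') = 1 := by
  apply GaussUp.resMap_injective A K'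
  rw [GaussUp.resMap_residue, map_one]
  have hq : 0 < q := (Fact.out : q.Prime).pos
  have h1 : toA A K' (z₀ : OE A K') = ((Congr.unitA A hq hz : Aˣ) : A) := Subtype.ext rfl
  rw [h1]
  have h2 := Congr.map_residue_unitA A hA hq hz
  have h3 := congrArg (fun u : (IsLocalRing.ResidueField A)ˣ => (u : IsLocalRing.ResidueField A)) h2
  simpa using h3

theorem isPrimitiveRoot_unitE {q : ℕ} (z₀ : (OE A K')ˣ)
    (hz₀ : IsPrimitiveRoot ((((z₀ : OE A K') : K') : Qb)) q) :
    IsPrimitiveRoot (Twist.unitE K' z₀) q := by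
  rw [← IsPrimitiveRoot.coe_units_iff]
  exact IsPrimitiveRoot.of_map_of_injective (f := algebraMap K' Qb) hz₀
    (algebraMap K' Qb).injective

end Base

section Main

variable (A : ValuationSubring Qb) (K K' : IntermediateField ℚ Qb)
  [IsDiscreteValuationRing (OE A K)] [IsDiscreteValuationRing (OE A K')]
  (φ : K →+* K') (hφ : ∀ x : K, ((φ x : K') : Qb) = (x : Qb))
  (ψ : OE A K →+* OE A K') (hψ : ∀ r : OE A K, ((ψ r : OE A K') : K') = φ (r : K))

theorem C_mem_fracField (c : K') :
    (HahnSeries.C c : LaurentSeries K') ∈ GaussDVR.fracField (OE A K') K' := by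
  have h := algebraMap_mem_fracField A K' c
  rwa [algebraMap_laurentSeries_eq_single] at h

theorem coeffEmb_qExpand_jq_mem_fracField (d : ℕ) [NeZero d] :
    coeffEmb K' (qExpand ℚ d jq) ∈ GaussDVR.fracField (OE A K') K' := by
  obtain ⟨a, ha⟩ := exists_int_qExpand_jq d
  rw [← ha]
  exact coeffEmb_mem_fracField A K' (intFrac_of_int a)

include hφ hψ in
/-- **The middle-cusp embedding over `𝒪_K ⊆ 𝒪_{K'}`**, with its Gauss-ring properties. -/
theorem exists_mid [IsLocalHom ψ] {q : ℕ} [Fact q.Prime] [NeZero q] (hA : A.LiesOverPrime q)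
    (z₀ : (OE A K')ˣ) (hz₀ : IsPrimitiveRoot ((((z₀ : OE A K') : K') : Qb)) q)
    {R : ℕ} [NeZero R] (hqR : ¬ q ∣ R) {N : ℕ} [NeZero N] (hN : N = R * q ^ 2) :
    ∃ μ : FL K N →+* LaurentSeries K',
      (∀ c : K, μ (algebraMap K (FL K N) c) = HahnSeries.C (φ c)) ∧
      (∀ f : FL K N,
        (f : LaurentSeries K) ∈ laurentBaseChange K (modularFunctionFieldFull (R * q)) →
        μ f = coeffMap φ (f : LaurentSeries K)) ∧
      (∀ (f : FL K N) (h : LaurentSeries K),
        h ∈ laurentBaseChange K (modularFunctionFieldFull R) →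
        (f : LaurentSeries K) = qExpand K (q ^ 2) h →
        μ f = Congr.rescale (Twist.unitE K' z₀) (coeffMap φ h)) ∧
      (∀ f : FL K N, μ f ∈ GaussDVR.fracField (OE A K') K') ∧
      (∀ (f : FL K N) (h : LaurentSeries K) (hV : h ∈ GaussDVR.V (OE A K) K),
        h ∈ laurentBaseChange K (modularFunctionFieldFull R) →
        (f : LaurentSeries K) = qExpand K (q ^ 2) h →
        ∃ y : GaussDVR.V (OE A K') K',
          μ f - coeffMap φ h
              = HahnSeries.C (algebraMap (OE A K') K' ((z₀ : OE A K') - 1))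
                * (y : LaurentSeries K') ∧
            GaussDVR.red (OE A K') K' y
              = theta (coeffMap (IsLocalRing.ResidueField.map ψ)
                  (GaussDVR.red (OE A K) K ⟨h, hV⟩))) := by
  have hq : q.Prime := Fact.out
  have hres : IsLocalRing.residue (OE A K') (z₀ : OE A K') = 1 :=
    residue_eq_one A K' hA z₀ hz₀.pow_eq_one
  obtain ⟨μ, hμc, hμa, hμb⟩ := MidCuspE.exists_midCusp φ (E2Deg.iotaE K') hq hqR
    (Twist.unitE K' z₀) (isPrimitiveRoot_unitE A K' z₀ hz₀) hN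
  refine ⟨μ, hμc, hμa, hμb, ?_, ?_⟩
  · -- the image lies in the fraction field
    intro f
    refine CuspEmb.mem_of_gens μ (GaussDVR.fracField (OE A K') K') ?_ ?_ f
    · intro c
      rw [hμc]
      exact C_mem_fracField A K' _
    · intro d _ hd
      by_cases hsq : q ^ 2 ∣ d
      · obtain ⟨d', rfl⟩ := hsq
        have hd'0 : d' ≠ 0 := fun h0 => NeZero.ne (q ^ 2 * d') (by rw [h0, mul_zero])
        haveI : NeZero d' := ⟨hd'0⟩
        have hd' : d' ∣ R := by
          rw [hN, mul_comm R (q ^ 2)] at hd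
          exact Nat.dvd_of_mul_dvd_mul_left (pow_pos hq.pos 2) hd
        have hcoe : (((genL K N (q ^ 2 * d') hd : A0L K N) : FL K N) : LaurentSeries K)
            = qExpand K (q ^ 2) (coeffEmb K (qExpand ℚ d' jq)) := by
          rw [coe_genL]
          show coeffMap (algebraMap ℚ K) (qExpand ℚ (q ^ 2 * d') jq)
            = qExpand K (q ^ 2) (coeffMap (algebraMap ℚ K) (qExpand ℚ d' jq))
          rw [← ModularCurve.coeffMap_qExpand, qExpand_qExpand]
        rw [hμb _ (coeffEmb K (qExpand ℚ d' jq))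
          (coeffEmb_mem_laurentBaseChange K (jqd_mem_full R hd')) hcoe,
          MidCuspE.coeffMap_coeffEmb']
        exact Twist.rescale_mem_fracField z₀ (coeffEmb_qExpand_jq_mem_fracField A K' d')
      · have hdR : d ∣ R * q := by
          rw [hN] at hd
          exact MidCuspE.dvd_mul_of_not_sq_dvd hq hd (NeZero.ne d) hsq
        rw [hμa _ (by
          rw [coe_genL]
          exact coeffEmb_mem_laurentBaseChange K (jqd_mem_full (R * q) hdR)), coe_genL,
          MidCuspE.coeffMap_coeffEmb']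
        exact coeffEmb_qExpand_jq_mem_fracField A K' d
  · -- the twist
    intro f h hV hh hf
    obtain ⟨y, hy, hred⟩ := Twist.exists_twist_coeffMap (E' := K') ψ φ
      (psi_compat A K K' φ ψ hψ) hres ⟨h, hV⟩
    exact ⟨y, by rw [hμb f h hh hf]; exact hy, hred⟩

end Main

section Tower

variable (A : ValuationSubring Qb) (K K' : IntermediateField ℚ Qb)
  [IsDiscreteValuationRing (OE A K)] [IsDiscreteValuationRing (OE A K')]
  (φ : K →+* K') (hφ : ∀ x : K, ((φ x : K') : Qb) = (x : Qb))
  (ψ : OE A K →+* OE A K') (hψ : ∀ r : OE A K, ((ψ r : OE A K') : K') = φ (r : K))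

theorem coe_beta_beta (R q : ℕ) [NeZero R] [NeZero q] (h : FL K R) :
    ((heckeBetaBar K (R * q) q (heckeBetaBar K R q h) : FL K (R * q * q)) : LaurentSeries K)
      = qExpand K (q ^ 2) (h : LaurentSeries K) := by
  rw [coe_heckeBetaBar, coe_heckeBetaBar, qExpand_qExpand]
  exact qExpand_congr (sq q).symm _

theorem coe_alpha_alpha (R q : ℕ) [NeZero R] [NeZero q] (h : FL K R) :
    ((heckeAlphaBar K (R * q) q (heckeAlphaBar K R q h) : FL K (R * q * q)) : LaurentSeries K)
      = (h : LaurentSeries K) := by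
  rw [coe_heckeAlphaBar, coe_heckeAlphaBar]

include hφ hψ in
/-- **The middle-cusp embedding in terms of the degeneracy maps**
`a₁, b₁ : F_R → F_{Rq}`, `a₂, b₂ : F_{Rq} → F_{Rqq}` (`heckeAlphaBar`, `heckeBetaBar`):
`μ ∘ a₂ = φ`, `μ (b₂ (b₁ h)) = h(z q)`, and for `h` in the Gauss ring of `𝒪_K`
`μ (b₂ (b₁ h)) - μ (a₂ (a₁ h)) = (z₀ - 1) y` with `red y = θ (red h)`. -/
theorem exists_mid_tower [IsLocalHom ψ] {q : ℕ} [Fact q.Prime] [NeZero q]
    (hA : A.LiesOverPrime q) (z₀ : (OE A K')ˣ)
    (hz₀ : IsPrimitiveRoot ((((z₀ : OE A K') : K') : Qb)) q)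
    {R : ℕ} [NeZero R] (hqR : ¬ q ∣ R) :
    ∃ μ : FL K (R * q * q) →+* LaurentSeries K',
      (∀ c : K, μ (algebraMap K (FL K (R * q * q)) c) = HahnSeries.C (φ c)) ∧
      (∀ f : FL K (R * q),
        μ (heckeAlphaBar K (R * q) q f) = coeffMap φ (f : LaurentSeries K)) ∧
      (∀ h : FL K R,
        μ (heckeBetaBar K (R * q) q (heckeBetaBar K R q h))
          = Congr.rescale (Twist.unitE K' z₀) (coeffMap φ (h : LaurentSeries K))) ∧
      (∀ f : FL K (R * q * q), μ f ∈ GaussDVR.fracField (OE A K') K') ∧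
      (∀ (h : FL K R) (hV : (h : LaurentSeries K) ∈ GaussDVR.V (OE A K) K),
        ∃ y : GaussDVR.V (OE A K') K',
          μ (heckeBetaBar K (R * q) q (heckeBetaBar K R q h))
              - μ (heckeAlphaBar K (R * q) q (heckeAlphaBar K R q h))
              = HahnSeries.C (algebraMap (OE A K') K' ((z₀ : OE A K') - 1))
                * (y : LaurentSeries K') ∧
            GaussDVR.red (OE A K') K' y
              = theta (coeffMap (IsLocalRing.ResidueField.map ψ)
                  (GaussDVR.red (OE A K) K ⟨(h : LaurentSeries K), hV⟩))) := by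
  obtain ⟨μ, hμc, hμa, hμb, hμf, hμt⟩ := exists_mid A K K' φ hφ ψ hψ hA z₀ hz₀ hqR
    (N := R * q * q) (by ring)
  have ha : ∀ f : FL K (R * q),
      μ (heckeAlphaBar K (R * q) q f) = coeffMap φ (f : LaurentSeries K) := by
    intro f
    rw [hμa _ (by rw [coe_heckeAlphaBar]; exact f.2), coe_heckeAlphaBar]
  refine ⟨μ, hμc, ha, ?_, hμf, ?_⟩
  · intro h
    exact hμb _ (h : LaurentSeries K) h.2 (coe_beta_beta K R q h)
  · intro h hV
    obtain ⟨y, hy, hred⟩ := hμt _ (h : LaurentSeries K) hV h.2 (coe_beta_beta K R q h)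
    refine ⟨y, ?_, hred⟩
    rw [ha, coe_heckeAlphaBar]
    exact hy

end Tower

end Fermat.Agent.S36.SqChart.Mid
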