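import Mathlib
import Fermat.Agent.S36.MidVal
import Fermat.Agent.S36.SqChart.Mid
import Fermat.Agent.S36.CycloBase
import Fermat.Agent.S36.SqRankE
import Fermat.Agent.S36.WSqE
import Fermat.Agent.S36.UnramBase
import Fermat.Agent.S34.HauptU.Plug

/-!
# S36, C2 modular instance (File 3, layer B): the three Gauss primes of the level-`R q²` chart
ring over `𝒪_K = A ∩ K`, along `α₂ ∘ α₁`

ONE application of `S36/MidVal.package_mid` with

* `O = 𝒪_K = OE A K` (`K` a number field inside the inertia field of `A`, `A` over `q`),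
  `ϖ = q`; `O' = 𝒪_{K(ζ)}` (`ζ` a primitive `q`-th root of unity), `ψ = CycloBase.inclOE`,
  `φ = CycloBase.inclE`, `z₀ = ζ` (`CycloBase.zetaU`), `e = q - 1`;
* `L' = LE R K`, `L = LE (R q q) K`, `α = SqRankE.alphaSq R q K = α₂ ∘ α₁`;
* `σ = ` the `q`-expansion (`Plug.sigmaHom`), `σ₀ = sig0 = σ ∘ W_{q²}` (`wSq`, from
  `S36/WSqE.exists_wSq` with the level-`R q` swap `Plug.wE`), `σm = sigM` (the middle-cusp
  embedding of `SqChart/Mid.exists_mid`);
* `y = β₂ (β₁ u') = SqRankE.betaSq R q K u'`, `N = q * q`.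

The coordinate `u' ∈ LE R K` is generic: `hU : u' = iota U` (integral `q`-expansion) and the
coordinate hypotheses `hy`, `hprime`, `hcop`, `hord`, `hθ`, `hfrob` of `package_mid` stay
explicit binders.
-/

set_option autoImplicit false
set_option linter.unusedSectionVars false
set_option linter.unusedVariables false
set_option linter.style.haveILetI false
set_option synthInstance.maxHeartbeats 400000

open ModularCurve Polynomial

noncomputable section

namespace Fermat.Agent.S36.SqChart.InstA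

open Fermat.Agent.S30 Fermat.Agent.S30.CSide
open Fermat.Agent.S18.K1Defs Fermat.Agent.S18.K1Main
open Fermat.Agent.S34.TwoPrimesGauss Fermat.Agent.S34.TwoPrimesRank
open Fermat.Agent.S34.HauptU.Plug
open Fermat.Agent.S36.SqChart Fermat.Agent.S36.MultPrimesGauss Fermat.Agent.S36.CycloBase
open Fermat.Agent.S36.SqRankE

local notation "Qb" => AlgebraicClosure ℚ

/-! ### The canonical algebra structures -/

section Alg

variable (A : ValuationSubring Qb) (K : IntermediateField ℚ Qb)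

/-- The canonical `𝒪_K`-algebra structure on the level-`N` function field over `K`
(`K1Main.algebraOL`), as a reducible definition: use it as a local instance. -/
@[reducible] def algL (N : ℕ) := algebraOL (OE A K) K (LE N K)

attribute [local instance] algL

theorem towerL (N : ℕ) : IsScalarTower (OE A K) K (LE N K) := isScalarTower_OL (OE A K) K (LE N K)

attribute [local instance] towerL

end Alg

attribute [local instance] algL towerL

/-! ### The Atkin–Lehner involution `W_{q²}` and the expansion at `0` -/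

section Zero

variable {q : ℕ} (hq : q.Prime) [NeZero q] (K : IntermediateField ℚ Qb)
  (R : ℕ) [NeZero R] (hqR : ¬ q ∣ R)

/-- The Atkin–Lehner swap of level `R q` as a ring endomorphism. -/
abbrev w1 : LE (R * q) K →+* LE (R * q) K := (wHom R q K hq hqR).toRingHom

theorem w1_alpha (h : LE R K) : w1 hq K R hqR (alphaHom R q K h) = betaHom R q K h :=
  wE_alpha R q K hq hqR h

theorem w1_beta (h : LE R K) : w1 hq K R hqR (betaHom R q K h) = alphaHom R q K h :=
  wE_beta R q K hq hqR h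

theorem w1_w1 (x : LE (R * q) K) : w1 hq K R hqR (w1 hq K R hqR x) = x :=
  wE_wE R q K hq hqR x

/-- The Atkin–Lehner involution `W_{q²}` of the level-`R q²` function field over `K`. -/
def wSq : LE (R * q * q) K ≃ₐ[K] LE (R * q * q) K :=
  Classical.choose (WSqE.exists_wSq (E2Deg.iotaE K) hq hqR (w1 hq K R hqR)
    (w1_alpha hq K R hqR) (w1_beta hq K R hqR))

theorem wSq_alpha (x : LE (R * q) K) :
    wSq hq K R hqR (alphaHom (R * q) q K x) = betaHom (R * q) q K (w1 hq K R hqR x) :=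
  (Classical.choose_spec (WSqE.exists_wSq (E2Deg.iotaE K) hq hqR (w1 hq K R hqR)
    (w1_alpha hq K R hqR) (w1_beta hq K R hqR))).1 x

theorem wSq_beta (x : LE (R * q) K) :
    wSq hq K R hqR (betaHom (R * q) q K x) = alphaHom (R * q) q K (w1 hq K R hqR x) :=
  (Classical.choose_spec (WSqE.exists_wSq (E2Deg.iotaE K) hq hqR (w1 hq K R hqR)
    (w1_alpha hq K R hqR) (w1_beta hq K R hqR))).2.1 x

theorem wSq_wSq (y : LE (R * q * q) K) : wSq hq K R hqR (wSq hq K R hqR y) = y :=
  (Classical.choose_spec (WSqE.exists_wSq (E2Deg.iotaE K) hq hqR (w1 hq K R hqR)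
    (w1_alpha hq K R hqR) (w1_beta hq K R hqR))).2.2 y

theorem wSq_alphaSq (h : LE R K) :
    wSq hq K R hqR (alphaSq R q K h) = betaSq R q K h := by
  show wSq hq K R hqR (alphaHom (R * q) q K (alphaHom R q K h)) = _
  rw [wSq_alpha, w1_alpha]
  rfl

theorem wSq_betaSq (h : LE R K) :
    wSq hq K R hqR (betaSq R q K h) = alphaSq R q K h := by
  show wSq hq K R hqR (betaHom (R * q) q K (betaHom R q K h)) = _
  rw [wSq_beta, w1_beta]
  rfl

/-- The expansion at the cusp `0` of level `R q²`: `σ₀ = (q-expansion) ∘ W_{q²}`. -/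
def sig0 : LE (R * q * q) K →+* LaurentSeries K :=
  (sigmaHom (R * q * q) K).comp (wSq hq K R hqR : LE (R * q * q) K →+* LE (R * q * q) K)

theorem sig0_apply (y : LE (R * q * q) K) :
    sig0 hq K R hqR y = ((wSq hq K R hqR y : LE (R * q * q) K) : LaurentSeries K) := rfl

/-- `σ₀ (α₂ x) = (w₁ x)(q^q)`. -/
theorem sig0_alpha (x : LE (R * q) K) :
    sig0 hq K R hqR (alphaHom (R * q) q K x)
      = qExpand K q ((w1 hq K R hqR x : LE (R * q) K) : LaurentSeries K) := by
  rw [sig0_apply, wSq_alpha]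
  exact coe_heckeBetaBar (R * q) q _

/-- `σ₀ (β₂ x) = w₁ x`. -/
theorem sig0_beta (x : LE (R * q) K) :
    sig0 hq K R hqR (betaHom (R * q) q K x)
      = ((w1 hq K R hqR x : LE (R * q) K) : LaurentSeries K) := by
  rw [sig0_apply, wSq_beta]
  exact coe_heckeAlphaBar (R * q) q _

/-- `σ (α₂ (α₁ h)) = h`. -/
theorem sigma_alphaSq (h : LE R K) :
    sigmaHom (R * q * q) K (alphaSq R q K h) = (h : LaurentSeries K) := by
  rw [sigmaHom_apply]
  exact Mid.coe_alpha_alpha K R q h

/-- `σ (β₂ (β₁ h)) = h(q^{q q})`. -/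
theorem sigma_betaSq (h : LE R K) :
    sigmaHom (R * q * q) K (betaSq R q K h) = qExpand K (q * q) (h : LaurentSeries K) := by
  rw [sigmaHom_apply, RingHom.comp_apply, RingHom.coe_coe, RingHom.coe_coe, coe_heckeBetaBar,
    coe_heckeBetaBar, qExpand_qExpand]

/-- `hσ₀α` : `σ₀ (α₂ (α₁ h)) = (σ (α₂ (α₁ h)))(q^{q q})`. -/
theorem sig0_alphaSq (h : LE R K) :
    sig0 hq K R hqR (alphaSq R q K h)
      = qExpand K (q * q) (sigmaHom (R * q * q) K (alphaSq R q K h)) := by
  rw [sig0_apply, wSq_alphaSq, sigma_alphaSq, ← sigmaHom_apply, sigma_betaSq]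

/-- `σ₀ (β₂ (β₁ h)) = h`. -/
theorem sig0_betaSq (h : LE R K) :
    sig0 hq K R hqR (betaSq R q K h) = (h : LaurentSeries K) := by
  rw [sig0_apply, wSq_betaSq, ← sigmaHom_apply, sigma_alphaSq]

variable (A : ValuationSubring Qb)

/-- `hσ₀O`. -/
theorem sig0_algebraMap (r : OE A K) :
    sig0 hq K R hqR (algebraMap (OE A K) (LE (R * q * q) K) r)
      = HahnSeries.C (algebraMap (OE A K) K r) := by
  rw [sig0_apply, IsScalarTower.algebraMap_apply (OE A K) K (LE (R * q * q) K),
    AlgEquiv.commutes]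
  exact sigmaHom_algebraMap (R * q * q) K r

/-- `hσ₀frac`. -/
theorem sig0_mem_fracField [IsDiscreteValuationRing (OE A K)] (y : LE (R * q * q) K) :
    sig0 hq K R hqR y ∈ GaussDVR.fracField (OE A K) K :=
  sigmaHom_mem_fracField (R * q * q) K A _

end Zero

/-! ### The expansion at the middle cusp -/

section MidEmb

variable (A : ValuationSubring Qb) {q : ℕ} (hq : q.Prime) [NeZero q] (hA : A.LiesOverPrime q)
  (K : IntermediateField ℚ Qb) {ζ : Qb} (hζ : IsPrimitiveRoot ζ q)
  [IsDiscreteValuationRing (OE A K)] [IsDiscreteValuationRing (OE A (cyclo K ζ))]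
  (R : ℕ) [NeZero R] (hqR : ¬ q ∣ R)

/-- The unit `ζ` of `K(ζ)` (the image of `CycloBase.zetaU`). -/
abbrev zE : (cyclo K ζ)ˣ := Twist.unitE (cyclo K ζ) (zetaU A hq K hζ)

theorem isPrimitiveRoot_zE : IsPrimitiveRoot (zE A hq K hζ) q :=
  Mid.isPrimitiveRoot_unitE A (cyclo K ζ) (zetaU A hq K hζ) hζ

include hA hqR in
theorem exists_sigM :
    ∃ μ : LE (R * q * q) K →+* LaurentSeries (cyclo K ζ),
      (∀ c : K, μ (algebraMap K (LE (R * q * q) K) c)
        = HahnSeries.C (inclE (le_cyclo K ζ) c)) ∧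
      (∀ f : LE (R * q * q) K,
        (f : LaurentSeries K) ∈ laurentBaseChange K (modularFunctionFieldFull (R * q)) →
        μ f = coeffMap (inclE (le_cyclo K ζ)) (f : LaurentSeries K)) ∧
      (∀ (f : LE (R * q * q) K) (h : LaurentSeries K),
        h ∈ laurentBaseChange K (modularFunctionFieldFull R) →
        (f : LaurentSeries K) = qExpand K (q ^ 2) h →
        μ f = Congr.rescale (zE A hq K hζ) (coeffMap (inclE (le_cyclo K ζ)) h)) ∧
      (∀ f : LE (R * q * q) K, μ f ∈ GaussDVR.fracField (OE A (cyclo K ζ)) (cyclo K ζ)) := by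
  haveI : Fact q.Prime := ⟨hq⟩
  obtain ⟨μ, h1, h2, h3, h4, -⟩ := Mid.exists_mid A K (cyclo K ζ) (inclE (le_cyclo K ζ))
    (fun _ => rfl) (inclOE A (le_cyclo K ζ)) (fun _ => rfl) hA (zetaU A hq K hζ) hζ hqR
    (N := R * q * q) (by ring)
  exact ⟨μ, h1, h2, h3, h4⟩

/-- The expansion at the middle cusp of level `R q²`, with values in `K(ζ)((q))`. -/
def sigM : LE (R * q * q) K →+* LaurentSeries (cyclo K ζ) :=
  Classical.choose (exists_sigM A hq hA K hζ R hqR)

theorem sigM_const (c : K) :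
    sigM A hq hA K hζ R hqR (algebraMap K (LE (R * q * q) K) c)
      = HahnSeries.C (inclE (le_cyclo K ζ) c) :=
  (Classical.choose_spec (exists_sigM A hq hA K hζ R hqR)).1 c

theorem sigM_of_level (f : LE (R * q * q) K)
    (hf : (f : LaurentSeries K) ∈ laurentBaseChange K (modularFunctionFieldFull (R * q))) :
    sigM A hq hA K hζ R hqR f = coeffMap (inclE (le_cyclo K ζ)) (f : LaurentSeries K) :=
  (Classical.choose_spec (exists_sigM A hq hA K hζ R hqR)).2.1 f hf

theorem sigM_of_sq (f : LE (R * q * q) K) (h : LaurentSeries K)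
    (hh : h ∈ laurentBaseChange K (modularFunctionFieldFull R))
    (hf : (f : LaurentSeries K) = qExpand K (q ^ 2) h) :
    sigM A hq hA K hζ R hqR f
      = Congr.rescale (zE A hq K hζ) (coeffMap (inclE (le_cyclo K ζ)) h) :=
  (Classical.choose_spec (exists_sigM A hq hA K hζ R hqR)).2.2.1 f h hh hf

/-- `hσmfrac`. -/
theorem sigM_mem_fracField (f : LE (R * q * q) K) :
    sigM A hq hA K hζ R hqR f ∈ GaussDVR.fracField (OE A (cyclo K ζ)) (cyclo K ζ) :=
  (Classical.choose_spec (exists_sigM A hq hA K hζ R hqR)).2.2.2 f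

/-- `hσmO`. -/
theorem sigM_algebraMap (r : OE A K) :
    sigM A hq hA K hζ R hqR (algebraMap (OE A K) (LE (R * q * q) K) r)
      = HahnSeries.C (algebraMap (OE A (cyclo K ζ)) (cyclo K ζ) (inclOE A (le_cyclo K ζ) r)) := by
  rw [IsScalarTower.algebraMap_apply (OE A K) K (LE (R * q * q) K), sigM_const]
  rfl

/-- `μ (α₂ x) = x` (coefficients mapped to `K(ζ)`). -/
theorem sigM_alpha (x : LE (R * q) K) :
    sigM A hq hA K hζ R hqR (alphaHom (R * q) q K x)
      = coeffMap (inclE (le_cyclo K ζ)) (x : LaurentSeries K) := by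
  rw [sigM_of_level A hq hA K hζ R hqR _
    (by rw [RingHom.coe_coe, coe_heckeAlphaBar]; exact x.2), RingHom.coe_coe, coe_heckeAlphaBar]

/-- `μ (β₂ (β₁ h)) = h(ζ q)`. -/
theorem sigM_betaSq (h : LE R K) :
    sigM A hq hA K hζ R hqR (betaSq R q K h)
      = Congr.rescale (zE A hq K hζ) (coeffMap (inclE (le_cyclo K ζ)) (h : LaurentSeries K)) :=
  sigM_of_sq A hq hA K hζ R hqR _ (h : LaurentSeries K) h.2 (Mid.coe_beta_beta K R q h)

/-- `hσmα` : `μ (α₂ (α₁ h)) = σ (α₂ (α₁ h))` (coefficients mapped to `K(ζ)`). -/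
theorem sigM_alphaSq (h : LE R K) :
    sigM A hq hA K hζ R hqR (alphaSq R q K h)
      = coeffMap (inclE (le_cyclo K ζ)) (sigmaHom (R * q * q) K (alphaSq R q K h)) := by
  rw [sigma_alphaSq, RingHom.comp_apply, sigM_alpha, RingHom.coe_coe, coe_heckeAlphaBar]

/-- **`μ (β₂ x) = (w₁ x)(ζ q)`** for every `x` of level `R q`. -/
theorem sigM_beta (x : LE (R * q) K) :
    sigM A hq hA K hζ R hqR (betaHom (R * q) q K x)
      = Congr.rescale (zE A hq K hζ) (coeffMap (inclE (le_cyclo K ζ))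
          ((w1 hq K R hqR x : LE (R * q) K) : LaurentSeries K)) := by
  have key : (sigM A hq hA K hζ R hqR).comp (heckeBetaBar K (R * q) q).toRingHom
      = (Congr.rescale (zE A hq K hζ)).comp ((coeffMap (inclE (le_cyclo K ζ))).comp
          ((laurentBaseChange K (modularFunctionFieldFull (R * q))).val.toRingHom.comp
            (w1 hq K R hqR))) := by
    refine Fermat.Agent.S34.Modular.SwapE.ringHom_ext R q hq _ _ ?_ ?_ ?_
    · intro c
      show sigM A hq hA K hζ R hqR (heckeBetaBar K (R * q) q (algebraMap K (FL K (R * q)) c))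
        = Congr.rescale (zE A hq K hζ) (coeffMap (inclE (le_cyclo K ζ))
            ((w1 hq K R hqR (algebraMap K (FL K (R * q)) c) : FL K (R * q)) : LaurentSeries K))
      rw [WSqE.swap_algebraMap (w1 hq K R hqR) (w1_alpha hq K R hqR), AlgHom.commutes,
        sigM_const]
      show _ = Congr.rescale (zE A hq K hζ) (coeffMap (inclE (le_cyclo K ζ))
        (algebraMap K (LaurentSeries K) c))
      rw [MidCuspE.coeffMap_algebraMap', MidCuspE.rescale_C']
    · intro h
      show sigM A hq hA K hζ R hqR (heckeBetaBar K (R * q) q (heckeAlphaBar K R q h))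
        = Congr.rescale (zE A hq K hζ) (coeffMap (inclE (le_cyclo K ζ))
            ((w1 hq K R hqR (heckeAlphaBar K R q h) : FL K (R * q)) : LaurentSeries K))
      have h1 := sigM_of_level A hq hA K hζ R hqR
        (heckeBetaBar K (R * q) q (heckeAlphaBar K R q h))
        (by
          rw [coe_heckeBetaBar, coe_heckeAlphaBar]
          exact (heckeBetaBar K R q h).2)
      have h2 : w1 hq K R hqR (heckeAlphaBar K R q h) = heckeBetaBar K R q h :=
        w1_alpha hq K R hqR h
      rw [h1, h2, coe_heckeBetaBar, coe_heckeBetaBar, coe_heckeAlphaBar,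
        ModularCurve.coeffMap_qExpand,
        WSqE.rescale_qExpand_of_pow_eq_one q (zE A hq K hζ)
          (isPrimitiveRoot_zE A hq K hζ).pow_eq_one]
    · intro h
      show sigM A hq hA K hζ R hqR (heckeBetaBar K (R * q) q (heckeBetaBar K R q h))
        = Congr.rescale (zE A hq K hζ) (coeffMap (inclE (le_cyclo K ζ))
            ((w1 hq K R hqR (heckeBetaBar K R q h) : FL K (R * q)) : LaurentSeries K))
      have h2 : w1 hq K R hqR (heckeBetaBar K R q h) = heckeAlphaBar K R q h :=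
        w1_beta hq K R hqR h
      rw [h2, coe_heckeAlphaBar]
      exact sigM_betaSq A hq hA K hζ R hqR h
  exact congrArg (fun ρ : FL K (R * q) →+* LaurentSeries (cyclo K ζ) => ρ x) key

end MidEmb

/-! ### The package -/

section Package

variable (A : ValuationSubring Qb) {q : ℕ} (hq : q.Prime) [NeZero q] (hA : A.LiesOverPrime q)
  (K : IntermediateField ℚ Qb) [FiniteDimensional ℚ K]
  (hK : A.inertiaSubgroupIn ℚ ≤ K.fixingSubgroup) {ζ : Qb} (hζ : IsPrimitiveRoot ζ q)
  [IsDiscreteValuationRing (OE A K)] [IsDiscreteValuationRing (OE A (cyclo K ζ))]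
  (R : ℕ) [NeZero R] (hqR : ¬ q ∣ R)
  (u' : LE R K) (U : LaurentSeries (OE A K))
  (hU : (u' : LaurentSeries K) = GaussDVR.iota (OE A K) K U)

include hU in
/-- `hσu`. -/
theorem sigma_u :
    sigmaHom (R * q * q) K (alphaSq R q K u') = GaussDVR.iota (OE A K) K U := by
  rw [sigma_alphaSq, hU]

include hq hA hK in
/-- `hϖ`. -/
theorem irreducible_q : Irreducible ((q : ℕ) : OE A K) :=
  UnramBase.irreducible_natCast_OE A K hq hA hK

include hA hK in
/-- `hz₀`. -/
theorem irreducible_zeta_sub_one :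
    Irreducible (((zetaU A hq K hζ : (OE A (cyclo K ζ))ˣ) : OE A (cyclo K ζ)) - 1) :=
  irreducible_lam A hq hA K hK hζ

include hA hK in
/-- `hlame`. -/
theorem lam_pow_dvd :
    (((zetaU A hq K hζ : (OE A (cyclo K ζ))ˣ) : OE A (cyclo K ζ)) - 1) ^ (q - 1)
      ∣ inclOE A (le_cyclo K ζ) ((q : ℕ) : OE A K) := by
  obtain ⟨w, hw, -⟩ := exists_unit_mul_lam_pow A hq hA K hK hζ
  rw [map_natCast, hw]
  exact Dvd.intro_left _ rfl

include hU in
/-- `hσy`. -/
theorem sigma_y :
    sigmaHom (R * q * q) K (betaSq R q K u')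
      = GaussDVR.iota (OE A K) K (qExpand (OE A K) (q * q) U) := by
  rw [sigma_betaSq, hU]
  exact (ModularCurve.coeffMap_qExpand _ _ _).symm

include hU in
/-- `hσ₀y`. -/
theorem sig0_y :
    sig0 hq K R hqR (betaSq R q K u') = GaussDVR.iota (OE A K) K U := by
  rw [sig0_betaSq, hU]

include hU in
/-- `hσmy`. -/
theorem sigM_y :
    sigM A hq hA K hζ R hqR (betaSq R q K u')
      = Congr.rescale (Twist.unitE (cyclo K ζ) (zetaU A hq K hζ))
          (coeffMap (inclE (le_cyclo K ζ)) (sigmaHom (R * q * q) K (alphaSq R q K u'))) := by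
  rw [sigM_betaSq, sigma_alphaSq]

local notation "ϖ" => ((q : ℕ) : OE A K)
local notation "hϖ" => irreducible_q A hq hA K hK
local notation "α" => alphaSq R q K
local notation "hαO" => alphaSq_algebraMap R q K (O := OE A K)
local notation "σ" => sigmaHom (R * q * q) K
local notation "hσO" => sigmaHom_algebraMap (R * q * q) K (O := OE A K)
local notation "hσfrac" => sigmaHom_mem_fracField (R * q * q) K A
local notation "hσu" => sigma_u A K R u' U hU
local notation "σ₀" => sig0 hq K R hqR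
local notation "hσ₀O" => sig0_algebraMap hq K R hqR A
local notation "hσ₀frac" => sig0_mem_fracField hq K R hqR A
local notation "hσ₀α" => sig0_alphaSq hq K R hqR
local notation "ψ" => inclOE A (le_cyclo K ζ)
local notation "φ" => inclE (le_cyclo K ζ)
local notation "hψφ" => inclE_algebraMap A (le_cyclo K ζ)
local notation "σm" => sigM A hq hA K hζ R hqR
local notation "hσmO" => sigM_algebraMap A hq hA K hζ R hqR
local notation "hσmfrac" => sigM_mem_fracField A hq hA K hζ R hqR
local notation "hσmα" => sigM_alphaSq A hq hA K hζ R hqR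
local notation "z₀" => zetaU A hq K hζ
local notation "hz₀" => irreducible_zeta_sub_one A hq hA K hK hζ

local notation "rI" => redInf ϖ hϖ α σ hσO hσfrac u' U hσu
local notation "rZ" => redZ ϖ hϖ α σ u' U hσu (q * q) σ₀ hσ₀O hσ₀frac hσ₀α
local notation "ι" => incl α hαO u'
local notation "τM" => MidVal.tauM ψ φ hψφ α σ u' U hσu σm hσmO hσmfrac hσmα z₀ hz₀
local notation "lamV" => GaussDVR.unif (cyclo K ζ) (((zetaU A hq K hζ : (OE A (cyclo K ζ))ˣ) :
  OE A (cyclo K ζ)) - 1)
local notation "uC" => incl α hαO u' (polyChart u' X)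

variable [FiniteDimensional (IntermediateField.adjoin K {u'}) (LE R K)]
  (hy : IsIntegral (Algebra.adjoin (OE A K) {alphaSq R q K u'}) (betaSq R q K u'))
  (hprime : Prime (piC u' ((q : ℕ) : OE A K)))
  (hcop : IsCoprime (GaussDVR.rho (OE A K) U).order ((q * q : ℕ) : ℤ))
  (hord : (GaussDVR.rho (OE A K) U).order ≠ 0)
  (hθ : QFormal.theta (GaussDVR.rho (OE A K) U) ≠ 0)
  (hfrob : qExpand (IsLocalRing.ResidueField (OE A K)) (q * q) (GaussDVR.rho (OE A K) U)
    = GaussDVR.rho (OE A K) U ^ (q * q))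

local notation "yC" => (Subtype.mk (betaSq R q K u') hy : Chart (OE A K) (alphaSq R q K u'))
local notation "δ" => ((Subtype.mk (betaSq R q K u') hy : Chart (OE A K) (alphaSq R q K u'))
  - incl α hαO u' (polyChart u' X))

include hprime hcop hord hθ hfrob in
/-- **The three Gauss primes of the level-`R q²` chart ring over `𝒪_K`** (chart of
`α₂ α₁ u'`): `MidVal.package_mid` for `O = 𝒪_K`, `O' = 𝒪_{K(ζ)}`, `σ₀ = sig0`, `σm = sigM`,
`y = β₂ β₁ u'`, `N = q q`, `e = q - 1`. -/
theorem package_alpha :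
    (∀ c : Chart (OE A K) (alphaSq R q K u'), rI c = 0 → rZ c = 0 → lamV ^ (q - 1) ∣ τM c →
      piC (alphaSq R q K u') ϖ ∣ c) ∧
    (∀ Q : Ideal (Chart (OE A K) (alphaSq R q K u')), Q.IsPrime →
      piC (alphaSq R q K u') ϖ ∈ Q →
      (∀ a : Chart (OE A K) u', ι a ∈ Q → piC u' ϖ ∣ a) →
      Q = RingHom.ker rI ∨ Q = RingHom.ker rZ ∨ Q = (Ideal.span {lamV}).comap τM) ∧
    (IsIntegrallyClosed (Chart (OE A K) u' ⧸ Ideal.span {piC u' ϖ}) →
      (∀ c : Chart (OE A K) (alphaSq R q K u'), ∃ a : Chart (OE A K) u', rI (c - ι a) = 0) ∧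
      (∀ c : Chart (OE A K) (alphaSq R q K u'), ∃ a : Chart (OE A K) u',
        lamV ∣ τM (c - ι a))) ∧
    (∀ c : Chart (OE A K) (alphaSq R q K u'),
      ∃ (s : Chart (OE A K) u') (a : Fin (q * q) → Chart (OE A K) u'), ¬ piC u' ϖ ∣ s ∧
      rZ (ι s * c - ∑ k, ι (a k) * yC ^ (k : ℕ)) = 0) ∧
    (∀ l : ℕ, l < q - 1 → ∀ c : Chart (OE A K) (alphaSq R q K u'), lamV ^ l ∣ τM c →
      ∃ s a : Chart (OE A K) u', ¬ piC u' ϖ ∣ s ∧
        lamV ^ (l + 1) ∣ τM (ι s * c - ι a * δ ^ l)) ∧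
    (∀ c : Chart (OE A K) (alphaSq R q K u'), lamV ∣ τM c → ∃ t, ¬ lamV ∣ τM t ∧ δ ∣ t * c) ∧
    (∃ t, ¬ lamV ∣ τM t ∧ piC (alphaSq R q K u') ϖ ∣ t * δ ^ (q - 1)) ∧
    (∃ t, ¬ lamV ∣ τM t ∧ δ ^ (q - 1) ∣ t * piC (alphaSq R q K u') ϖ) ∧
    (rI δ ≠ 0 ∧ rZ δ ≠ 0 ∧ lamV ∣ τM δ) ∧
    (rI (yC - uC ^ (q * q)) = 0 ∧ rZ (yC - uC ^ (q * q)) ≠ 0 ∧
      ¬ lamV ∣ τM (yC - uC ^ (q * q))) ∧
    (rZ (uC - yC ^ (q * q)) = 0 ∧ rI (uC - yC ^ (q * q)) ≠ 0 ∧
      ¬ lamV ∣ τM (uC - yC ^ (q * q))) := by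
  have h2 : 2 ≤ q := hq.two_le
  have hcard : q * (q + 1) < Fintype.card (Fin (1 + q * q + (q - 1) + 1)) := by
    rw [Fintype.card_fin, Nat.mul_succ]
    omega
  exact MidVal.package_mid ψ φ hψφ ϖ hϖ α hαO σ hσO hσfrac u' U hσu σm hσmO hσmfrac hσmα z₀ hz₀
    (q - 1) (lam_pow_dvd A hq hA K hK hζ) (betaSq R q K u') hy
    (sigM_y A hq hA K hζ R hqR u' U hU) hθ (q * q) σ₀ hσ₀O hσ₀frac hσ₀α
    (sigma_y A K R u' U hU) (sig0_y A hq K R hqR u' U hU) (by omega) hprime hcop hord
    (by nlinarith) hfrob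
    (fun v => hrank_alphaSq R q K hq hqR u' hcard v)

end Package

end Fermat.Agent.S36.SqChart.InstA
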