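import Mathlib
import Fermat.Agent.S36.SqChart.InstA
import Fermat.Agent.S36.SqChart.HypGauss

/-!
# S36, C2 modular instance (File 3, layer C): `SqExit.Hyp` for the level-`R q²` chart over `𝒪_K`

ONE application of `SqChart/HypGauss.hyp` (helper102) to the `E`-level data of `SqChart/InstA`:

* `O = 𝒪_K = OE A K`, `ϖ = q`, `O' = 𝒪_{K(ζ)}`, `z₀ = ζ`, `e = q - 1`;
* level `q` : `a1 = alphaHom R q K`, `σ1 = sigmaHom (R q) K`, `w1 = Plug.wHom R q K`;
* level `q²` : `a2 = alphaHom (R q) q K`, `b2 = betaHom (R q) q K`, `σ2 = sigmaHom (R q q) K`,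
  `σ₀ = InstA.sig0`, `σm = InstA.sigM`, `y = betaSq R q K u'`, `N = q * q`.

The coordinate `u' ∈ LE R K` is generic, with the level-`q` coordinate hypotheses of
`TwoPrimesGauss.package` (`hprime`, `hcop`, `hord`, `hfrob`, `hwu`) and `hθ`.

* `B1`, `B2` : the chart rings of level `R q`, `R q²`;
* `alphaC`, `betaC : B1 →+* B2` : the two degeneracy maps;
* `pInf`, `pZero` (primes of `B1`), `PInf`, `PZero`, `PMid` (primes of `B2`);
* `hyp` : `SqExit.Hyp alphaC betaC q pInf pZero PInf PZero PMid (q - 1)`.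
-/

set_option autoImplicit false
set_option linter.unusedSectionVars false
set_option linter.unusedVariables false
set_option linter.style.haveILetI false
set_option synthInstance.maxHeartbeats 400000

open ModularCurve Polynomial

noncomputable section

namespace Fermat.Agent.S36.SqChart.HypE

open Fermat.Agent.S30 Fermat.Agent.S30.CSide
open Fermat.Agent.S18.K1Defs Fermat.Agent.S18.K1Main
open Fermat.Agent.S34.TwoPrimesGauss Fermat.Agent.S34.TwoPrimesRank
open Fermat.Agent.S34.HauptU.Plug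
open Fermat.Agent.S36.SqChart Fermat.Agent.S36.MultPrimesGauss Fermat.Agent.S36.CycloBase
open Fermat.Agent.S36.SqRankE Fermat.Agent.S36.SqChart.InstA

local notation "Qb" => AlgebraicClosure ℚ

attribute [local instance] InstA.algL InstA.towerL

/-! ### Compatibilities of the two towers -/

section Compat

variable {q : ℕ} (hq : q.Prime) [NeZero q] (K : IntermediateField ℚ Qb)
  (R : ℕ) [NeZero R] (hqR : ¬ q ∣ R)

/-- `hσa` : `σ₂ (α₂ x) = σ₁ x`. -/
theorem sigma_alpha (x : LE (R * q) K) :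
    sigmaHom (R * q * q) K (alphaHom (R * q) q K x) = sigmaHom (R * q) K x := by
  rw [sigmaHom_apply, sigmaHom_apply, RingHom.coe_coe, coe_heckeAlphaBar]

/-- `hσ₀ab` : `σ₀ (α₂ (w₁ (α₁ x))) = (σ₁ (α₁ x))(q^q)`. -/
theorem sig0_alpha_w1_alpha (x : LE R K) :
    sig0 hq K R hqR (alphaHom (R * q) q K (wHom R q K hq hqR (alphaHom R q K x)))
      = qExpand K q (sigmaHom (R * q) K (alphaHom R q K x)) := by
  rw [sig0_alpha, sigmaHom_apply]
  congr 2
  exact w1_w1 hq K R hqR (alphaHom R q K x)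

/-- `hcomm` : `β₂ (α₁ x) = α₂ (w₁ (α₁ x))`. -/
theorem beta_alpha_comm (x : LE R K) :
    betaHom (R * q) q K (alphaHom R q K x)
      = alphaHom (R * q) q K (wHom R q K hq hqR (alphaHom R q K x)) :=
  (beta_alpha_eq R q K x).trans (congrArg _ (wHom_alpha R q K hq hqR x).symm)

/-- `hyv` : `y = β₂ (w₁ (α₁ u'))`. -/
theorem betaSq_eq (u' : LE R K) :
    betaSq R q K u' = betaHom (R * q) q K (wHom R q K hq hqR (alphaHom R q K u')) := by
  rw [wHom_alpha]
  rfl

end Compat

/-! ### The instance -/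

section Inst

variable (A : ValuationSubring Qb) {q : ℕ} (hq : q.Prime) [NeZero q] (hA : A.LiesOverPrime q)
  (K : IntermediateField ℚ Qb) [FiniteDimensional ℚ K]
  (hK : A.inertiaSubgroupIn ℚ ≤ K.fixingSubgroup) {ζ : Qb} (hζ : IsPrimitiveRoot ζ q)
  [IsDiscreteValuationRing (OE A K)] [IsDiscreteValuationRing (OE A (cyclo K ζ))]
  (R : ℕ) [NeZero R] (hqR : ¬ q ∣ R)
  (u' : LE R K) (U : LaurentSeries (OE A K))
  (hU : (u' : LaurentSeries K) = GaussDVR.iota (OE A K) K U)

include hU in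
/-- `hσ1u`. -/
theorem sigma1_u :
    sigmaHom (R * q) K (alphaHom R q K u') = GaussDVR.iota (OE A K) K U := by
  rw [sigmaHom_apply, RingHom.coe_coe]
  exact coe_alpha_eq_iota R q K u' U hU

/-- The chart ring of level `R q` (integral closure of `𝒪_K[α₁ u']`). -/
abbrev B1 : Type := Chart (OE A K) (alphaHom R q K u')

/-- The chart ring of level `R q²` (integral closure of `𝒪_K[α₂ α₁ u']`). -/
abbrev B2 : Type := Chart (OE A K) (alphaSq R q K u')

/-- `α : B1 → B2`, `s ↦ α₂ s`. -/
abbrev alphaC : B1 A K R u' (q := q) →+* B2 A K R u' (q := q) :=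
  HypGauss.alphaC (alphaHom R q K) (alphaHom (R * q) q K)
    (alphaHom_sq_algebraMap R q K (O := OE A K)) u'

variable (hwu : IsIntegral (Algebra.adjoin (OE A K) {alphaHom R q K u'})
    (wHom R q K hq hqR (alphaHom R q K u')))

/-- `β : B1 → B2`, `s ↦ β₂ s`. -/
abbrev betaC : B1 A K R u' (q := q) →+* B2 A K R u' (q := q) :=
  HypGauss.betaC (alphaHom R q K) (wHom R q K hq hqR) (alphaHom (R * q) q K)
    (betaHom (R * q) q K) (alphaHom_sq_algebraMap R q K (O := OE A K))
    (betaHom_sq_algebraMap R q K (O := OE A K)) u' hwu (beta_alpha_comm hq K R hqR)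

local notation "ϖ" => ((q : ℕ) : OE A K)
local notation "hϖ" => irreducible_q A hq hA K hK

/-- The reduction at `∞` of the level-`R q` chart ring. -/
abbrev rInf1 : B1 A K R u' (q := q) →+* LaurentSeries (IsLocalRing.ResidueField (OE A K)) :=
  redInf ϖ hϖ (alphaHom R q K) (sigmaHom (R * q) K)
    (sigmaHom_algebraMap (R * q) K (O := OE A K)) (sigmaHom_mem_fracField (R * q) K A) u' U
    (sigma1_u A K R u' U hU)

/-- The reduction at `0` of the level-`R q` chart ring. -/
abbrev rZero1 : B1 A K R u' (q := q) →+* LaurentSeries (IsLocalRing.ResidueField (OE A K)) :=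
  redZero ϖ hϖ (alphaHom R q K) (sigmaHom (R * q) K)
    (sigmaHom_algebraMap (R * q) K (O := OE A K)) (sigmaHom_mem_fracField (R * q) K A) u' U
    (sigma1_u A K R u' U hU) (wHom R q K hq hqR) (wHom_algebraMap R q K hq hqR (O := OE A K)) q
    (sigmaHom_wHom_alpha R q K hq hqR)

/-- The reduction at `∞` of the level-`R q²` chart ring. -/
abbrev rInf : B2 A K R u' (q := q) →+* LaurentSeries (IsLocalRing.ResidueField (OE A K)) :=
  redInf ϖ hϖ (alphaSq R q K) (sigmaHom (R * q * q) K)
    (sigmaHom_algebraMap (R * q * q) K (O := OE A K)) (sigmaHom_mem_fracField (R * q * q) K A)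
    u' U (sigma_u A K R u' U hU)

/-- The reduction at `0` of the level-`R q²` chart ring. -/
abbrev rZero : B2 A K R u' (q := q) →+* LaurentSeries (IsLocalRing.ResidueField (OE A K)) :=
  redZ ϖ hϖ (alphaSq R q K) (sigmaHom (R * q * q) K) u' U (sigma_u A K R u' U hU) (q * q)
    (sig0 hq K R hqR) (sig0_algebraMap hq K R hqR A) (sig0_mem_fracField hq K R hqR A)
    (sig0_alphaSq hq K R hqR)

/-- The middle valuation of the level-`R q²` chart ring (values in the Gauss ring of
`𝒪_{K(ζ)}`). -/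
abbrev tauMid : B2 A K R u' (q := q) →+* GaussDVR.V (OE A (cyclo K ζ)) (cyclo K ζ) :=
  MidVal.tauM (inclOE A (le_cyclo K ζ)) (inclE (le_cyclo K ζ))
    (inclE_algebraMap A (le_cyclo K ζ)) (alphaSq R q K) (sigmaHom (R * q * q) K) u' U
    (sigma_u A K R u' U hU) (sigM A hq hA K hζ R hqR) (sigM_algebraMap A hq hA K hζ R hqR)
    (sigM_mem_fracField A hq hA K hζ R hqR) (sigM_alphaSq A hq hA K hζ R hqR)
    (zetaU A hq K hζ) (irreducible_zeta_sub_one A hq hA K hK hζ)

/-- The uniformiser `ζ - 1` of the Gauss ring of `𝒪_{K(ζ)}`. -/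
abbrev lamMid : GaussDVR.V (OE A (cyclo K ζ)) (cyclo K ζ) :=
  GaussDVR.unif (cyclo K ζ) (((zetaU A hq K hζ : (OE A (cyclo K ζ))ˣ) : OE A (cyclo K ζ)) - 1)

/-- The prime `p_∞` of the level-`R q` chart ring. -/
abbrev pInf : Ideal (B1 A K R u' (q := q)) := RingHom.ker (rInf1 A hq hA K hK R u' U hU)

/-- The prime `p_0` of the level-`R q` chart ring. -/
abbrev pZero : Ideal (B1 A K R u' (q := q)) := RingHom.ker (rZero1 A hq hA K hK R hqR u' U hU)

/-- The prime `P_∞` of the level-`R q²` chart ring. -/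
abbrev PInf : Ideal (B2 A K R u' (q := q)) := RingHom.ker (rInf A hq hA K hK R u' U hU)

/-- The prime `P_0` of the level-`R q²` chart ring. -/
abbrev PZero : Ideal (B2 A K R u' (q := q)) := RingHom.ker (rZero A hq hA K hK R hqR u' U hU)

/-- The prime `P_{11}` (middle component, multiplicity `q - 1`) of the level-`R q²` chart
ring. -/
abbrev PMid : Ideal (B2 A K R u' (q := q)) :=
  (Ideal.span {lamMid A hq K hζ}).comap (tauMid A hq hA K hK hζ R hqR u' U hU)

variable [FiniteDimensional (IntermediateField.adjoin K {u'}) (LE R K)]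
  (hprime : Prime (piC u' ((q : ℕ) : OE A K)))
  (hcop : IsCoprime (GaussDVR.rho (OE A K) U).order ((q : ℕ) : ℤ))
  (hord : (GaussDVR.rho (OE A K) U).order ≠ 0)
  (hθ : QFormal.theta (GaussDVR.rho (OE A K) U) ≠ 0)
  (hfrob : qExpand (IsLocalRing.ResidueField (OE A K)) q (GaussDVR.rho (OE A K) U)
    = GaussDVR.rho (OE A K) U ^ q)

set_option maxHeartbeats 4000000 in
include hprime hcop hord hθ hfrob in
/-- **`SqExit.Hyp` for the two chart rings of levels `R q`, `R q²` over `𝒪_K`** (Gauss route). -/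
theorem hyp :
    SqExit.Hyp (alphaC A K R u') (betaC A hq K R hqR u' hwu)
      (piC (alphaHom R q K u') ((q : ℕ) : OE A K))
      (pInf A hq hA K hK R u' U hU) (pZero A hq hA K hK R hqR u' U hU)
      (PInf A hq hA K hK R u' U hU) (PZero A hq hA K hK R hqR u' U hU)
      (PMid A hq hA K hK hζ R hqR u' U hU) (q - 1) := by
  have h2 : 2 ≤ q := hq.two_le
  have hcard : q * (q + 1) < Fintype.card (Fin (1 + q * q + (q - 1) + 1)) := by
    rw [Fintype.card_fin, Nat.mul_succ]
    omega
  exact HypGauss.hyp (inclOE A (le_cyclo K ζ)) (inclE (le_cyclo K ζ))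
    (inclE_algebraMap A (le_cyclo K ζ)) ϖ hϖ (alphaHom R q K)
    (alphaHom_algebraMap R q K (O := OE A K)) (sigmaHom (R * q) K)
    (sigmaHom_algebraMap (R * q) K (O := OE A K)) (sigmaHom_mem_fracField (R * q) K A) u' U
    (sigma1_u A K R u' U hU) (wHom R q K hq hqR) (wHom_algebraMap R q K hq hqR (O := OE A K)) q
    (sigmaHom_wHom_alpha R q K hq hqR) (wHom_wHom R q K hq hqR) hprime hcop hord h2 hfrob hwu
    (fun v => hrank_modular_of_finite R q K hq hqR u' v)
    (alphaHom (R * q) q K) (betaHom (R * q) q K)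
    (alphaHom_sq_algebraMap R q K (O := OE A K)) (betaHom_sq_algebraMap R q K (O := OE A K))
    (alphaSq_algebraMap R q K (O := OE A K)) (sigmaHom (R * q * q) K)
    (sigmaHom_algebraMap (R * q * q) K (O := OE A K)) (sigmaHom_mem_fracField (R * q * q) K A)
    (sigma_u A K R u' U hU) (q * q) (sig0 hq K R hqR) (sig0_algebraMap hq K R hqR A)
    (sig0_mem_fracField hq K R hqR A) (sig0_alphaSq hq K R hqR)
    (sigM A hq hA K hζ R hqR) (sigM_algebraMap A hq hA K hζ R hqR)
    (sigM_mem_fracField A hq hA K hζ R hqR) (sigM_alphaSq A hq hA K hζ R hqR)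
    (zetaU A hq K hζ) (irreducible_zeta_sub_one A hq hA K hK hζ)
    (sigma_alpha K R) (sigM_alpha A hq hA K hζ R hqR) (sig0_alpha_w1_alpha hq K R hqR)
    (beta_alpha_comm hq K R hqR) (q - 1) (by omega) (lam_pow_dvd A hq hA K hK hζ)
    (betaSq R q K u') (betaSq_eq hq K R hqR u') (sigma_y A K R u' U hU)
    (sig0_y A hq K R hqR u' U hU) (sigM_y A hq hA K hζ R hqR u' U hU) hθ rfl
    (fun v => hrank_alphaSq R q K hq hqR u' hcard v)

end Inst

end Fermat.Agent.S36.SqChart.HypE
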