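import Mathlib
import Fermat.Agent.S36.SqChart.HypE
import Fermat.Agent.S36.SqAbsW

/-!
# S36, C2 modular instance: the two vocabularies of `SqExit.Hyp` coincide

`SqChart/HypGauss.hyp` (instantiated at `E`-level in `SqChart/HypE`) and `SqAbsW.hyp_w` produce
`SqExit.Hyp` for the same two maps and the same five ideals, written differently:

* `HypGauss.alphaC`        vs `SqAbs.inclA` (`= TwoPrimesGauss.incl`);
* `HypGauss.betaC`         vs `SqInt.inclB2`;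
* `ker (TwoPrimesGauss.redZero .. w ..)` vs `ker (SqAbs.rZ1 .. (σ₁.comp w) ..)`
  (`= MultPrimesGauss.redZ`);
* `(Ideal.span {lam}).comap τ` vs `SqGlue.centreM τ lam`.

Level-free identifications (`alphaC_eq_incl`, `betaC_eq_inclB2`, `redZero_eq_redZ`,
`comap_eq_centreM`) and their `E`-level forms for the named objects of `SqChart/HypE`
(`alphaC_eq`, `betaC_eq`, `pInf_eq`, `pZero_eq`, `PInf_eq`, `PZero_eq`, `PMid_eq`): the right-hand
sides are the terms of `SqAbsW.hyp_w` at the `E`-level objects of `SqChart/InstA`, for ANY proofs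
of the side conditions.  `hyp_w_form` : `HypE.hyp` restated in the `SqAbsW` vocabulary.
-/

set_option autoImplicit false
set_option linter.unusedSectionVars false
set_option linter.unusedVariables false
set_option linter.style.haveILetI false
set_option synthInstance.maxHeartbeats 400000

open ModularCurve Polynomial

noncomputable section

namespace Fermat.Agent.S36.SqChart.HypBridge

open Fermat.Agent.S30
open Fermat.Agent.S34.TwoPrimesGauss
open Fermat.Agent.S36 Fermat.Agent.S36.SqChart Fermat.Agent.S36.MultPrimesGauss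

universe u

/-! ### Level-free identifications -/

section LevelFree

variable {O : Type*} {E : Type u} [CommRing O] [IsDomain O] [IsDiscreteValuationRing O] [Field E]
  [Algebra O E] [FaithfulSMul O E]
  {L' L1 L2 : Type*} [Field L'] [Field L1] [Field L2] [Algebra O L'] [Algebra O L1] [Algebra O L2]

/-- `HypGauss.alphaC` is `TwoPrimesGauss.incl` along `a2` (`= SqAbs.inclA`). -/
theorem alphaC_eq_incl (a1 : L' →+* L1) (a2 : L1 →+* L2)
    (ha2O : ∀ r : O, a2 (algebraMap O L1 r) = algebraMap O L2 r) (u' : L') :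
    HypGauss.alphaC a1 a2 ha2O u' = SqAbs.inclA (O := O) a1 u' a2 ha2O :=
  RingHom.ext fun _ => Subtype.ext rfl

/-- `HypGauss.betaC` is `SqInt.inclB2`. -/
theorem betaC_eq_inclB2 (a1 b1 : L' →+* L1) (w1 : L1 ≃+* L1) (a2 b2 : L1 →+* L2)
    (ha2O : ∀ r : O, a2 (algebraMap O L1 r) = algebraMap O L2 r)
    (hb2O : ∀ r : O, b2 (algebraMap O L1 r) = algebraMap O L2 r) (u' : L')
    (hwu : IsIntegral (Algebra.adjoin O {a1 u'}) (w1 (a1 u')))
    (hcomm : ∀ x : L', b2 (a1 x) = a2 (w1 (a1 x)))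
    (hcomm' : a2 (b1 u') = b2 (a1 u'))
    (hwu' : IsIntegral (Algebra.adjoin O {a1 u'}) (b1 u')) :
    HypGauss.betaC a1 w1 a2 b2 ha2O hb2O u' hwu hcomm
      = SqInt.inclB2 a1 b1 a2 b2 ha2O hb2O u' hcomm' hwu' :=
  RingHom.ext fun _ => Subtype.ext rfl

/-- `TwoPrimesGauss.redZero` (reduce `w c`) is `MultPrimesGauss.redZ` at the embedding
`σ.comp w`. -/
theorem redZero_eq_redZ (ϖ : O) (hϖ : Irreducible ϖ) (α : L' →+* L1)
    (σ : L1 →+* LaurentSeries E)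
    (hσO : ∀ r : O, σ (algebraMap O L1 r) = HahnSeries.C (algebraMap O E r))
    (hσfrac : ∀ x : L1, σ x ∈ GaussDVR.fracField O E)
    (u' : L') (U : LaurentSeries O) (hσu : σ (α u') = GaussDVR.iota O E U)
    (w : L1 ≃+* L1) (hwO : ∀ r : O, w (algebraMap O L1 r) = algebraMap O L1 r)
    (ℓ : ℕ) [NeZero ℓ] (hwα : ∀ x : L', σ (w (α x)) = qExpand E ℓ (σ (α x)))
    (h1 : ∀ r : O, (σ.comp (w : L1 →+* L1)) (algebraMap O L1 r)
      = HahnSeries.C (algebraMap O E r))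
    (h2 : ∀ x : L1, (σ.comp (w : L1 →+* L1)) x ∈ GaussDVR.fracField O E)
    (h3 : ∀ x : L', (σ.comp (w : L1 →+* L1)) (α x) = qExpand E ℓ (σ (α x))) :
    redZero ϖ hϖ α σ hσO hσfrac u' U hσu w hwO ℓ hwα
      = redZ ϖ hϖ α σ u' U hσu ℓ (σ.comp (w : L1 →+* L1)) h1 h2 h3 :=
  rfl

/-- The centre of a valuation, two spellings. -/
theorem comap_eq_centreM {B Vm : Type*} [CommRing B] [CommRing Vm] (τm : B →+* Vm) (lam : Vm) :
    (Ideal.span {lam}).comap τm = SqGlue.centreM τm lam :=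
  rfl

/-- Transport of `SqExit.Hyp` along equalities of its arguments. -/
theorem hyp_congr {B1 B2 : Type*} [CommRing B1] [CommRing B2]
    {α α' β β' : B1 →+* B2} {π1 : B1} {poo poo' p0 p0' : Ideal B1}
    {Poo Poo' P0 P0' P11 P11' : Ideal B2} {k : ℕ}
    (h : SqExit.Hyp α β π1 poo p0 Poo P0 P11 k)
    (e1 : α = α') (e2 : β = β') (e3 : poo = poo') (e4 : p0 = p0') (e5 : Poo = Poo')
    (e6 : P0 = P0') (e7 : P11 = P11') :
    SqExit.Hyp α' β' π1 poo' p0' Poo' P0' P11' k := by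
  subst e1 e2 e3 e4 e5 e6 e7
  exact h

end LevelFree

/-! ### The `E`-level objects of `SqChart/HypE` in the `SqAbsW` vocabulary -/

section ELevel

open Fermat.Agent.S18.K1Defs Fermat.Agent.S18.K1Main
open Fermat.Agent.S34.TwoPrimesRank Fermat.Agent.S34.HauptU.Plug
open Fermat.Agent.S36.CycloBase Fermat.Agent.S36.SqRankE Fermat.Agent.S36.SqChart.InstA

local notation "Qb" => AlgebraicClosure ℚ

attribute [local instance] InstA.algL InstA.towerL

variable (A : ValuationSubring Qb) {q : ℕ} (hq : q.Prime) [NeZero q] (hA : A.LiesOverPrime q)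
  (K : IntermediateField ℚ Qb) [FiniteDimensional ℚ K]
  (hK : A.inertiaSubgroupIn ℚ ≤ K.fixingSubgroup) {ζ : Qb} (hζ : IsPrimitiveRoot ζ q)
  [IsDiscreteValuationRing (OE A K)] [IsDiscreteValuationRing (OE A (cyclo K ζ))]
  (R : ℕ) [NeZero R] (hqR : ¬ q ∣ R)
  (u' : LE R K) (U : LaurentSeries (OE A K))
  (hU : (u' : LaurentSeries K) = GaussDVR.iota (OE A K) K U)

local notation "ϖ" => ((q : ℕ) : OE A K)
local notation "a1" => alphaHom R q K
local notation "b1" => betaHom R q K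
local notation "a2" => alphaHom (R * q) q K
local notation "b2" => betaHom (R * q) q K
local notation "σ1" => sigmaHom (R * q) K
local notation "σ2" => sigmaHom (R * q * q) K
local notation "w1'" => InstA.w1 hq K R hqR
local notation "ψ" => inclOE A (le_cyclo K ζ)
local notation "φ" => inclE (le_cyclo K ζ)
local notation "z₀" => zetaU A hq K hζ

/-- `HypE.alphaC` is `SqAbs.inclA`. -/
theorem alphaC_eq :
    HypE.alphaC A K R u' (q := q)
      = SqAbs.inclA (O := OE A K) a1 u' a2 (alphaHom_sq_algebraMap R q K (O := OE A K)) :=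
  alphaC_eq_incl _ _ _ _

/-- `HypE.betaC` is `SqInt.inclB2` (for any proofs of its side conditions). -/
theorem betaC_eq
    (hwu : IsIntegral (Algebra.adjoin (OE A K) {a1 u'}) (wHom R q K hq hqR (a1 u')))
    (hcomm' : a2 (b1 u') = b2 (a1 u'))
    (hwu' : IsIntegral (Algebra.adjoin (OE A K) {a1 u'}) (b1 u')) :
    HypE.betaC A hq K R hqR u' hwu
      = SqInt.inclB2 a1 b1 a2 b2 (alphaHom_sq_algebraMap R q K (O := OE A K))
          (betaHom_sq_algebraMap R q K (O := OE A K)) u' hcomm' hwu' :=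
  betaC_eq_inclB2 _ _ _ _ _ _ _ _ _ _ _ _

/-- `HypE.pInf` is `ker (SqAbs.rI1 ..)` (any proofs). -/
theorem pInf_eq (hϖ' : Irreducible ϖ)
    (h1 : ∀ r : OE A K, σ1 (algebraMap (OE A K) (LE (R * q) K) r)
      = HahnSeries.C (algebraMap (OE A K) K r))
    (h2 : ∀ x : LE (R * q) K, σ1 x ∈ GaussDVR.fracField (OE A K) K)
    (h3 : σ1 (a1 u') = GaussDVR.iota (OE A K) K U) :
    HypE.pInf A hq hA K hK R u' U hU = RingHom.ker (SqAbs.rI1 ϖ hϖ' a1 σ1 h1 h2 u' U h3) :=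
  rfl

/-- `HypE.pZero` is `ker (SqAbs.rZ1 ..)` at `σ₁z = σ₁ ∘ w₁` (any proofs). -/
theorem pZero_eq (hϖ' : Irreducible ϖ)
    (h3 : σ1 (a1 u') = GaussDVR.iota (OE A K) K U)
    (g1 : ∀ r : OE A K, (RingHom.comp σ1 w1') (algebraMap (OE A K) (LE (R * q) K) r)
      = HahnSeries.C (algebraMap (OE A K) K r))
    (g2 : ∀ x : LE (R * q) K, (RingHom.comp σ1 w1') x ∈ GaussDVR.fracField (OE A K) K)
    (g3 : ∀ x : LE R K, (RingHom.comp σ1 w1') (a1 x) = qExpand K q (σ1 (a1 x))) :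
    HypE.pZero A hq hA K hK R hqR u' U hU
      = RingHom.ker (SqAbs.rZ1 ϖ hϖ' q a1 σ1 u' U h3 (RingHom.comp σ1 w1') g1 g2 g3) :=
  congrArg RingHom.ker (redZero_eq_redZ ϖ _ a1 σ1 _ _ u' U _ (wHom R q K hq hqR) _ q _ g1 g2 g3)

/-- `HypE.PInf` is `ker (SqAbs.rI2 ..)` (any proofs). -/
theorem PInf_eq (hϖ' : Irreducible ϖ)
    (h3 : σ1 (a1 u') = GaussDVR.iota (OE A K) K U)
    (k1 : ∀ r : OE A K, σ2 (algebraMap (OE A K) (LE (R * q * q) K) r)
      = HahnSeries.C (algebraMap (OE A K) K r))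
    (k2 : ∀ x : LE (R * q * q) K, σ2 x ∈ GaussDVR.fracField (OE A K) K)
    (k3 : ∀ f : LE (R * q) K, σ2 (a2 f) = σ1 f) :
    HypE.PInf A hq hA K hK R u' U hU
      = RingHom.ker (SqAbs.rI2 ϖ hϖ' a1 σ1 u' U h3 a2 σ2 k1 k2 k3) :=
  rfl

/-- `HypE.PZero` is `ker (SqAbs.rZ2 ..)` at `σ₁z = σ₁ ∘ w₁`, `σ₀ = InstA.sig0` (any proofs). -/
theorem PZero_eq (hϖ' : Irreducible ϖ)
    (h3 : σ1 (a1 u') = GaussDVR.iota (OE A K) K U)
    (g3 : ∀ x : LE R K, (RingHom.comp σ1 w1') (a1 x) = qExpand K q (σ1 (a1 x)))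
    (k3 : ∀ f : LE (R * q) K, σ2 (a2 f) = σ1 f)
    (m1 : ∀ r : OE A K, sig0 hq K R hqR (algebraMap (OE A K) (LE (R * q * q) K) r)
      = HahnSeries.C (algebraMap (OE A K) K r))
    (m2 : ∀ x : LE (R * q * q) K, sig0 hq K R hqR x ∈ GaussDVR.fracField (OE A K) K)
    (m3 : ∀ f : LE (R * q) K, sig0 hq K R hqR (a2 f) = qExpand K q ((RingHom.comp σ1 w1') f)) :
    HypE.PZero A hq hA K hK R hqR u' U hU
      = RingHom.ker (SqAbs.rZ2 ϖ hϖ' q a1 σ1 u' U h3 (RingHom.comp σ1 w1') g3 a2 σ2 k3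
          (sig0 hq K R hqR) m1 m2 m3) :=
  rfl

/-- `HypE.PMid` is `SqGlue.centreM (SqAbs.tM ..) lamV` at `σm = InstA.sigM` (any proofs). -/
theorem PMid_eq
    (h3 : σ1 (a1 u') = GaussDVR.iota (OE A K) K U)
    (k3 : ∀ f : LE (R * q) K, σ2 (a2 f) = σ1 f)
    (n1 : ∀ r : OE A K, sigM A hq hA K hζ R hqR (algebraMap (OE A K) (LE (R * q * q) K) r)
      = HahnSeries.C (algebraMap (OE A (cyclo K ζ)) (cyclo K ζ) (ψ r)))
    (n2 : ∀ x : LE (R * q * q) K,
      sigM A hq hA K hζ R hqR x ∈ GaussDVR.fracField (OE A (cyclo K ζ)) (cyclo K ζ))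
    (hz₀' : Irreducible (((z₀ : (OE A (cyclo K ζ))ˣ) : OE A (cyclo K ζ)) - 1))
    (n3 : ∀ f : LE (R * q) K, sigM A hq hA K hζ R hqR (a2 f) = coeffMap φ (σ1 f)) :
    HypE.PMid A hq hA K hK hζ R hqR u' U hU
      = SqGlue.centreM
          (SqAbs.tM ψ φ (inclE_algebraMap A (le_cyclo K ζ)) a1 σ1 u' U h3 a2 σ2 k3
            (sigM A hq hA K hζ R hqR) n1 n2 z₀ hz₀' n3)
          (GaussDVR.unif (cyclo K ζ)
            (((z₀ : (OE A (cyclo K ζ))ˣ) : OE A (cyclo K ζ)) - 1)) :=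
  rfl

include hK hU in
/-- **`HypE.hyp` in the `SqAbsW` vocabulary**: the conclusion of `SqAbsW.hyp_w` at the `E`-level
objects of `SqChart/InstA` (for ANY proofs of the side conditions of the `SqAbs` abbreviations),
from the coordinate hypotheses of `HypE.hyp`. -/
theorem hyp_w_form
    (hwu : IsIntegral (Algebra.adjoin (OE A K) {a1 u'}) (wHom R q K hq hqR (a1 u')))
    [FiniteDimensional (IntermediateField.adjoin K {u'}) (LE R K)]
    (hprime : Prime (piC u' ((q : ℕ) : OE A K)))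
    (hcop : IsCoprime (GaussDVR.rho (OE A K) U).order ((q : ℕ) : ℤ))
    (hord : (GaussDVR.rho (OE A K) U).order ≠ 0)
    (hθ : QFormal.theta (GaussDVR.rho (OE A K) U) ≠ 0)
    (hfrob : qExpand (IsLocalRing.ResidueField (OE A K)) q (GaussDVR.rho (OE A K) U)
      = GaussDVR.rho (OE A K) U ^ q)
    (hϖ' : Irreducible ϖ)
    (h1 : ∀ r : OE A K, σ1 (algebraMap (OE A K) (LE (R * q) K) r)
      = HahnSeries.C (algebraMap (OE A K) K r))
    (h2 : ∀ x : LE (R * q) K, σ1 x ∈ GaussDVR.fracField (OE A K) K)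
    (h3 : σ1 (a1 u') = GaussDVR.iota (OE A K) K U)
    (g1 : ∀ r : OE A K, (RingHom.comp σ1 w1') (algebraMap (OE A K) (LE (R * q) K) r)
      = HahnSeries.C (algebraMap (OE A K) K r))
    (g2 : ∀ x : LE (R * q) K, (RingHom.comp σ1 w1') x ∈ GaussDVR.fracField (OE A K) K)
    (g3 : ∀ x : LE R K, (RingHom.comp σ1 w1') (a1 x) = qExpand K q (σ1 (a1 x)))
    (k1 : ∀ r : OE A K, σ2 (algebraMap (OE A K) (LE (R * q * q) K) r)
      = HahnSeries.C (algebraMap (OE A K) K r))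
    (k2 : ∀ x : LE (R * q * q) K, σ2 x ∈ GaussDVR.fracField (OE A K) K)
    (k3 : ∀ f : LE (R * q) K, σ2 (a2 f) = σ1 f)
    (m1 : ∀ r : OE A K, sig0 hq K R hqR (algebraMap (OE A K) (LE (R * q * q) K) r)
      = HahnSeries.C (algebraMap (OE A K) K r))
    (m2 : ∀ x : LE (R * q * q) K, sig0 hq K R hqR x ∈ GaussDVR.fracField (OE A K) K)
    (m3 : ∀ f : LE (R * q) K, sig0 hq K R hqR (a2 f) = qExpand K q ((RingHom.comp σ1 w1') f))
    (n1 : ∀ r : OE A K, sigM A hq hA K hζ R hqR (algebraMap (OE A K) (LE (R * q * q) K) r)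
      = HahnSeries.C (algebraMap (OE A (cyclo K ζ)) (cyclo K ζ) (ψ r)))
    (n2 : ∀ x : LE (R * q * q) K,
      sigM A hq hA K hζ R hqR x ∈ GaussDVR.fracField (OE A (cyclo K ζ)) (cyclo K ζ))
    (hz₀' : Irreducible (((z₀ : (OE A (cyclo K ζ))ˣ) : OE A (cyclo K ζ)) - 1))
    (n3 : ∀ f : LE (R * q) K, sigM A hq hA K hζ R hqR (a2 f) = coeffMap φ (σ1 f))
    (hcomm' : a2 (b1 u') = b2 (a1 u'))
    (hwu' : IsIntegral (Algebra.adjoin (OE A K) {a1 u'}) (b1 u')) :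
    SqExit.Hyp
      (SqAbs.inclA (O := OE A K) a1 u' a2 (alphaHom_sq_algebraMap R q K (O := OE A K)))
      (SqInt.inclB2 a1 b1 a2 b2 (alphaHom_sq_algebraMap R q K (O := OE A K))
        (betaHom_sq_algebraMap R q K (O := OE A K)) u' hcomm' hwu')
      (piC (a1 u') ϖ)
      (RingHom.ker (SqAbs.rI1 ϖ hϖ' a1 σ1 h1 h2 u' U h3))
      (RingHom.ker (SqAbs.rZ1 ϖ hϖ' q a1 σ1 u' U h3 (RingHom.comp σ1 w1') g1 g2 g3))
      (RingHom.ker (SqAbs.rI2 ϖ hϖ' a1 σ1 u' U h3 a2 σ2 k1 k2 k3))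
      (RingHom.ker (SqAbs.rZ2 ϖ hϖ' q a1 σ1 u' U h3 (RingHom.comp σ1 w1') g3 a2 σ2 k3
        (sig0 hq K R hqR) m1 m2 m3))
      (SqGlue.centreM
        (SqAbs.tM ψ φ (inclE_algebraMap A (le_cyclo K ζ)) a1 σ1 u' U h3 a2 σ2 k3
          (sigM A hq hA K hζ R hqR) n1 n2 z₀ hz₀' n3)
        (GaussDVR.unif (cyclo K ζ) (((z₀ : (OE A (cyclo K ζ))ˣ) : OE A (cyclo K ζ)) - 1)))
      (q - 1) := by
  exact hyp_congr (HypE.hyp A hq hA K hK hζ R hqR u' U hU hwu hprime hcop hord hθ hfrob)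
    (alphaC_eq A K R u') (betaC_eq A hq K R hqR u' hwu hcomm' hwu')
    (pInf_eq A hq hA K hK R u' U hU hϖ' h1 h2 h3)
    (pZero_eq A hq hA K hK R hqR u' U hU hϖ' h3 g1 g2 g3)
    (PInf_eq A hq hA K hK R u' U hU hϖ' h3 k1 k2 k3)
    (PZero_eq A hq hA K hK R hqR u' U hU hϖ' h3 g3 k3 m1 m2 m3)
    (PMid_eq A hq hA K hK hζ R hqR u' U hU h3 k3 n1 n2 hz₀' n3)

end ELevel

end Fermat.Agent.S36.SqChart.HypBridge
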