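import Mathlib
import Fermat.Agent.S36.Haupt4.LevelQ
import Fermat.Agent.S36.Haupt4.Fibre
import Fermat.Agent.S36.QFormal
import Fermat.Agent.S36.SqRankE
import Fermat.Agent.S36.SqInt
import Fermat.Agent.S34.Sat

/-!
# S36, C2 modular instance at an odd prime `ℓ`: the coordinate binders for `u₄` (Alt twin)

Level `R` with `4 ∣ R`, `ℓ` an odd prime, `¬ ℓ ∣ R`; tower `LE R K → LE (R·ℓ) K → LE (R·ℓ·ℓ) K`,
`α₁ = alphaHom R ℓ K`, `β₁ = betaHom R ℓ K`, `α = SqRankE.alphaSq R ℓ K` (`= α₂ ∘ α₁`),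
`β = SqRankE.betaSq R ℓ K` (`= β₂ ∘ β₁`), `σ₁ = HauptU.Plug.sigmaHom (R·ℓ) K`,
`σ = HauptU.Plug.sigmaHom (R·ℓ·ℓ) K`; coordinate `u' = Haupt4.u4E R K h4` with integral model
`U = Haupt4.u4 O` (chart zero), and `u'⁻¹` with `U = posO O s4Z` (chart at infinity), where
`s4Z = X · u4Num⁻¹ ∈ ℤ⟦X⟧` is the integral power series of `1/u₄ = q + …`.

This file discharges the coordinate-specific binders of the level-free `SqExit.Hyp` producers
(`S36/SqAbsW.hyp_w` : level-`ℓ` shapes `hσ₁u`, `hwu`, `hwu'`, `hθ`, `hprime`, `hcop`, `hord`,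
`hfrob` at `ℓ`; `S36/MidVal.package_mid` / `SqChart/InstA.package_alpha` : level-`ℓ²` shapes `hU`,
`hy`, `hprime`, `hcop`, `hord`, `hθ`, `hfrob` at `N = ℓ * ℓ`), in their literal shapes.  It is the
twin for `u₄` (odd `ℓ`) of `SqChart/Coord9` (`u₉`, `ℓ = 2`), binder for binder.

* generic: `qExpand_mul_self_eq_pow` (two Frobenius steps), `theta_ne_zero_of_coeff`;
* the chart at infinity: `s4Z`, `s4`, `u4_mul_s4`, `inv_u4_eq_s4`, `s4_eq_posO`;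
* any DVR `O`: `order_rho_u4` (`= -1`), `hord_u4`, `hcop_u4 N`, `theta_rho_u4_ne_zero` (`hθ`),
  `qExpand_rho_u4` (`hfrob` at `ℓ`), `qExpand_sq_rho_u4` (`hfrob` at `ℓ * ℓ`), and the same for
  `s₄` (`order_rho_s4` (`= 1`), `hord_s4`, `hcop_s4`, `theta_rho_s4_ne_zero`, `qExpand_rho_s4`,
  `qExpand_sq_rho_s4`);
* `hU_u4`, `hU_s4` : the integral `q`-expansions of `u₄`, `u₄⁻¹`;
* `hσ1u_u4`, `hσ1u_s4` : `σ₁ (α₁ u') = ι U` (level `R·ℓ`);
* `hσu_u4`, `hσu_s4`, `hσy_u4`, `hσy_s4` : `σ (α u') = ι U`, `σ (β u') = ι (U(q^{ℓ·ℓ}))`;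
* `hwu_u4`, `hwu_u4'`, `hwu_s4`, `hwu_s4'` : `β₁ u'` is integral over `O[α₁ u']` and conversely
  (`ℓ` odd, `2 ∈ Oˣ`; from `Haupt4/Hwu`);
* `hy_u4`, `hy_u4'`, `hy_s4`, `hy_s4'` : `β u'` is integral over `O[α u']` and conversely;
* `finite_u4E`, `finite_u4E_inv` : `LE R K` is finite over `K(u₄)`, `K(u₄⁻¹)`;
* `hprime_u4`, `hprime_s4` : `π` is prime in the level-`R` chart rings (`Haupt4/Fibre`);
* `coord4_zero`, `coord4_inf` : the level-`ℓ` block at once for `O = OE A K`, `A` over `ℓ`;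
* `coord4_sq_zero`, `coord4_sq_inf` : the level-`ℓ²` block at once (twin of `Coord9.coord9_zero`,
  `Coord9.coord9_inf`).
-/

set_option autoImplicit false
set_option linter.unusedSectionVars false
set_option linter.unusedVariables false
set_option linter.style.haveILetI false
set_option synthInstance.maxHeartbeats 400000

open ModularCurve Polynomial

noncomputable section

namespace Fermat.Agent.S36.SqChart.Coord4Alt

open Fermat.Agent.S18.K1Defs Fermat.Agent.S18.K1Main Fermat.Agent.S30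
open Fermat.Agent.S34.TwoPrimesRank Fermat.Agent.S34.HauptU.Plug Fermat.Agent.S34.TwoPrimesGauss
open Fermat.Agent.S34.HauptU.E Fermat.Agent.S36.Haupt4 Fermat.Agent.S36.SqRankE
open Fermat.Agent.S30.AuxLevel

local notation "Qb" => AlgebraicClosure ℚ

/-! ### Generic series lemmas -/

section Series

variable {κ : Type*} [CommRing κ]

/-- `x(q^{ℓ·ℓ}) = (x(q^ℓ))(q^ℓ)`. -/
theorem qExpand_mul_self (ℓ : ℕ) [NeZero ℓ] (x : LaurentSeries κ) :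
    qExpand κ (ℓ * ℓ) x = qExpand κ ℓ (qExpand κ ℓ x) := by
  rw [ModularCurve.qExpand_qExpand]

/-- **Two Frobenius steps**: `x(q^ℓ) = x^ℓ` implies `x(q^{ℓ·ℓ}) = x^{ℓ·ℓ}`. -/
theorem qExpand_mul_self_eq_pow (ℓ : ℕ) [NeZero ℓ] {x : LaurentSeries κ}
    (h : qExpand κ ℓ x = x ^ ℓ) : qExpand κ (ℓ * ℓ) x = x ^ (ℓ * ℓ) := by
  rw [qExpand_mul_self, h, map_pow, h, ← pow_mul]

/-- `θ x ≠ 0` as soon as some `n · xₙ` is nonzero. -/
theorem theta_ne_zero_of_coeff {x : LaurentSeries κ} (n : ℤ) (h : (n : κ) * x.coeff n ≠ 0) :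
    QFormal.theta x ≠ 0 := fun h0 =>
  h (by rw [← QFormal.coeff_theta, h0, HahnSeries.coeff_zero])

/-- `coeffMap` commutes with `q ↦ q^N`. -/
theorem coeffMap_qExpand' {κ' : Type*} [CommRing κ'] (f : κ →+* κ') (N : ℕ) [NeZero N]
    (x : LaurentSeries κ) : coeffMap f (qExpand κ N x) = qExpand κ' N (coeffMap f x) := by
  ext n
  by_cases hn : (N : ℤ) ∣ n
  · obtain ⟨m, rfl⟩ := hn
    rw [coeffMap_coeff, qExpand_coeff_mul, qExpand_coeff_mul, coeffMap_coeff]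
  · rw [coeffMap_coeff, qExpand_coeff_of_not_dvd N _ hn, qExpand_coeff_of_not_dvd N _ hn,
      map_zero]

end Series

/-! ### The chart at infinity: `s₄ = 1/u₄ = q + …` -/

/-- The numerator of `s₄ = 1/u₄`: an integral power series `q + …`. -/
def s4Z : PowerSeries ℤ := PowerSeries.X * PowerSeries.invOfUnit u4Num 1

theorem u4Num_mul_invOfUnit : u4Num * PowerSeries.invOfUnit u4Num 1 = 1 :=
  PowerSeries.mul_invOfUnit _ _ (by rw [constantCoeff_u4Num, Units.val_one])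

theorem u4Num_mul_s4Z : u4Num * s4Z = PowerSeries.X := by
  rw [s4Z, mul_left_comm, u4Num_mul_invOfUnit, mul_one]

theorem coeff_zero_s4Z : PowerSeries.coeff 0 s4Z = 0 := by
  rw [s4Z, PowerSeries.coeff_zero_eq_constantCoeff_apply, map_mul, PowerSeries.constantCoeff_X,
    zero_mul]

theorem coeff_one_s4Z : PowerSeries.coeff 1 s4Z = 1 := by
  rw [s4Z, show (1 : ℕ) = 0 + 1 from rfl, PowerSeries.coeff_succ_X_mul,
    PowerSeries.coeff_zero_eq_constantCoeff_apply, PowerSeries.constantCoeff_invOfUnit]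
  simp

section LaurentInf

variable (K : Type*) [CommRing K]

/-- `s₄ = 1/u₄` as a Laurent series over `K`. -/
def s4 : LaurentSeries K := em K s4Z

theorem u4_mul_s4 : u4 K * s4 K = 1 := by
  rw [u4, s4, mul_assoc, ← map_mul, u4Num_mul_s4Z, xinv_mul_em_X]

variable {K} in
theorem coeffMap_s4 {K' : Type*} [CommRing K'] (f : K →+* K') :
    coeffMap f (s4 K) = s4 K' := by
  rw [s4, AuxLevel.coeffMap_em, s4]

theorem s4_eq_posO : s4 K = posO K s4Z := by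
  rw [posO, intO, Congr.coeffMap_ofPowerSeries]
  rfl

end LaurentInf

theorem inv_u4_eq_s4 (K : Type*) [Field K] : (u4 K)⁻¹ = s4 K :=
  (eq_inv_of_mul_eq_one_right (u4_mul_s4 K)).symm

/-! ### The integral series: `hord`, `hcop`, `hθ`, `hfrob` -/

section IntSeries

/-- `u₄` has a simple pole: its order is exactly `-1`. -/
theorem order_u4 (K : Type*) [CommRing K] [Nontrivial K] : (u4 K).order = -1 := by
  have h1 : (u4 K).coeff (-1) ≠ 0 := by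
    rw [coeff_u4_neg_one]; exact one_ne_zero
  have hx0 : u4 K ≠ 0 := fun h0 => h1 (by rw [h0, HahnSeries.coeff_zero])
  refine le_antisymm (HahnSeries.order_le_of_coeff_ne_zero h1) ?_
  by_contra hlt
  have h2 : (u4 K).coeff (u4 K).order ≠ 0 := fun h => hx0 (HahnSeries.coeff_order_eq_zero.mp h)
  exact h2 (coeff_u4_of_lt K (by omega))

theorem u4_eq_intO (O : Type*) [CommRing O] : u4 O = intO O (u4 ℤ) :=
  (coeffMap_u4 (Int.castRingHom O)).symm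

variable {O : Type*} [CommRing O] [IsDomain O] [IsDiscreteValuationRing O]

theorem rho_u4 : GaussDVR.rho O (u4 O) = u4 (IsLocalRing.ResidueField O) :=
  coeffMap_u4 (IsLocalRing.residue O)

/-- The reduction of `u₄` has order exactly `-1`. -/
theorem order_rho_u4 : (GaussDVR.rho O (u4 O)).order = -1 := by
  rw [rho_u4]
  exact order_u4 _

/-- `hord`, chart zero. -/
theorem hord_u4 : (GaussDVR.rho O (u4 O)).order ≠ 0 := by
  rw [order_rho_u4]; norm_num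

/-- `hcop`, chart zero (any `N`). -/
theorem hcop_u4 (N : ℕ) : IsCoprime (GaussDVR.rho O (u4 O)).order (N : ℤ) := by
  rw [order_rho_u4]
  exact isCoprime_one_left.neg_left

theorem coeff_rho_u4_neg_one : (GaussDVR.rho O (u4 O)).coeff (-1) = 1 := by
  rw [rho_u4, coeff_u4_neg_one]

/-- `hθ`, chart zero: `θ(ū₄) ≠ 0` (leading term `q⁻¹`), in every residue characteristic. -/
theorem theta_rho_u4_ne_zero : QFormal.theta (GaussDVR.rho O (u4 O)) ≠ 0 := by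
  refine theta_ne_zero_of_coeff (-1) ?_
  rw [coeff_rho_u4_neg_one, mul_one, Int.cast_neg, Int.cast_one]
  exact neg_ne_zero.mpr one_ne_zero

/-- `hfrob` at `ℓ`, chart zero: `(ρ u₄)(q^ℓ) = (ρ u₄)^ℓ` in residue characteristic `ℓ`. -/
theorem qExpand_rho_u4 (ℓ : ℕ) [NeZero ℓ] (hℓ : ℓ.Prime)
    [CharP (IsLocalRing.ResidueField O) ℓ] :
    qExpand (IsLocalRing.ResidueField O) ℓ (GaussDVR.rho O (u4 O)) =
      GaussDVR.rho O (u4 O) ^ ℓ := by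
  rw [u4_eq_intO]
  exact qExpand_rho_intO ℓ hℓ _

/-- `hfrob` at `N = ℓ * ℓ`, chart zero. -/
theorem qExpand_sq_rho_u4 (ℓ : ℕ) [NeZero ℓ] (hℓ : ℓ.Prime)
    [CharP (IsLocalRing.ResidueField O) ℓ] :
    qExpand (IsLocalRing.ResidueField O) (ℓ * ℓ) (GaussDVR.rho O (u4 O)) =
      GaussDVR.rho O (u4 O) ^ (ℓ * ℓ) :=
  qExpand_mul_self_eq_pow ℓ (qExpand_rho_u4 ℓ hℓ)

/-- The reduction of `s₄ = 1/u₄` has order exactly `1`. -/
theorem order_rho_s4 : (GaussDVR.rho O (posO O s4Z)).order = 1 :=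
  order_rho_posO s4Z coeff_zero_s4Z coeff_one_s4Z

/-- `hord`, chart at infinity. -/
theorem hord_s4 : (GaussDVR.rho O (posO O s4Z)).order ≠ 0 :=
  order_rho_posO_ne_zero s4Z coeff_zero_s4Z coeff_one_s4Z

/-- `hcop`, chart at infinity (any `N`). -/
theorem hcop_s4 (N : ℕ) : IsCoprime (GaussDVR.rho O (posO O s4Z)).order (N : ℤ) :=
  isCoprime_order_rho_posO s4Z coeff_zero_s4Z coeff_one_s4Z N

theorem coeff_rho_posO (a : PowerSeries ℤ) (n : ℕ) :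
    (GaussDVR.rho O (posO O a)).coeff (n : ℤ) =
      Int.castRingHom (IsLocalRing.ResidueField O) (PowerSeries.coeff n a) := by
  rw [posO, rho_intO, coeffMap_coeff, PowerSeries.coeff_coe, if_neg (by omega),
    Int.natAbs_natCast]

/-- `hθ`, chart at infinity: `θ(s̄₄) ≠ 0` (leading term `q`). -/
theorem theta_rho_s4_ne_zero : QFormal.theta (GaussDVR.rho O (posO O s4Z)) ≠ 0 := by
  refine theta_ne_zero_of_coeff 1 ?_
  have h := coeff_rho_posO (O := O) s4Z 1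
  rw [Nat.cast_one] at h
  rw [h, coeff_one_s4Z, map_one, mul_one, Int.cast_one]
  exact one_ne_zero

/-- `hfrob` at `ℓ`, chart at infinity. -/
theorem qExpand_rho_s4 (ℓ : ℕ) [NeZero ℓ] (hℓ : ℓ.Prime)
    [CharP (IsLocalRing.ResidueField O) ℓ] :
    qExpand (IsLocalRing.ResidueField O) ℓ (GaussDVR.rho O (posO O s4Z)) =
      GaussDVR.rho O (posO O s4Z) ^ ℓ :=
  qExpand_rho_posO ℓ hℓ s4Z

/-- `hfrob` at `N = ℓ * ℓ`, chart at infinity. -/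
theorem qExpand_sq_rho_s4 (ℓ : ℕ) [NeZero ℓ] (hℓ : ℓ.Prime)
    [CharP (IsLocalRing.ResidueField O) ℓ] :
    qExpand (IsLocalRing.ResidueField O) (ℓ * ℓ) (GaussDVR.rho O (posO O s4Z)) =
      GaussDVR.rho O (posO O s4Z) ^ (ℓ * ℓ) :=
  qExpand_mul_self_eq_pow ℓ (qExpand_rho_s4 ℓ hℓ)

end IntSeries

/-! ### The levels `R`, `R ℓ`, `R ℓ ℓ` -/

section Level

variable (R : ℕ) [NeZero R] (K : IntermediateField ℚ Qb)

/-- `LE R K` is finite over `K(u₄)`. -/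
theorem finite_u4E (h4 : 4 ∣ R) :
    FiniteDimensional (IntermediateField.adjoin K {u4E R K h4}) (LE R K) := by
  haveI : FiniteDimensional (IntermediateField.adjoin K {Fermat.Agent.S30.E2Deg.jE R K})
      (LE R K) := Fermat.Agent.S30.E2Deg.finite_LE R K
  exact finiteDimensional_u4E R K h4 (Fermat.Agent.S30.E2Deg.jE R K) rfl

/-- `LE R K` is finite over `K(u₄⁻¹)`. -/
theorem finite_u4E_inv (h4 : 4 ∣ R) :
    FiniteDimensional (IntermediateField.adjoin K {(u4E R K h4)⁻¹}) (LE R K) := by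
  haveI := finite_u4E R K h4
  exact finite_adjoin_inv (E := K) (u4E R K h4)

/-- The `q`-expansion of `u₄⁻¹` is `s₄`. -/
theorem coe_u4E_inv (h4 : 4 ∣ R) :
    (((u4E R K h4)⁻¹ : LE R K) : LaurentSeries K) = s4 K := by
  show ((u4E R K h4 : LE R K) : LaurentSeries K)⁻¹ = s4 K
  rw [coe_u4E, inv_u4_eq_s4]

section Sigma

variable {O : Type} [CommRing O] [IsDomain O] [IsDiscreteValuationRing O]
  [Algebra O K] [IsFractionRing O K]

/-- `hU`, chart zero: the integral `q`-expansion of `u₄`. -/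
theorem hU_u4 (h4 : 4 ∣ R) :
    ((u4E R K h4 : LE R K) : LaurentSeries K) = GaussDVR.iota O K (u4 O) :=
  coe_u4E_eq_iota R K h4

/-- `hU`, chart at infinity: the integral `q`-expansion of `u₄⁻¹`. -/
theorem hU_s4 (h4 : 4 ∣ R) :
    (((u4E R K h4)⁻¹ : LE R K) : LaurentSeries K) = GaussDVR.iota O K (posO O s4Z) := by
  rw [coe_u4E_inv, ← s4_eq_posO]
  exact (coeffMap_s4 (algebraMap O K)).symm

variable (ℓ : ℕ) [NeZero ℓ]

/-- `hσ₁u`, chart zero, level `R ℓ`. -/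
theorem hσ1u_u4 (h4 : 4 ∣ R) :
    sigmaHom (R * ℓ) K (alphaHom R ℓ K (u4E R K h4)) = GaussDVR.iota O K (u4 O) := by
  rw [Fermat.Agent.S34.Sat.sigma_alpha]
  exact hU_u4 R K h4

/-- `hσ₁u`, chart at infinity, level `R ℓ`. -/
theorem hσ1u_s4 (h4 : 4 ∣ R) :
    sigmaHom (R * ℓ) K (alphaHom R ℓ K (u4E R K h4)⁻¹) = GaussDVR.iota O K (posO O s4Z) := by
  rw [Fermat.Agent.S34.Sat.sigma_alpha]
  exact hU_s4 R K h4

/-- `σ (α₂ (α₁ x)) = x` as `q`-expansions. -/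
theorem sigma_alphaSq (x : LE R K) :
    sigmaHom (R * ℓ * ℓ) K (alphaSq R ℓ K x) = (x : LaurentSeries K) := by
  rw [alphaSq, RingHom.comp_apply, Fermat.Agent.S34.Sat.sigma_alpha,
    Fermat.Agent.S34.Sat.alphaHom_apply, coe_heckeAlphaBar]

theorem betaHom_apply' (M : ℕ) [NeZero M] (x : LE M K) :
    betaHom M ℓ K x = heckeBetaBar K M ℓ x := rfl

/-- `σ₁ (β₁ x) = x(q^ℓ)` as `q`-expansions. -/
theorem sigma_beta (x : LE R K) :
    sigmaHom (R * ℓ) K (betaHom R ℓ K x) = qExpand K ℓ (x : LaurentSeries K) := by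
  rw [sigmaHom_apply, betaHom_apply', coe_heckeBetaBar]

/-- `σ (β₂ (β₁ x)) = x(q^{ℓ·ℓ})` as `q`-expansions. -/
theorem sigma_betaSq (x : LE R K) :
    sigmaHom (R * ℓ * ℓ) K (betaSq R ℓ K x) = qExpand K (ℓ * ℓ) (x : LaurentSeries K) := by
  rw [sigmaHom_apply, betaSq, RingHom.comp_apply, betaHom_apply', coe_heckeBetaBar,
    betaHom_apply', coe_heckeBetaBar, qExpand_mul_self]

/-- `hσu`, chart zero, level `R ℓ ℓ`. -/
theorem hσu_u4 (h4 : 4 ∣ R) :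
    sigmaHom (R * ℓ * ℓ) K (alphaSq R ℓ K (u4E R K h4)) = GaussDVR.iota O K (u4 O) := by
  rw [sigma_alphaSq]
  exact hU_u4 R K h4

/-- `hσu`, chart at infinity, level `R ℓ ℓ`. -/
theorem hσu_s4 (h4 : 4 ∣ R) :
    sigmaHom (R * ℓ * ℓ) K (alphaSq R ℓ K (u4E R K h4)⁻¹) = GaussDVR.iota O K (posO O s4Z) := by
  rw [sigma_alphaSq]
  exact hU_s4 R K h4

/-- `hσy`, chart zero: `σ (β u') = ι (U(q^{ℓ·ℓ}))`. -/
theorem hσy_u4 (h4 : 4 ∣ R) :
    sigmaHom (R * ℓ * ℓ) K (betaSq R ℓ K (u4E R K h4))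
      = GaussDVR.iota O K (qExpand O (ℓ * ℓ) (u4 O)) := by
  rw [sigma_betaSq, hU_u4 (O := O) R K h4]
  exact (coeffMap_qExpand' (algebraMap O K) (ℓ * ℓ) (u4 O)).symm

/-- `hσy`, chart at infinity. -/
theorem hσy_s4 (h4 : 4 ∣ R) :
    sigmaHom (R * ℓ * ℓ) K (betaSq R ℓ K (u4E R K h4)⁻¹)
      = GaussDVR.iota O K (qExpand O (ℓ * ℓ) (posO O s4Z)) := by
  rw [sigma_betaSq, hU_s4 (O := O) R K h4]
  exact (coeffMap_qExpand' (algebraMap O K) (ℓ * ℓ) (posO O s4Z)).symm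

end Sigma

/-! ### `hwu` : integrality between `α₁ u'` and `β₁ u'` at level `R ℓ` -/

section Integral1

variable (ℓ : ℕ) [NeZero ℓ] {O : Type*} [CommRing O] [Nontrivial O] [Algebra O (LE (R * ℓ) K)]

/-- `hwu`, chart zero: `u₄(q^ℓ)` is integral over `O[u₄(q)]` at level `R ℓ`. -/
theorem hwu_u4 (h2 : IsUnit (2 : O)) (hℓ : ℓ.Prime) (hodd : ℓ ≠ 2) (hℓR : ¬ ℓ ∣ R)
    (h4 : 4 ∣ R) :
    IsIntegral (Algebra.adjoin O {alphaHom R ℓ K (u4E R K h4)})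
      (betaHom R ℓ K (u4E R K h4)) := by
  have h := Hwu.hwu_u4E R ℓ K (O := O) h2 hℓ hodd hℓR h4
  rw [wHom_alpha] at h
  exact h

/-- `hwu'`, chart zero: `u₄(q)` is integral over `O[u₄(q^ℓ)]`. -/
theorem hwu_u4' (h2 : IsUnit (2 : O)) (hℓ : ℓ.Prime) (hodd : ℓ ≠ 2) (hℓR : ¬ ℓ ∣ R)
    (h4 : 4 ∣ R) :
    IsIntegral (Algebra.adjoin O {betaHom R ℓ K (u4E R K h4)})
      (alphaHom R ℓ K (u4E R K h4)) := by
  have h := Hwu.hwu_u4E' R ℓ K (O := O) h2 hℓ hodd hℓR h4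
  rw [wHom_alpha] at h
  exact h

/-- `hwu`, chart at infinity: `s₄(q^ℓ)` is integral over `O[s₄(q)]`. -/
theorem hwu_s4 (h2 : IsUnit (2 : O)) (hℓ : ℓ.Prime) (hodd : ℓ ≠ 2) (hℓR : ¬ ℓ ∣ R)
    (h4 : 4 ∣ R) :
    IsIntegral (Algebra.adjoin O {alphaHom R ℓ K (u4E R K h4)⁻¹})
      (betaHom R ℓ K (u4E R K h4)⁻¹) := by
  have h := Hwu.hwu_u4E_inv R ℓ K (O := O) h2 hℓ hodd hℓR h4
  rw [wHom_alpha] at h
  exact h

/-- `hwu'`, chart at infinity: `s₄(q)` is integral over `O[s₄(q^ℓ)]`. -/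
theorem hwu_s4' (h2 : IsUnit (2 : O)) (hℓ : ℓ.Prime) (hodd : ℓ ≠ 2) (hℓR : ¬ ℓ ∣ R)
    (h4 : 4 ∣ R) :
    IsIntegral (Algebra.adjoin O {betaHom R ℓ K (u4E R K h4)⁻¹})
      (alphaHom R ℓ K (u4E R K h4)⁻¹) := by
  have h := Hwu.hwu_u4E_inv' R ℓ K (O := O) h2 hℓ hodd hℓR h4
  rw [wHom_alpha] at h
  exact h

end Integral1

/-! ### `hy` : integrality between `α u'` and `β u'` at level `R ℓ ℓ` -/

section Integral2

variable (ℓ : ℕ) [NeZero ℓ] {O : Type*} [CommRing O] [Nontrivial O] [Algebra O K]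
  [Algebra O (LE (R * ℓ) K)] [IsScalarTower O K (LE (R * ℓ) K)]
  [Algebra O (LE (R * ℓ * ℓ) K)] [IsScalarTower O K (LE (R * ℓ * ℓ) K)]

/-- `hy`, chart zero: `u₄(q^{ℓ·ℓ})` is integral over `O[u₄(q)]` at level `R ℓ ℓ`. -/
theorem hy_u4 (h2 : IsUnit (2 : O)) (hℓ : ℓ.Prime) (hodd : ℓ ≠ 2) (hℓR : ¬ ℓ ∣ R)
    (h4 : 4 ∣ R) :
    IsIntegral (Algebra.adjoin O {alphaSq R ℓ K (u4E R K h4)}) (betaSq R ℓ K (u4E R K h4)) :=
  SqInt.isIntegral_bb_of_aa (alphaHom (R * ℓ) ℓ K) (betaHom (R * ℓ) ℓ K)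
    (SqInt.alpha_algebraMap ℓ K (R * ℓ)) (SqInt.beta_algebraMap ℓ K (R * ℓ))
    (alphaHom R ℓ K (u4E R K h4)) (betaHom R ℓ K (u4E R K h4))
    (SqInt.alpha_beta_comm R ℓ K (u4E R K h4)) (hwu_u4 R K ℓ h2 hℓ hodd hℓR h4)

/-- Chart zero: `u₄(q)` is integral over `O[u₄(q^{ℓ·ℓ})]`. -/
theorem hy_u4' (h2 : IsUnit (2 : O)) (hℓ : ℓ.Prime) (hodd : ℓ ≠ 2) (hℓR : ¬ ℓ ∣ R)
    (h4 : 4 ∣ R) :
    IsIntegral (Algebra.adjoin O {betaSq R ℓ K (u4E R K h4)}) (alphaSq R ℓ K (u4E R K h4)) :=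
  SqInt.isIntegral_aa_of_bb (alphaHom (R * ℓ) ℓ K) (betaHom (R * ℓ) ℓ K)
    (SqInt.alpha_algebraMap ℓ K (R * ℓ)) (SqInt.beta_algebraMap ℓ K (R * ℓ))
    (alphaHom R ℓ K (u4E R K h4)) (betaHom R ℓ K (u4E R K h4))
    (SqInt.alpha_beta_comm R ℓ K (u4E R K h4)) (hwu_u4' R K ℓ h2 hℓ hodd hℓR h4)

/-- `hy`, chart at infinity: `s₄(q^{ℓ·ℓ})` is integral over `O[s₄(q)]`. -/
theorem hy_s4 (h2 : IsUnit (2 : O)) (hℓ : ℓ.Prime) (hodd : ℓ ≠ 2) (hℓR : ¬ ℓ ∣ R)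
    (h4 : 4 ∣ R) :
    IsIntegral (Algebra.adjoin O {alphaSq R ℓ K (u4E R K h4)⁻¹})
      (betaSq R ℓ K (u4E R K h4)⁻¹) :=
  SqInt.isIntegral_bb_of_aa (alphaHom (R * ℓ) ℓ K) (betaHom (R * ℓ) ℓ K)
    (SqInt.alpha_algebraMap ℓ K (R * ℓ)) (SqInt.beta_algebraMap ℓ K (R * ℓ))
    (alphaHom R ℓ K (u4E R K h4)⁻¹) (betaHom R ℓ K (u4E R K h4)⁻¹)
    (SqInt.alpha_beta_comm R ℓ K (u4E R K h4)⁻¹) (hwu_s4 R K ℓ h2 hℓ hodd hℓR h4)

/-- Chart at infinity: `s₄(q)` is integral over `O[s₄(q^{ℓ·ℓ})]`. -/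
theorem hy_s4' (h2 : IsUnit (2 : O)) (hℓ : ℓ.Prime) (hodd : ℓ ≠ 2) (hℓR : ¬ ℓ ∣ R)
    (h4 : 4 ∣ R) :
    IsIntegral (Algebra.adjoin O {betaSq R ℓ K (u4E R K h4)⁻¹})
      (alphaSq R ℓ K (u4E R K h4)⁻¹) :=
  SqInt.isIntegral_aa_of_bb (alphaHom (R * ℓ) ℓ K) (betaHom (R * ℓ) ℓ K)
    (SqInt.alpha_algebraMap ℓ K (R * ℓ)) (SqInt.beta_algebraMap ℓ K (R * ℓ))
    (alphaHom R ℓ K (u4E R K h4)⁻¹) (betaHom R ℓ K (u4E R K h4)⁻¹)
    (SqInt.alpha_beta_comm R ℓ K (u4E R K h4)⁻¹) (hwu_s4' R K ℓ h2 hℓ hodd hℓR h4)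

end Integral2

/-! ### The arithmetic instance `O = A ∩ K`, `A` over an odd prime `ℓ ∤ R` -/

section Arith

variable (ℓ : ℕ) [NeZero ℓ] (hℓ : ℓ.Prime) (hodd : ℓ ≠ 2)
  (A : ValuationSubring Qb) (hA : A.LiesOverPrime ℓ) (h4 : 4 ∣ R) (hℓR : ¬ ℓ ∣ R)
  [FiniteDimensional ℚ K] [IsDiscreteValuationRing (OE A K)]
  (z : Qb) (hz : IsPrimitiveRoot z R) (hzK : z ∈ K) (π : OE A K) (hπ : Irreducible π)

include hℓ hodd hA hℓR hz hzK hπ in
/-- `hprime`, chart zero: `π` is a prime element of the level-`R` chart ring of `u₄`. -/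
theorem hprime_u4 :
    letI := algebraOL (OE A K) K (LE R K)
    Prime (piC (u4E R K h4) π) := by
  haveI : Fact ℓ.Prime := ⟨hℓ⟩
  exact (Fibre.prime_u4 A R h4 hℓR hA hodd K z hz hzK π hπ).1

include hℓ hodd hA hℓR hz hzK hπ in
/-- `hprime`, chart at infinity. -/
theorem hprime_s4 :
    letI := algebraOL (OE A K) K (LE R K)
    Prime (piC (u4E R K h4)⁻¹ π) := by
  haveI : Fact ℓ.Prime := ⟨hℓ⟩
  exact (Fibre.prime_u4 A R h4 hℓR hA hodd K z hz hzK π hπ).2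

include hℓ hA in
/-- The residue field of `A ∩ K` has characteristic `ℓ`. -/
theorem charP_ell : CharP (IsLocalRing.ResidueField (OE A K)) ℓ :=
  Fermat.Agent.S34.Sat.charP_residue_OE' A K hℓ hA

include hℓ hodd hA in
/-- `2` is a unit of `A ∩ K` (`ℓ` odd). -/
theorem isUnit_two : IsUnit (2 : OE A K) := by
  haveI : Fact ℓ.Prime := ⟨hℓ⟩
  exact isUnit_two_OE A hA hodd K

include hℓ hodd hA hℓR hz hzK hπ in
/-- **All coordinate binders of `SqAbsW.hyp_w` at an odd prime `ℓ`, chart zero**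
(`u' = u₄`, `U = u4 (OE A K)`, level `R ℓ`): `hσ₁u`, `hwu`, `hwu'`, `hθ`, `hprime`, `hcop`, `hord`,
`hfrob` (at `ℓ`), and the finiteness of `LE R K` over `K(u₄)`. -/
theorem coord4_zero :
    letI := algebraOL (OE A K) K (LE R K)
    letI := algebraOL (OE A K) K (LE (R * ℓ) K)
    sigmaHom (R * ℓ) K (alphaHom R ℓ K (u4E R K h4))
        = GaussDVR.iota (OE A K) K (u4 (OE A K)) ∧
      IsIntegral (Algebra.adjoin (OE A K) {alphaHom R ℓ K (u4E R K h4)})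
        (betaHom R ℓ K (u4E R K h4)) ∧
      IsIntegral (Algebra.adjoin (OE A K) {betaHom R ℓ K (u4E R K h4)})
        (alphaHom R ℓ K (u4E R K h4)) ∧
      QFormal.theta (GaussDVR.rho (OE A K) (u4 (OE A K))) ≠ 0 ∧
      Prime (piC (u4E R K h4) π) ∧
      IsCoprime (GaussDVR.rho (OE A K) (u4 (OE A K))).order (ℓ : ℤ) ∧
      (GaussDVR.rho (OE A K) (u4 (OE A K))).order ≠ 0 ∧
      qExpand (IsLocalRing.ResidueField (OE A K)) ℓ (GaussDVR.rho (OE A K) (u4 (OE A K)))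
        = GaussDVR.rho (OE A K) (u4 (OE A K)) ^ ℓ ∧
      FiniteDimensional (IntermediateField.adjoin K {u4E R K h4}) (LE R K) := by
  letI := algebraOL (OE A K) K (LE R K)
  letI := algebraOL (OE A K) K (LE (R * ℓ) K)
  haveI := charP_ell K ℓ hℓ A hA
  have h2 := isUnit_two K ℓ hℓ hodd A hA
  exact ⟨hσ1u_u4 R K ℓ h4, hwu_u4 R K ℓ h2 hℓ hodd hℓR h4, hwu_u4' R K ℓ h2 hℓ hodd hℓR h4,
    theta_rho_u4_ne_zero, hprime_u4 R K ℓ hℓ hodd A hA h4 hℓR z hz hzK π hπ, hcop_u4 _, hord_u4,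
    qExpand_rho_u4 ℓ hℓ, finite_u4E R K h4⟩

include hℓ hodd hA hℓR hz hzK hπ in
/-- **All coordinate binders of `SqAbsW.hyp_w` at an odd prime `ℓ`, chart at infinity**
(`u' = u₄⁻¹`, `U = posO (OE A K) s4Z`, level `R ℓ`). -/
theorem coord4_inf :
    letI := algebraOL (OE A K) K (LE R K)
    letI := algebraOL (OE A K) K (LE (R * ℓ) K)
    sigmaHom (R * ℓ) K (alphaHom R ℓ K (u4E R K h4)⁻¹)
        = GaussDVR.iota (OE A K) K (posO (OE A K) s4Z) ∧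
      IsIntegral (Algebra.adjoin (OE A K) {alphaHom R ℓ K (u4E R K h4)⁻¹})
        (betaHom R ℓ K (u4E R K h4)⁻¹) ∧
      IsIntegral (Algebra.adjoin (OE A K) {betaHom R ℓ K (u4E R K h4)⁻¹})
        (alphaHom R ℓ K (u4E R K h4)⁻¹) ∧
      QFormal.theta (GaussDVR.rho (OE A K) (posO (OE A K) s4Z)) ≠ 0 ∧
      Prime (piC (u4E R K h4)⁻¹ π) ∧
      IsCoprime (GaussDVR.rho (OE A K) (posO (OE A K) s4Z)).order (ℓ : ℤ) ∧
      (GaussDVR.rho (OE A K) (posO (OE A K) s4Z)).order ≠ 0 ∧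
      qExpand (IsLocalRing.ResidueField (OE A K)) ℓ (GaussDVR.rho (OE A K) (posO (OE A K) s4Z))
        = GaussDVR.rho (OE A K) (posO (OE A K) s4Z) ^ ℓ ∧
      FiniteDimensional (IntermediateField.adjoin K {(u4E R K h4)⁻¹}) (LE R K) := by
  letI := algebraOL (OE A K) K (LE R K)
  letI := algebraOL (OE A K) K (LE (R * ℓ) K)
  haveI := charP_ell K ℓ hℓ A hA
  have h2 := isUnit_two K ℓ hℓ hodd A hA
  exact ⟨hσ1u_s4 R K ℓ h4, hwu_s4 R K ℓ h2 hℓ hodd hℓR h4, hwu_s4' R K ℓ h2 hℓ hodd hℓR h4,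
    theta_rho_s4_ne_zero, hprime_s4 R K ℓ hℓ hodd A hA h4 hℓR z hz hzK π hπ, hcop_s4 _, hord_s4,
    qExpand_rho_s4 ℓ hℓ, finite_u4E_inv R K h4⟩

include hℓ hodd hA hℓR hz hzK hπ in
/-- **All coordinate binders of `MidVal.package_mid` / `InstA.package_alpha` at an odd prime `ℓ`,
chart zero** (`u' = u₄`, `U = u4 (OE A K)`, `N = ℓ * ℓ`): `hσu`, `hord`, `hcop`, `hθ`, `hfrob`,
`hprime`, `hy`, and the finiteness of `LE R K` over `K(u₄)`. -/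
theorem coord4_sq_zero :
    letI := algebraOL (OE A K) K (LE R K)
    letI := algebraOL (OE A K) K (LE (R * ℓ * ℓ) K)
    sigmaHom (R * ℓ * ℓ) K (alphaSq R ℓ K (u4E R K h4))
        = GaussDVR.iota (OE A K) K (u4 (OE A K)) ∧
      (GaussDVR.rho (OE A K) (u4 (OE A K))).order ≠ 0 ∧
      IsCoprime (GaussDVR.rho (OE A K) (u4 (OE A K))).order ((ℓ * ℓ : ℕ) : ℤ) ∧
      QFormal.theta (GaussDVR.rho (OE A K) (u4 (OE A K))) ≠ 0 ∧
      qExpand (IsLocalRing.ResidueField (OE A K)) (ℓ * ℓ) (GaussDVR.rho (OE A K) (u4 (OE A K)))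
        = GaussDVR.rho (OE A K) (u4 (OE A K)) ^ (ℓ * ℓ) ∧
      Prime (piC (u4E R K h4) π) ∧
      IsIntegral (Algebra.adjoin (OE A K) {alphaSq R ℓ K (u4E R K h4)})
        (betaSq R ℓ K (u4E R K h4)) ∧
      FiniteDimensional (IntermediateField.adjoin K {u4E R K h4}) (LE R K) := by
  letI := algebraOL (OE A K) K (LE R K)
  letI := algebraOL (OE A K) K (LE (R * ℓ) K)
  haveI := isScalarTower_OL (OE A K) K (LE (R * ℓ) K)
  letI := algebraOL (OE A K) K (LE (R * ℓ * ℓ) K)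
  haveI := isScalarTower_OL (OE A K) K (LE (R * ℓ * ℓ) K)
  haveI := charP_ell K ℓ hℓ A hA
  have h2 := isUnit_two K ℓ hℓ hodd A hA
  exact ⟨hσu_u4 R K ℓ h4, hord_u4, hcop_u4 _, theta_rho_u4_ne_zero,
    qExpand_sq_rho_u4 ℓ hℓ, hprime_u4 R K ℓ hℓ hodd A hA h4 hℓR z hz hzK π hπ,
    hy_u4 R K ℓ h2 hℓ hodd hℓR h4, finite_u4E R K h4⟩

include hℓ hodd hA hℓR hz hzK hπ in
/-- **All coordinate binders of `MidVal.package_mid` / `InstA.package_alpha` at an odd prime `ℓ`,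
chart at infinity** (`u' = u₄⁻¹`, `U = posO (OE A K) s4Z`, `N = ℓ * ℓ`). -/
theorem coord4_sq_inf :
    letI := algebraOL (OE A K) K (LE R K)
    letI := algebraOL (OE A K) K (LE (R * ℓ * ℓ) K)
    sigmaHom (R * ℓ * ℓ) K (alphaSq R ℓ K (u4E R K h4)⁻¹)
        = GaussDVR.iota (OE A K) K (posO (OE A K) s4Z) ∧
      (GaussDVR.rho (OE A K) (posO (OE A K) s4Z)).order ≠ 0 ∧
      IsCoprime (GaussDVR.rho (OE A K) (posO (OE A K) s4Z)).order ((ℓ * ℓ : ℕ) : ℤ) ∧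
      QFormal.theta (GaussDVR.rho (OE A K) (posO (OE A K) s4Z)) ≠ 0 ∧
      qExpand (IsLocalRing.ResidueField (OE A K)) (ℓ * ℓ)
          (GaussDVR.rho (OE A K) (posO (OE A K) s4Z))
        = GaussDVR.rho (OE A K) (posO (OE A K) s4Z) ^ (ℓ * ℓ) ∧
      Prime (piC (u4E R K h4)⁻¹ π) ∧
      IsIntegral (Algebra.adjoin (OE A K) {alphaSq R ℓ K (u4E R K h4)⁻¹})
        (betaSq R ℓ K (u4E R K h4)⁻¹) ∧
      FiniteDimensional (IntermediateField.adjoin K {(u4E R K h4)⁻¹}) (LE R K) := by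
  letI := algebraOL (OE A K) K (LE R K)
  letI := algebraOL (OE A K) K (LE (R * ℓ) K)
  haveI := isScalarTower_OL (OE A K) K (LE (R * ℓ) K)
  letI := algebraOL (OE A K) K (LE (R * ℓ * ℓ) K)
  haveI := isScalarTower_OL (OE A K) K (LE (R * ℓ * ℓ) K)
  haveI := charP_ell K ℓ hℓ A hA
  have h2 := isUnit_two K ℓ hℓ hodd A hA
  exact ⟨hσu_s4 R K ℓ h4, hord_s4, hcop_s4 _, theta_rho_s4_ne_zero,
    qExpand_sq_rho_s4 ℓ hℓ, hprime_s4 R K ℓ hℓ hodd A hA h4 hℓR z hz hzK π hπ,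
    hy_s4 R K ℓ h2 hℓ hodd hℓR h4, finite_u4E_inv R K h4⟩

end Arith

end Level

end Fermat.Agent.S36.SqChart.Coord4Alt
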