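import Mathlib
import Fermat.Agent.S36.SqChart.HypE

/-!
# S36, C2 modular instance: the generic multiplicity identity at `P_11` (helper107)

Companion of `SqChart/HypGauss.hyp` (helper102) and `SqChart/HypE.hyp` (helper111), with the SAME
binder blocks:

* `hmult_gauss` (level-free, binders of `HypGauss.hyp`) and
* `hmult` (`E`-level, binders of `HypE.hyp`):

    `∃ δ ∈ P_11, ∃ a₀ b₀, a₀ ∉ P_11 ∧ a₀ * ϖ = b₀ * δ ^ e`     (`e = q - 1` at `E`-level),

i.e. `ϖ ∈ P_11 ^ e` at the generic point of `P_11` (conjuncts UNIF of `MidVal.package_mid`,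
`δ = V_{q²} u' - u'`).  This is the hypothesis `hmult` of
`KContractChart.kContract_of_hyp_mult` (helper219), `UnitNormalChartInst.hyp_of_sqExit`,
`SplitEFNorm.normRel_alpha_chart_mult` / `normRel_beta_chart_mult`: with it, no residue degree
hypothesis (`hfα`, `hfβ`) and no separate unit normal form input are needed.
-/

set_option autoImplicit false
set_option linter.unusedSectionVars false
set_option linter.unusedVariables false
set_option linter.style.haveILetI false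
set_option synthInstance.maxHeartbeats 400000

open ModularCurve Polynomial

noncomputable section

namespace Fermat.Agent.S36.SqChart.HypMult

universe u

/-! ### Level-free: the binder block of `HypGauss.hyp` -/

section Concrete

open Fermat.Agent.S30 Fermat.Agent.S34 Fermat.Agent.S34.TwoPrimesGauss
open Fermat.Agent.S36 Fermat.Agent.S36.SqChart Fermat.Agent.S36.MultPrimesGauss
open Fermat.Agent.S36.MidVal Fermat.Agent.S36.SqChart.HypGauss

variable {O : Type*} {E : Type u} [CommRing O] [IsDomain O] [IsDiscreteValuationRing O] [Field E]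
  [Algebra O E] [FaithfulSMul O E]
  {O' : Type*} {E' : Type u} [CommRing O'] [IsDomain O'] [IsDiscreteValuationRing O'] [Field E']
  [Algebra O' E'] [FaithfulSMul O' E']
  (ψ : O →+* O') [IsLocalHom ψ] (φ : E →+* E')
  (hψφ : ∀ r : O, φ (algebraMap O E r) = algebraMap O' E' (ψ r))
  {L' L1 L2 : Type*} [Field L'] [Field L1] [Field L2] [Algebra O L'] [Algebra O L1] [Algebra O L2]
  (ϖ : O) (hϖ : Irreducible ϖ)
  -- level `q`: the binders of `TwoPrimesGauss.package`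
  (a1 : L' →+* L1) (ha1O : ∀ r : O, a1 (algebraMap O L' r) = algebraMap O L1 r)
  (σ1 : L1 →+* LaurentSeries E)
  (hσ1O : ∀ r : O, σ1 (algebraMap O L1 r) = HahnSeries.C (algebraMap O E r))
  (hσ1frac : ∀ x : L1, σ1 x ∈ GaussDVR.fracField O E)
  (u' : L') (U : LaurentSeries O) (hσ1u : σ1 (a1 u') = GaussDVR.iota O E U)
  (w1 : L1 ≃+* L1) (hw1O : ∀ r : O, w1 (algebraMap O L1 r) = algebraMap O L1 r)
  (ℓ : ℕ) [NeZero ℓ]
  (hw1α : ∀ x : L', σ1 (w1 (a1 x)) = qExpand E ℓ (σ1 (a1 x)))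
  (hw1w1 : ∀ z : L1, w1 (w1 z) = z)
  (hprime : Prime (piC u' ϖ))
  (hcop : IsCoprime (GaussDVR.rho O U).order (ℓ : ℤ)) (hord : (GaussDVR.rho O U).order ≠ 0)
  (hℓ : 2 ≤ ℓ)
  (hfrob : qExpand (IsLocalRing.ResidueField O) ℓ (GaussDVR.rho O U) = GaussDVR.rho O U ^ ℓ)
  (hwu : IsIntegral (Algebra.adjoin O {a1 u'}) (w1 (a1 u')))
  (hrank1 : ∀ v : Option (Fin 1 ⊕ Fin ℓ) → Chart O (a1 u'),
    ∃ c : Option (Fin 1 ⊕ Fin ℓ) → Chart O u', c ≠ 0 ∧ ∑ i, incl a1 ha1O u' (c i) * v i = 0)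
  -- level `q²`: the binders of `MidVal.package_mid` at `α := a2.comp a1`
  (a2 b2 : L1 →+* L2) (ha2O : ∀ r : O, a2 (algebraMap O L1 r) = algebraMap O L2 r)
  (hb2O : ∀ r : O, b2 (algebraMap O L1 r) = algebraMap O L2 r)
  (hαO : ∀ r : O, (a2.comp a1) (algebraMap O L' r) = algebraMap O L2 r)
  (σ2 : L2 →+* LaurentSeries E)
  (hσ2O : ∀ r : O, σ2 (algebraMap O L2 r) = HahnSeries.C (algebraMap O E r))
  (hσ2frac : ∀ x : L2, σ2 x ∈ GaussDVR.fracField O E)
  (hσ2u : σ2 ((a2.comp a1) u') = GaussDVR.iota O E U)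
  (N : ℕ) [NeZero N]
  (σ₀ : L2 →+* LaurentSeries E)
  (hσ₀O : ∀ r : O, σ₀ (algebraMap O L2 r) = HahnSeries.C (algebraMap O E r))
  (hσ₀frac : ∀ x : L2, σ₀ x ∈ GaussDVR.fracField O E)
  (hσ₀α : ∀ x : L', σ₀ ((a2.comp a1) x) = qExpand E N (σ2 ((a2.comp a1) x)))
  (σm : L2 →+* LaurentSeries E')
  (hσmO : ∀ r : O, σm (algebraMap O L2 r) = HahnSeries.C (algebraMap O' E' (ψ r)))
  (hσmfrac : ∀ x : L2, σm x ∈ GaussDVR.fracField O' E')
  (hσmα : ∀ x : L', σm ((a2.comp a1) x) = coeffMap φ (σ2 ((a2.comp a1) x)))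
  (z₀ : O'ˣ) (hz₀ : Irreducible ((z₀ : O') - 1))
  -- compatibilities of the two towers
  (hσa : ∀ x : L1, σ2 (a2 x) = σ1 x)
  (hσma : ∀ x : L1, σm (a2 x) = coeffMap φ (σ1 x))
  (hσ₀ab : ∀ x : L', σ₀ (a2 (w1 (a1 x))) = qExpand E ℓ (σ1 (a1 x)))
  (hcomm : ∀ x : L', b2 (a1 x) = a2 (w1 (a1 x)))

local notation "τM" => tauM ψ φ hψφ (a2.comp a1) σ2 u' U hσ2u σm hσmO hσmfrac hσmα z₀ hz₀
local notation "lamV" => GaussDVR.unif E' ((z₀ : O') - 1)
local notation "ρU" => GaussDVR.rho O U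

variable (e : ℕ) (he : 0 < e) (hlame : ((z₀ : O') - 1) ^ e ∣ ψ ϖ)
  (y : L2) (hyv : y = b2 (w1 (a1 u')))
  (hσy : σ2 y = GaussDVR.iota O E (qExpand O N U))
  (hσ₀y : σ₀ y = GaussDVR.iota O E U)
  (hσmy : σm y = Congr.rescale (Twist.unitE E' z₀) (coeffMap φ (σ2 ((a2.comp a1) u'))))
  (hθ : QFormal.theta (GaussDVR.rho O U) ≠ 0)
  (hNℓ : N = ℓ * ℓ)
  (hrank2 : ∀ v : Fin (1 + N + e + 1) → Chart O ((a2.comp a1) u'),
    ∃ c : Fin (1 + N + e + 1) → Chart O u', c ≠ 0 ∧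
      ∑ i, incl (a2.comp a1) hαO u' (c i) * v i = 0)

include hϖ ha1O hσ1O hσ1frac hσ1u hw1O hw1α hw1w1 hprime hcop hord hℓ hfrob hwu hrank1 ha2O hb2O
  hαO hσ2O hσ2frac hσ₀O hσ₀frac hσ₀α hσa hσma hσ₀ab hcomm he hlame hyv hσy hσ₀y hσmy hθ hNℓ
  hrank2 in
/-- **The generic multiplicity identity at `P_11`**, in the binder block of `HypGauss.hyp`. -/
theorem hmult_gauss :
    ∃ δ ∈ (Ideal.span {lamV}).comap τM, ∃ a₀ b₀ : Chart O ((a2.comp a1) u'),
      a₀ ∉ (Ideal.span {lamV}).comap τM ∧ a₀ * piC ((a2.comp a1) u') ϖ = b₀ * δ ^ e := by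
  classical
  haveI : NeZero (ℓ * ℓ) := ⟨hNℓ ▸ NeZero.ne N⟩
  have hpN : ∀ x : LaurentSeries (IsLocalRing.ResidueField O), x ^ N = x ^ (ℓ * ℓ) :=
    fun x => by rw [hNℓ]
  have hfrobN : qExpand (IsLocalRing.ResidueField O) N ρU = ρU ^ N := by
    rw [qExpand_congr hNℓ, ← qExpand_qExpand, hfrob, map_pow, hfrob, ← pow_mul, hpN]
  have hcopN : IsCoprime (GaussDVR.rho O U).order ((N : ℕ) : ℤ) := by
    rw [hNℓ]
    push_cast
    exact IsCoprime.mul_right hcop hcop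
  have hℓℓ : 2 ≤ ℓ * ℓ := by nlinarith
  have hN : 2 ≤ N := by rw [hNℓ]; exact hℓℓ
  have hyInt : IsIntegral (Algebra.adjoin O {(a2.comp a1) u'}) y :=
    isIntegral_y a1 u' w1 hwu a2 b2 ha2O hb2O hcomm y hyv
  obtain ⟨-, -, -, -, -, -, -, ⟨t, ht, c, hc⟩, ⟨-, -, hδm⟩, -, -⟩ :=
    package_mid ψ φ hψφ ϖ hϖ (a2.comp a1) hαO σ2 hσ2O hσ2frac u' U hσ2u σm hσmO hσmfrac hσmα
      z₀ hz₀ e hlame y hyInt hσmy hθ N σ₀ hσ₀O hσ₀frac hσ₀α hσy hσ₀y he hprime hcopN hord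
      hN hfrobN hrank2
  refine ⟨_, Ideal.mem_comap.2 (Ideal.mem_span_singleton.2 hδm), t, c,
    fun h => ht (Ideal.mem_span_singleton.1 (Ideal.mem_comap.1 h)), ?_⟩
  rw [hc, mul_comm]

end Concrete

/-! ### `E`-level: the binder block of `HypE.hyp` -/

section Inst

open Fermat.Agent.S30 Fermat.Agent.S30.CSide
open Fermat.Agent.S18.K1Defs Fermat.Agent.S18.K1Main
open Fermat.Agent.S34.TwoPrimesGauss Fermat.Agent.S34.TwoPrimesRank
open Fermat.Agent.S34.HauptU.Plug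
open Fermat.Agent.S36.SqChart Fermat.Agent.S36.MultPrimesGauss Fermat.Agent.S36.CycloBase
open Fermat.Agent.S36.SqRankE Fermat.Agent.S36.SqChart.InstA Fermat.Agent.S36.SqChart.HypE

local notation "Qb" => AlgebraicClosure ℚ

attribute [local instance] InstA.algL InstA.towerL

variable (A : ValuationSubring Qb) {q : ℕ} (hq : q.Prime) [NeZero q] (hA : A.LiesOverPrime q)
  (K : IntermediateField ℚ Qb) [FiniteDimensional ℚ K]
  (hK : A.inertiaSubgroupIn ℚ ≤ K.fixingSubgroup) {ζ : Qb} (hζ : IsPrimitiveRoot ζ q)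
  [IsDiscreteValuationRing (OE A K)] [IsDiscreteValuationRing (OE A (cyclo K ζ))]
  (R : ℕ) [NeZero R] (hqR : ¬ q ∣ R)
  (u' : LE R K) (U : LaurentSeries (OE A K))
  (hU : (u' : LaurentSeries K) = GaussDVR.iota (OE A K) K U)

variable (hwu : IsIntegral (Algebra.adjoin (OE A K) {alphaHom R q K u'})
    (wHom R q K hq hqR (alphaHom R q K u')))

local notation "ϖ" => ((q : ℕ) : OE A K)
local notation "hϖ" => irreducible_q A hq hA K hK

variable [FiniteDimensional (IntermediateField.adjoin K {u'}) (LE R K)]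
  (hprime : Prime (piC u' ((q : ℕ) : OE A K)))
  (hcop : IsCoprime (GaussDVR.rho (OE A K) U).order ((q : ℕ) : ℤ))
  (hord : (GaussDVR.rho (OE A K) U).order ≠ 0)
  (hθ : QFormal.theta (GaussDVR.rho (OE A K) U) ≠ 0)
  (hfrob : qExpand (IsLocalRing.ResidueField (OE A K)) q (GaussDVR.rho (OE A K) U)
    = GaussDVR.rho (OE A K) U ^ q)

set_option maxHeartbeats 4000000 in
include hwu hprime hcop hord hθ hfrob in
/-- **The generic multiplicity identity at `P_11 = PMid`** for the chart ring of level `R q²`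
over `𝒪_K` (binders of `HypE.hyp`). -/
theorem hmult :
    ∃ δ ∈ PMid A hq hA K hK hζ R hqR u' U hU, ∃ a₀ b₀ : B2 A K R u' (q := q),
      a₀ ∉ PMid A hq hA K hK hζ R hqR u' U hU ∧
        a₀ * piC (alphaSq R q K u') ((q : ℕ) : OE A K) = b₀ * δ ^ (q - 1) := by
  have h2 : 2 ≤ q := hq.two_le
  have hcard : q * (q + 1) < Fintype.card (Fin (1 + q * q + (q - 1) + 1)) := by
    rw [Fintype.card_fin, Nat.mul_succ]
    omega
  exact hmult_gauss (inclOE A (le_cyclo K ζ)) (inclE (le_cyclo K ζ))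
    (inclE_algebraMap A (le_cyclo K ζ)) ϖ hϖ (alphaHom R q K)
    (alphaHom_algebraMap R q K (O := OE A K)) (sigmaHom (R * q) K)
    (sigmaHom_algebraMap (R * q) K (O := OE A K)) (sigmaHom_mem_fracField (R * q) K A) u' U
    (sigma1_u A K R u' U hU) (wHom R q K hq hqR) (wHom_algebraMap R q K hq hqR (O := OE A K)) q
    (sigmaHom_wHom_alpha R q K hq hqR) (wHom_wHom R q K hq hqR) hprime hcop hord h2 hfrob hwu
    (fun v => hrank_modular_of_finite R q K hq hqR u' v)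
    (alphaHom (R * q) q K) (betaHom (R * q) q K)
    (alphaHom_sq_algebraMap R q K (O := OE A K)) (betaHom_sq_algebraMap R q K (O := OE A K))
    (alphaSq_algebraMap R q K (O := OE A K)) (sigmaHom (R * q * q) K)
    (sigmaHom_algebraMap (R * q * q) K (O := OE A K)) (sigmaHom_mem_fracField (R * q * q) K A)
    (sigma_u A K R u' U hU) (q * q) (sig0 hq K R hqR) (sig0_algebraMap hq K R hqR A)
    (sig0_mem_fracField hq K R hqR A) (sig0_alphaSq hq K R hqR)
    (sigM A hq hA K hζ R hqR) (sigM_algebraMap A hq hA K hζ R hqR)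
    (sigM_mem_fracField A hq hA K hζ R hqR) (sigM_alphaSq A hq hA K hζ R hqR)
    (zetaU A hq K hζ) (irreducible_zeta_sub_one A hq hA K hK hζ)
    (sigma_alpha K R) (sigM_alpha A hq hA K hζ R hqR) (sig0_alpha_w1_alpha hq K R hqR)
    (beta_alpha_comm hq K R hqR) (q - 1) (by omega) (lam_pow_dvd A hq hA K hK hζ)
    (betaSq R q K u') (betaSq_eq hq K R hqR u') (sigma_y A K R u' U hU)
    (sig0_y A hq K R hqR u' U hU) (sigM_y A hq hA K hζ R hqR u' U hU) hθ rfl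
    (fun v => hrank_alphaSq R q K hq hqR u' hcard v)

end Inst

end Fermat.Agent.S36.SqChart.HypMult
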