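import Mathlib
import Fermat.Agent.S36.SqChart.HypE
import Fermat.Agent.S34.Modular.Datum
import Fermat.Agent.S34.Nodal.ChartTransfer

/-!
# S36, C2 modular instance: the coordinates are not in the vertical primes (`E`-level)

The binders `hPc`, `hpc` of `KInst9.holds_of_chart` (the chart-prime form of the `K`-level
contract) at the primes of `SqChart/HypE`: the coordinate `tZero u` of the level-`R q²` chart
(`u = α₂ α₁ u'`) lies in none of `PZero`, `PInf`, `PMid`, and the coordinate `tZero u1` of the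
level-`R q` chart (`u1 = α₁ u'`) lies in none of `pZero`, `pInf`.

Coordinate-generic: the only hypothesis is `hρ : ρ(U) ≠ 0` (the reduction of the `q`-expansion
of `u'` is not zero).  The reductions of the coordinates are `ρ(U)`, `ρ(U)(q^q)`, `ρ(U)`,
`ρ(U)(q^{q q})`, and the middle valuation of `u` is that of `u1` at `∞`.
-/

set_option autoImplicit false
set_option linter.unusedSectionVars false
set_option linter.unusedVariables false
set_option linter.style.haveILetI false
set_option synthInstance.maxHeartbeats 400000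

open ModularCurve Polynomial

noncomputable section

namespace Fermat.Agent.S36.SqChart.NotMemE

open Fermat.Agent.S30 Fermat.Agent.S30.CSide
open Fermat.Agent.S18.K1Defs Fermat.Agent.S18.K1Main
open Fermat.Agent.S34.TwoPrimesGauss Fermat.Agent.S34.TwoPrimesRank
open Fermat.Agent.S34.HauptU.Plug
open Fermat.Agent.S36.SqChart Fermat.Agent.S36.MultPrimesGauss Fermat.Agent.S36.CycloBase
open Fermat.Agent.S36.SqRankE Fermat.Agent.S36.SqChart.InstA
open Fermat.Agent.S34.Nodal.ChartTransfer (tZero)

local notation "Qb" => AlgebraicClosure ℚ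

attribute [local instance] InstA.algL InstA.towerL

variable (A : ValuationSubring Qb) {q : ℕ} (hq : q.Prime) [NeZero q] (hA : A.LiesOverPrime q)
  (K : IntermediateField ℚ Qb) [FiniteDimensional ℚ K]
  (hK : A.inertiaSubgroupIn ℚ ≤ K.fixingSubgroup) {ζ : Qb} (hζ : IsPrimitiveRoot ζ q)
  [IsDiscreteValuationRing (OE A K)] [IsDiscreteValuationRing (OE A (cyclo K ζ))]
  (R : ℕ) [NeZero R] (hqR : ¬ q ∣ R)
  (u' : LE R K) (U : LaurentSeries (OE A K))
  (hU : (u' : LaurentSeries K) = GaussDVR.iota (OE A K) K U)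
  (hρ : GaussDVR.rho (OE A K) U ≠ 0)

/-- The reduction at `∞` of the coordinate of the level-`R q` chart is `ρ(U)`. -/
theorem rInf1_tZero :
    HypE.rInf1 A hq hA K hK R u' U hU (tZero (O := OE A K) (alphaHom R q K u'))
      = GaussDVR.rho (OE A K) U :=
  redHom_of_int (sigmaHom (R * q) K) (sigmaHom_algebraMap (R * q) K (O := OE A K))
    ((q : ℕ) : OE A K) (InstA.irreducible_q A hq hA K hK) (sigmaHom_mem_fracField (R * q) K A)
    (alphaHom R q K u') U (HypE.sigma1_u A K R u' U hU)
    (tZero (O := OE A K) (alphaHom R q K u')) U (HypE.sigma1_u A K R u' U hU)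

/-- The reduction at `0` of the coordinate of the level-`R q` chart is `ρ(U(q^q))`. -/
theorem rZero1_tZero :
    HypE.rZero1 A hq hA K hK R hqR u' U hU (tZero (O := OE A K) (alphaHom R q K u'))
      = GaussDVR.rho (OE A K) (qExpand (OE A K) q U) :=
  redHom_of_int ((sigmaHom (R * q) K).comp
      (wHom R q K hq hqR : LE (R * q) K →+* LE (R * q) K))
    (sigmaW_O (sigmaHom (R * q) K) (sigmaHom_algebraMap (R * q) K (O := OE A K))
      (wHom R q K hq hqR) (wHom_algebraMap R q K hq hqR (O := OE A K)))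
    ((q : ℕ) : OE A K) (InstA.irreducible_q A hq hA K hK)
    (fun x => sigmaHom_mem_fracField (R * q) K A (wHom R q K hq hqR x))
    (alphaHom R q K u') (qExpand (OE A K) q U)
    (sigmaW_u (alphaHom R q K) (sigmaHom (R * q) K) u' U (HypE.sigma1_u A K R u' U hU)
      (wHom R q K hq hqR) q (sigmaHom_wHom_alpha R q K hq hqR))
    (tZero (O := OE A K) (alphaHom R q K u')) (qExpand (OE A K) q U)
    (sigmaW_u (alphaHom R q K) (sigmaHom (R * q) K) u' U (HypE.sigma1_u A K R u' U hU)
      (wHom R q K hq hqR) q (sigmaHom_wHom_alpha R q K hq hqR))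

/-- The reduction at `∞` of the coordinate of the level-`R q²` chart is `ρ(U)`. -/
theorem rInf_tZero :
    HypE.rInf A hq hA K hK R u' U hU (tZero (O := OE A K) (alphaSq R q K u'))
      = GaussDVR.rho (OE A K) U :=
  redHom_of_int (sigmaHom (R * q * q) K) (sigmaHom_algebraMap (R * q * q) K (O := OE A K))
    ((q : ℕ) : OE A K) (InstA.irreducible_q A hq hA K hK)
    (sigmaHom_mem_fracField (R * q * q) K A)
    (alphaSq R q K u') U (InstA.sigma_u A K R u' U hU)
    (tZero (O := OE A K) (alphaSq R q K u')) U (InstA.sigma_u A K R u' U hU)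

/-- The reduction at `0` of the coordinate of the level-`R q²` chart is `ρ(U(q^{q q}))`. -/
theorem rZero_tZero :
    HypE.rZero A hq hA K hK R hqR u' U hU (tZero (O := OE A K) (alphaSq R q K u'))
      = GaussDVR.rho (OE A K) (qExpand (OE A K) (q * q) U) :=
  redHom_of_int (InstA.sig0 hq K R hqR) (InstA.sig0_algebraMap hq K R hqR A)
    ((q : ℕ) : OE A K) (InstA.irreducible_q A hq hA K hK)
    (InstA.sig0_mem_fracField hq K R hqR A)
    (alphaSq R q K u') (qExpand (OE A K) (q * q) U)
    (sigma0_u (alphaSq R q K) (sigmaHom (R * q * q) K) u' U (InstA.sigma_u A K R u' U hU)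
      (q * q) (InstA.sig0 hq K R hqR) (InstA.sig0_alphaSq hq K R hqR))
    (tZero (O := OE A K) (alphaSq R q K u')) (qExpand (OE A K) (q * q) U)
    (sigma0_u (alphaSq R q K) (sigmaHom (R * q * q) K) u' U (InstA.sigma_u A K R u' U hU)
      (q * q) (InstA.sig0 hq K R hqR) (InstA.sig0_alphaSq hq K R hqR))

include hρ in
/-- `u1 ∉ p_∞`. -/
theorem tZero_notMem_pInf :
    tZero (O := OE A K) (alphaHom R q K u') ∉ HypE.pInf A hq hA K hK R u' U hU := by
  intro h
  rw [RingHom.mem_ker, rInf1_tZero] at h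
  exact hρ h

include hρ in
/-- `u1 ∉ p_0`. -/
theorem tZero_notMem_pZero :
    tZero (O := OE A K) (alphaHom R q K u') ∉ HypE.pZero A hq hA K hK R hqR u' U hU := by
  intro h
  rw [RingHom.mem_ker, rZero1_tZero] at h
  exact Fermat.Agent.S34.Modular.Datum.rho_qExpand_ne_zero U q hρ h

include hρ in
/-- `u ∉ P_∞`. -/
theorem tZero_notMem_PInf :
    tZero (O := OE A K) (alphaSq R q K u') ∉ HypE.PInf A hq hA K hK R u' U hU := by
  intro h
  rw [RingHom.mem_ker, rInf_tZero] at h
  exact hρ h

include hρ in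
/-- `u ∉ P_0`. -/
theorem tZero_notMem_PZero :
    tZero (O := OE A K) (alphaSq R q K u') ∉ HypE.PZero A hq hA K hK R hqR u' U hU := by
  intro h
  rw [RingHom.mem_ker, rZero_tZero] at h
  exact Fermat.Agent.S34.Modular.Datum.rho_qExpand_ne_zero U (q * q) hρ h

/-- The coordinate of level `R q²` is the image of the coordinate of level `R q`. -/
theorem alphaC_tZero :
    HypE.alphaC (q := q) A K R u' (tZero (O := OE A K) (alphaHom R q K u'))
      = tZero (O := OE A K) (alphaSq R q K u') :=
  Subtype.ext rfl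

include hρ in
/-- `u ∉ P_{11}`. -/
theorem tZero_notMem_PMid :
    tZero (O := OE A K) (alphaSq R q K u') ∉ HypE.PMid A hq hA K hK hζ R hqR u' U hU := by
  intro h
  rw [← alphaC_tZero (q := q) A K R u', Ideal.mem_comap, Ideal.mem_span_singleton] at h
  have h2 := (HypGauss.dvd_tauM_alphaC_iff (inclOE A (le_cyclo K ζ)) (inclE (le_cyclo K ζ))
    (inclE_algebraMap A (le_cyclo K ζ)) ((q : ℕ) : OE A K) (InstA.irreducible_q A hq hA K hK)
    (alphaHom R q K) (sigmaHom (R * q) K) (sigmaHom_algebraMap (R * q) K (O := OE A K))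
    (sigmaHom_mem_fracField (R * q) K A) u' U (HypE.sigma1_u A K R u' U hU)
    (alphaHom (R * q) q K) (alphaHom_sq_algebraMap R q K (O := OE A K))
    (sigmaHom (R * q * q) K) (InstA.sigma_u A K R u' U hU)
    (InstA.sigM A hq hA K hζ R hqR) (InstA.sigM_algebraMap A hq hA K hζ R hqR)
    (InstA.sigM_mem_fracField A hq hA K hζ R hqR) (InstA.sigM_alphaSq A hq hA K hζ R hqR)
    (zetaU A hq K hζ) (InstA.irreducible_zeta_sub_one A hq hA K hK hζ)
    (InstA.sigM_alpha A hq hA K hζ R hqR)
    (tZero (O := OE A K) (alphaHom R q K u'))).mp h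
  exact hρ ((rInf1_tZero A hq hA K hK R u' U hU).symm.trans h2)

include hρ in
/-- **`hPc`** of `KInst9.holds_of_chart` at the primes of `SqChart/HypE`. -/
theorem hPc (i : Fin 3) :
    tZero (O := OE A K) (alphaSq R q K u') ∉
      (![HypE.PZero A hq hA K hK R hqR u' U hU, HypE.PInf A hq hA K hK R u' U hU,
        HypE.PMid A hq hA K hK hζ R hqR u' U hU] :
        Fin 3 → Ideal (HypE.B2 (q := q) A K R u')) i := by
  fin_cases i
  · exact tZero_notMem_PZero A hq hA K hK R hqR u' U hU hρ
  · exact tZero_notMem_PInf A hq hA K hK R u' U hU hρ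
  · exact tZero_notMem_PMid A hq hA K hK hζ R hqR u' U hU hρ

include hρ in
/-- **`hpc`** of `KInst9.holds_of_chart` at the primes of `SqChart/HypE`. -/
theorem hpc (j : Fin 2) :
    tZero (O := OE A K) (alphaHom R q K u') ∉
      (![HypE.pZero A hq hA K hK R hqR u' U hU, HypE.pInf A hq hA K hK R u' U hU] :
        Fin 2 → Ideal (HypE.B1 (q := q) A K R u')) j := by
  fin_cases j
  · exact tZero_notMem_pZero A hq hA K hK R hqR u' U hU hρ
  · exact tZero_notMem_pInf A hq hA K hK R u' U hU hρ

end Fermat.Agent.S36.SqChart.NotMemE
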