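import Mathlib
import Fermat.Agent.S36.SqChart.HypE
import Fermat.Agent.S36.DedekindSq
import Fermat.Agent.S34.Nodal.Defs

/-!
# S36, C2 modular instance: radicial statements and Dedekind quotients at the `HypE` primes

The three vertical primes `PInf`, `PZero`, `PMid` of the level-`R q²` chart ring `B2` of
`SqChart/HypE` (Gauss route, `InstA` objects) and the two degeneracy maps
`alphaC`, `betaC : B1 →+* B2`:

* `rad_beta_gauss`, `rad_alpha_gauss` (level-free, vocabulary of `SqChart/HypGauss`): from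
  ONTO along the first base at `∞` (resp. along the second base at `0`) and the
  Frobenius-stability `hKF` of the reduced level-`M'` chart ring,
  `c ^ ℓ ≡ β r mod P∞` and `c ^ ℓ ≡ α r mod P0` with `r ∈ B1`;
* `onto_inf`, `onto_zero`, `onto_mid` : the three ONTO statements at `E`-level;
* `dedekind` : the three quotients `B2 ⧸ P` are Dedekind domains
  (`DedekindSq.dedekind` at the `InstA` objects);
* `rad_alpha`, `rad_beta` : the radicial statements at the `HypE` primes;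
* `hded`, `hradα`, `hradβ` : the literal binders of `KContractE.holds_of_hyp` for any
  `P : Fin 3 → Ideal (Overlap O u)` whose contractions to the chart `u` are the `HypE` primes.
-/

set_option autoImplicit false
set_option linter.unusedSectionVars false
set_option linter.unusedVariables false
set_option linter.style.haveILetI false
set_option synthInstance.maxHeartbeats 400000

open ModularCurve Polynomial

noncomputable section

namespace Fermat.Agent.S36.SqChart.RadE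

universe u

/-! ### Level-free: the two radicial statements -/

section Gauss

open Fermat.Agent.S30 Fermat.Agent.S34 Fermat.Agent.S34.TwoPrimesGauss
open Fermat.Agent.S36 Fermat.Agent.S36.SqChart Fermat.Agent.S36.MultPrimesGauss
open Fermat.Agent.S36.SqChart.HypGauss

variable {O : Type*} {E : Type u} [CommRing O] [IsDomain O] [IsDiscreteValuationRing O] [Field E]
  [Algebra O E] [FaithfulSMul O E]
  {L' L1 L2 : Type*} [Field L'] [Field L1] [Field L2] [Algebra O L'] [Algebra O L1] [Algebra O L2]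
  (ϖ : O) (hϖ : Irreducible ϖ)
  (a1 : L' →+* L1) (ha1O : ∀ r : O, a1 (algebraMap O L' r) = algebraMap O L1 r)
  (σ1 : L1 →+* LaurentSeries E)
  (hσ1O : ∀ r : O, σ1 (algebraMap O L1 r) = HahnSeries.C (algebraMap O E r))
  (hσ1frac : ∀ x : L1, σ1 x ∈ GaussDVR.fracField O E)
  (u' : L') (U : LaurentSeries O) (hσ1u : σ1 (a1 u') = GaussDVR.iota O E U)
  (w1 : L1 ≃+* L1) (hw1O : ∀ r : O, w1 (algebraMap O L1 r) = algebraMap O L1 r)
  (ℓ : ℕ) [NeZero ℓ]
  (hw1α : ∀ x : L', σ1 (w1 (a1 x)) = qExpand E ℓ (σ1 (a1 x)))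
  (hwu : IsIntegral (Algebra.adjoin O {a1 u'}) (w1 (a1 u')))
  (a2 b2 : L1 →+* L2) (ha2O : ∀ r : O, a2 (algebraMap O L1 r) = algebraMap O L2 r)
  (hb2O : ∀ r : O, b2 (algebraMap O L1 r) = algebraMap O L2 r)
  (hαO : ∀ r : O, (a2.comp a1) (algebraMap O L' r) = algebraMap O L2 r)
  (σ2 : L2 →+* LaurentSeries E)
  (hσ2O : ∀ r : O, σ2 (algebraMap O L2 r) = HahnSeries.C (algebraMap O E r))
  (hσ2frac : ∀ x : L2, σ2 x ∈ GaussDVR.fracField O E)
  (hσ2u : σ2 ((a2.comp a1) u') = GaussDVR.iota O E U)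
  (N : ℕ) [NeZero N]
  (σ₀ : L2 →+* LaurentSeries E)
  (hσ₀O : ∀ r : O, σ₀ (algebraMap O L2 r) = HahnSeries.C (algebraMap O E r))
  (hσ₀frac : ∀ x : L2, σ₀ x ∈ GaussDVR.fracField O E)
  (hσ₀α : ∀ x : L', σ₀ ((a2.comp a1) x) = qExpand E N (σ2 ((a2.comp a1) x)))
  (hσa : ∀ x : L1, σ2 (a2 x) = σ1 x)
  (hσ₀ab : ∀ x : L', σ₀ (a2 (w1 (a1 x))) = qExpand E ℓ (σ1 (a1 x)))
  (hcomm : ∀ x : L', b2 (a1 x) = a2 (w1 (a1 x)))

local notation "rM1" => redM ϖ hϖ a1 ha1O σ1 hσ1O hσ1frac u' U hσ1u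
local notation "rM2" => redM ϖ hϖ (a2.comp a1) hαO σ2 hσ2O hσ2frac u' U hσ2u
local notation "rI" => redInf ϖ hϖ (a2.comp a1) σ2 hσ2O hσ2frac u' U hσ2u
local notation "rZ" => redZ ϖ hϖ (a2.comp a1) σ2 u' U hσ2u N σ₀ hσ₀O hσ₀frac hσ₀α
local notation "αC" => alphaC a1 a2 ha2O u'
local notation "βC" => betaC a1 w1 a2 b2 ha2O hb2O u' hwu hcomm
local notation "ωC" => wC a1 w1 hw1O u' hwu
local notation "ι1" => incl a1 ha1O u'
local notation "ι2" => incl (a2.comp a1) hαO u'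

include hσa in
/-- The level-`M'` reductions through the two towers agree. -/
theorem redM_comp_eq (a : Chart O u') : rM2 a = rM1 a := by
  show GaussDVR.red O E _ = GaussDVR.red O E _
  congr 1
  exact Subtype.ext (hσa (a1 (a : L')))

include ha1O hσ1O hσ1frac hσ1u hw1O hσa hw1α in
/-- **Radicial along `β` at `P∞`** (level-free): `c ^ ℓ ≡ β r` modulo `P∞ = ker rI`. -/
theorem rad_beta_gauss
    (honto : ∀ c : Chart O ((a2.comp a1) u'), ∃ a : Chart O u', rI (c - ι2 a) = 0)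
    (hKF : ∀ r : Chart O u', ∃ s : Chart O u',
      rM2 r ^ ℓ = qExpand (IsLocalRing.ResidueField O) ℓ (rM2 s))
    (c : Chart O ((a2.comp a1) u')) :
    ∃ r : Chart O (a1 u'), c ^ ℓ - βC r ∈ RingHom.ker rI := by
  obtain ⟨a, ha⟩ := honto c
  obtain ⟨s, hs⟩ := hKF a
  refine ⟨ι1 s, ?_⟩
  have h1 : rI c = rM2 a := by
    rw [map_sub, sub_eq_zero] at ha
    rw [ha]
    rfl
  have h2 : rI (βC (ι1 s)) = qExpand (IsLocalRing.ResidueField O) ℓ (rM1 s) := by
    rw [betaC_incl a1 w1 hw1O a2 b2 ha2O hb2O u' hwu hcomm ha1O s]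
    exact redInf_alphaC_wC_incl (ϖ := ϖ) (hϖ := hϖ) (a1 := a1) (ha1O := ha1O) (σ1 := σ1)
      (hσ1O := hσ1O) (hσ1frac := hσ1frac) (u' := u') (U := U) (hσ1u := hσ1u) (w1 := w1)
      (hw1O := hw1O) (ℓ := ℓ) (hw1α := hw1α) (hwu := hwu) (a2 := a2) (ha2O := ha2O) (σ2 := σ2)
      (hσ2O := hσ2O) (hσ2frac := hσ2frac) (hσ2u := hσ2u) (hσa := hσa) s
  rw [RingHom.mem_ker, map_sub, map_pow, h1, hs, h2,
    redM_comp_eq ϖ hϖ a1 ha1O σ1 hσ1O hσ1frac u' U hσ1u a2 hαO σ2 hσ2O hσ2frac hσ2u hσa s,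
    sub_self]

include ha1O hσ1O hσ1frac hσ1u hw1O hwu hσa hσ₀ab in
/-- **Radicial along `α` at `P0`** (level-free): `c ^ ℓ ≡ α r` modulo `P0 = ker rZ`. -/
theorem rad_alpha_gauss
    (hontoB : ∀ c : Chart O ((a2.comp a1) u'), ∃ a : Chart O u', rZ c = rM2 a)
    (hKF : ∀ r : Chart O u', ∃ s : Chart O u',
      rM2 r ^ ℓ = qExpand (IsLocalRing.ResidueField O) ℓ (rM2 s))
    (c : Chart O ((a2.comp a1) u')) :
    ∃ r : Chart O (a1 u'), c ^ ℓ - αC r ∈ RingHom.ker rZ := by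
  obtain ⟨a, ha⟩ := hontoB c
  obtain ⟨s, hs⟩ := hKF a
  refine ⟨ωC (ι1 s), ?_⟩
  have h2 : rZ (αC (ωC (ι1 s))) = qExpand (IsLocalRing.ResidueField O) ℓ (rM1 s) :=
    redZ_alphaC_wC_incl (ϖ := ϖ) (hϖ := hϖ) (a1 := a1) (ha1O := ha1O) (σ1 := σ1)
      (hσ1O := hσ1O) (hσ1frac := hσ1frac) (u' := u') (U := U) (hσ1u := hσ1u) (w1 := w1)
      (hw1O := hw1O) (ℓ := ℓ) (hwu := hwu) (a2 := a2) (ha2O := ha2O) (σ2 := σ2)
      (hσ2u := hσ2u) (N := N) (σ₀ := σ₀) (hσ₀O := hσ₀O) (hσ₀frac := hσ₀frac) (hσ₀α := hσ₀α)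
      (hσ₀ab := hσ₀ab) s
  rw [RingHom.mem_ker, map_sub, map_pow, ha, hs, h2,
    redM_comp_eq ϖ hϖ a1 ha1O σ1 hσ1O hσ1frac u' U hσ1u a2 hαO σ2 hσ2O hσ2frac hσ2u hσa s,
    sub_self]

end Gauss

/-! ### `E`-level: the `HypE` primes -/

section Inst

open Fermat.Agent.S30 Fermat.Agent.S30.CSide Fermat.Agent.S34
open Fermat.Agent.S18.K1Defs Fermat.Agent.S18.K1Main
open Fermat.Agent.S34.TwoPrimesGauss Fermat.Agent.S34.TwoPrimesRank
open Fermat.Agent.S34.HauptU.Plug
open Fermat.Agent.S36.SqChart Fermat.Agent.S36.MultPrimesGauss Fermat.Agent.S36.CycloBase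
open Fermat.Agent.S36.SqRankE Fermat.Agent.S36.SqChart.InstA

local notation "Qb" => AlgebraicClosure ℚ

attribute [local instance] InstA.algL InstA.towerL

variable (A : ValuationSubring Qb) {q : ℕ} (hq : q.Prime) [NeZero q] (hA : A.LiesOverPrime q)
  (K : IntermediateField ℚ Qb) [FiniteDimensional ℚ K]
  (hK : A.inertiaSubgroupIn ℚ ≤ K.fixingSubgroup) {ζ : Qb} (hζ : IsPrimitiveRoot ζ q)
  [IsDiscreteValuationRing (OE A K)] [IsDiscreteValuationRing (OE A (cyclo K ζ))]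
  (R : ℕ) [NeZero R] (hqR : ¬ q ∣ R)
  (u' : LE R K) (U : LaurentSeries (OE A K))
  (hU : (u' : LaurentSeries K) = GaussDVR.iota (OE A K) K U)

local notation "ϖ" => ((q : ℕ) : OE A K)
local notation "hϖ" => irreducible_q A hq hA K hK
local notation "α" => alphaSq R q K
local notation "hαO" => alphaSq_algebraMap R q K (O := OE A K)
local notation "σ" => sigmaHom (R * q * q) K
local notation "hσO" => sigmaHom_algebraMap (R * q * q) K (O := OE A K)
local notation "hσfrac" => sigmaHom_mem_fracField (R * q * q) K A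
local notation "hσu" => sigma_u A K R u' U hU
local notation "σ₀" => sig0 hq K R hqR
local notation "hσ₀O" => sig0_algebraMap hq K R hqR A
local notation "hσ₀frac" => sig0_mem_fracField hq K R hqR A
local notation "hσ₀α" => sig0_alphaSq hq K R hqR
local notation "ψ" => inclOE A (le_cyclo K ζ)
local notation "φ" => inclE (le_cyclo K ζ)
local notation "hψφ" => inclE_algebraMap A (le_cyclo K ζ)
local notation "σm" => sigM A hq hA K hζ R hqR
local notation "hσmO" => sigM_algebraMap A hq hA K hζ R hqR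
local notation "hσmfrac" => sigM_mem_fracField A hq hA K hζ R hqR
local notation "hσmα" => sigM_alphaSq A hq hA K hζ R hqR
local notation "z₀" => zetaU A hq K hζ
local notation "hz₀" => irreducible_zeta_sub_one A hq hA K hK hζ

local notation "rM" => redM ϖ hϖ α hαO σ hσO hσfrac u' U hσu
local notation "ι" => incl α hαO u'

variable [FiniteDimensional (IntermediateField.adjoin K {u'}) (LE R K)]
  (hy : IsIntegral (Algebra.adjoin (OE A K) {alphaSq R q K u'}) (betaSq R q K u'))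
  (hprime : Prime (piC u' ((q : ℕ) : OE A K)))
  (hcop : IsCoprime (GaussDVR.rho (OE A K) U).order ((q * q : ℕ) : ℤ))
  (hord : (GaussDVR.rho (OE A K) U).order ≠ 0)
  (hθ : QFormal.theta (GaussDVR.rho (OE A K) U) ≠ 0)
  (hfrob : qExpand (IsLocalRing.ResidueField (OE A K)) (q * q) (GaussDVR.rho (OE A K) U)
    = GaussDVR.rho (OE A K) U ^ (q * q))

/-- The second base `ββ : Chart O u' → B2`, `r ↦ β₂ (β₁ r)`. -/
abbrev inclBB : Chart (OE A K) u' →+* HypE.B2 A K R u' (q := q) :=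
  DedekindSq.inclB α u' (betaSq R q K u') hy (betaSq R q K)
    (betaSq_algebraMap R q K (O := OE A K)) rfl

theorem coe_inclBB (a : Chart (OE A K) u') :
    ((inclBB A K R u' hy a : HypE.B2 A K R u' (q := q)) : LE (R * q * q) K)
      = betaSq R q K (a : LE R K) := rfl

/-- `hσβ` : `σ (β₂ (β₁ x)) = (σ (α₂ (α₁ x)))(q^{q q})`. -/
theorem sigma_betaSq_alphaSq (x : LE R K) :
    sigmaHom (R * q * q) K (betaSq R q K x)
      = qExpand K (q * q) (sigmaHom (R * q * q) K (alphaSq R q K x)) := by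
  rw [InstA.sigma_betaSq, InstA.sigma_alphaSq]

/-- `hσ₀β` : `σ₀ (β₂ (β₁ x)) = σ (α₂ (α₁ x))`. -/
theorem sig0_betaSq_alphaSq (x : LE R K) :
    sig0 hq K R hqR (betaSq R q K x) = sigmaHom (R * q * q) K (alphaSq R q K x) := by
  rw [InstA.sig0_betaSq, InstA.sigma_alphaSq]

set_option maxHeartbeats 4000000 in
include hy hprime hcop hord hθ hfrob in
/-- **ONTO at `P∞` and at `P11` along the first base `αα`.** -/
theorem onto_inf_mid (hnormal : IsIntegrallyClosed (Chart (OE A K) u' ⧸ Ideal.span {piC u' ϖ})) :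
    (∀ c : HypE.B2 A K R u' (q := q), ∃ a : Chart (OE A K) u',
      HypE.rInf A hq hA K hK R u' U hU (c - ι a) = 0) ∧
    (∀ c : HypE.B2 A K R u' (q := q), ∃ a : Chart (OE A K) u',
      HypE.lamMid A hq K hζ ∣ HypE.tauMid A hq hA K hK hζ R hqR u' U hU (c - ι a)) :=
  (InstA.package_alpha A hq hA K hK hζ R hqR u' U hU hy hprime hcop hord hθ hfrob).2.2.1 hnormal

set_option maxHeartbeats 4000000 in
include hζ hy hprime hcop hord hθ hfrob in
/-- **ONTO at `P0` along the second base `ββ`.** -/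
theorem onto_zero (hnormal : IsIntegrallyClosed (Chart (OE A K) u' ⧸ Ideal.span {piC u' ϖ}))
    (c : HypE.B2 A K R u' (q := q)) :
    ∃ a : Chart (OE A K) u',
      HypE.rZero A hq hA K hK R hqR u' U hU (c - inclBB A K R u' hy a) = 0 := by
  have h2 : 2 ≤ q := hq.two_le
  have hcard : q * (q + 1) < Fintype.card (Fin (1 + q * q + (q - 1) + 1)) := by
    rw [Fintype.card_fin, Nat.mul_succ]
    omega
  obtain ⟨d, hd, hm3⟩ := MidVal.exists_tauM_delta ψ φ hψφ α hαO σ u' U hσu σm hσmO hσmfrac hσmα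
    z₀ hz₀ (betaSq R q K u') hy (sigM_y A hq hA K hζ R hqR u' U hU) hθ
  exact DedekindSq.exists_redZ_sub_eq_zero ϖ hϖ α hαO σ hσO hσfrac u' U hσu (q * q) σ₀ hσ₀O
    hσ₀frac hσ₀α (betaSq R q K u') hy (betaSq R q K) (betaSq_algebraMap R q K (O := OE A K)) rfl
    (sigma_betaSq_alphaSq K R) (sig0_betaSq_alphaSq hq K R hqR)
    (sigma_y A K R u' U hU) (sig0_y A hq K R hqR u' U hU)
    (HypE.tauMid A hq hA K hK hζ R hqR u' U hU) (HypE.lamMid A hq K hζ)
    (prime_unif (cyclo K ζ) _ hz₀) (q - 1) (by omega)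
    (MidVal.pow_dvd_tauM_piC ψ φ hψφ ϖ α σ u' U hσu σm hσmO hσmfrac hσmα z₀ hz₀ (q - 1)
      (lam_pow_dvd A hq hA K hK hζ))
    (MidVal.redM_eq_zero_of_dvd_tauM ψ φ hψφ ϖ hϖ α hαO σ hσO hσfrac u' U hσu σm hσmO hσmfrac
      hσmα z₀ hz₀)
    d hd hm3 hprime hcop hord (by nlinarith) hfrob
    (fun v => hrank_alphaSq R q K hq hqR u' hcard v) hnormal c

set_option maxHeartbeats 4000000 in
include hy hprime hcop hord hθ hfrob in
/-- **The three components of the level-`R q²` chart have Dedekind coordinate rings.** -/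
theorem dedekind [IsDedekindDomain (Chart (OE A K) u' ⧸ Ideal.span {piC u' ϖ})] :
    IsDedekindDomain (HypE.B2 A K R u' (q := q) ⧸ HypE.PZero A hq hA K hK R hqR u' U hU) ∧
    IsDedekindDomain (HypE.B2 A K R u' (q := q) ⧸ HypE.PInf A hq hA K hK R u' U hU) ∧
    IsDedekindDomain (HypE.B2 A K R u' (q := q) ⧸ HypE.PMid A hq hA K hK hζ R hqR u' U hU) := by
  have h2 : 2 ≤ q := hq.two_le
  have hcard : q * (q + 1) < Fintype.card (Fin (1 + q * q + (q - 1) + 1)) := by
    rw [Fintype.card_fin, Nat.mul_succ]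
    omega
  obtain ⟨d, hd, hm3⟩ := MidVal.exists_tauM_delta ψ φ hψφ α hαO σ u' U hσu σm hσmO hσmfrac hσmα
    z₀ hz₀ (betaSq R q K u') hy (sigM_y A hq hA K hζ R hqR u' U hU) hθ
  exact DedekindSq.dedekind ϖ hϖ α hαO σ hσO hσfrac u' U hσu (q * q) σ₀ hσ₀O
    hσ₀frac hσ₀α (betaSq R q K u') hy (betaSq R q K) (betaSq_algebraMap R q K (O := OE A K)) rfl
    (sigma_betaSq_alphaSq K R) (sig0_betaSq_alphaSq hq K R hqR)
    (sigma_y A K R u' U hU) (sig0_y A hq K R hqR u' U hU)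
    (HypE.tauMid A hq hA K hK hζ R hqR u' U hU) (HypE.lamMid A hq K hζ)
    (prime_unif (cyclo K ζ) _ hz₀) (q - 1) (by omega)
    (MidVal.pow_dvd_tauM_piC ψ φ hψφ ϖ α σ u' U hσu σm hσmO hσmfrac hσmα z₀ hz₀ (q - 1)
      (lam_pow_dvd A hq hA K hK hζ))
    (MidVal.redM_eq_zero_of_dvd_tauM ψ φ hψφ ϖ hϖ α hαO σ hσO hσfrac u' U hσu σm hσmO hσmfrac
      hσmα z₀ hz₀)
    d hd hm3 hprime hcop hord (by nlinarith) hfrob
    (fun v => hrank_alphaSq R q K hq hqR u' hcard v)

variable (hwu : IsIntegral (Algebra.adjoin (OE A K) {alphaHom R q K u'})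
    (wHom R q K hq hqR (alphaHom R q K u')))

set_option maxHeartbeats 4000000 in
include hζ hy hprime hcop hord hθ hfrob in
/-- **`hradβ` at the `HypE` primes**: `c ^ q ≡ β r` modulo `P∞`, `r` in the level-`R q` chart
ring. -/
theorem rad_beta (hnormal : IsIntegrallyClosed (Chart (OE A K) u' ⧸ Ideal.span {piC u' ϖ}))
    (hKF : ∀ r : Chart (OE A K) u', ∃ s : Chart (OE A K) u',
      rM r ^ q = qExpand (IsLocalRing.ResidueField (OE A K)) q (rM s))
    (c : HypE.B2 A K R u' (q := q)) :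
    ∃ r : HypE.B1 A K R u' (q := q),
      c ^ q - HypE.betaC A hq K R hqR u' hwu r ∈ HypE.PInf A hq hA K hK R u' U hU :=
  rad_beta_gauss ϖ hϖ (alphaHom R q K) (alphaHom_algebraMap R q K (O := OE A K))
    (sigmaHom (R * q) K) (sigmaHom_algebraMap (R * q) K (O := OE A K))
    (sigmaHom_mem_fracField (R * q) K A) u' U (HypE.sigma1_u A K R u' U hU)
    (wHom R q K hq hqR) (wHom_algebraMap R q K hq hqR (O := OE A K)) q
    (sigmaHom_wHom_alpha R q K hq hqR) hwu (alphaHom (R * q) q K) (betaHom (R * q) q K)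
    (alphaHom_sq_algebraMap R q K (O := OE A K)) (betaHom_sq_algebraMap R q K (O := OE A K))
    hαO σ hσO hσfrac hσu (HypE.sigma_alpha K R) (HypE.beta_alpha_comm hq K R hqR)
    (onto_inf_mid A hq hA K hK hζ R hqR u' U hU hy hprime hcop hord hθ hfrob hnormal).1 hKF c

set_option maxHeartbeats 4000000 in
include hζ hy hwu hprime hcop hord hθ hfrob in
/-- **`hradα` at the `HypE` primes**: `c ^ q ≡ α r` modulo `P0`, `r` in the level-`R q` chart
ring. -/
theorem rad_alpha (hnormal : IsIntegrallyClosed (Chart (OE A K) u' ⧸ Ideal.span {piC u' ϖ}))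
    (hKF : ∀ r : Chart (OE A K) u', ∃ s : Chart (OE A K) u',
      rM r ^ q = qExpand (IsLocalRing.ResidueField (OE A K)) q (rM s))
    (c : HypE.B2 A K R u' (q := q)) :
    ∃ r : HypE.B1 A K R u' (q := q),
      c ^ q - HypE.alphaC A K R u' r ∈ HypE.PZero A hq hA K hK R hqR u' U hU := by
  refine rad_alpha_gauss ϖ hϖ (alphaHom R q K) (alphaHom_algebraMap R q K (O := OE A K))
    (sigmaHom (R * q) K) (sigmaHom_algebraMap (R * q) K (O := OE A K))
    (sigmaHom_mem_fracField (R * q) K A) u' U (HypE.sigma1_u A K R u' U hU)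
    (wHom R q K hq hqR) (wHom_algebraMap R q K hq hqR (O := OE A K)) q hwu
    (alphaHom (R * q) q K) (alphaHom_sq_algebraMap R q K (O := OE A K))
    hαO σ hσO hσfrac hσu (q * q) σ₀ hσ₀O hσ₀frac hσ₀α (HypE.sigma_alpha K R)
    (HypE.sig0_alpha_w1_alpha hq K R hqR) (fun c' => ?_) hKF c
  obtain ⟨a, ha⟩ := onto_zero A hq hA K hK hζ R hqR u' U hU hy hprime hcop hord hθ hfrob
    hnormal c'
  refine ⟨a, ?_⟩
  rw [map_sub, sub_eq_zero] at ha
  rw [ha]
  exact DedekindSq.redZ_inclB ϖ hϖ α hαO σ hσO hσfrac u' U hσu (q * q) σ₀ hσ₀O hσ₀frac hσ₀α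
    (betaSq R q K u') hy (betaSq R q K) (betaSq_algebraMap R q K (O := OE A K)) rfl
    (sig0_betaSq_alphaSq hq K R hqR) a

/-! ### The literal binders `hded`, `hradα`, `hradβ` of `KContractE.holds_of_hyp` -/

section Literal

variable (P : Fin 3 → Ideal (Nodal.Overlap (OE A K) (alphaSq R q K u')))
  (hP0 : (P 0).comap (Nodal.toOverlapZero (OE A K) (alphaSq R q K u'))
    = HypE.PZero A hq hA K hK R hqR u' U hU)
  (hP1 : (P 1).comap (Nodal.toOverlapZero (OE A K) (alphaSq R q K u'))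
    = HypE.PInf A hq hA K hK R u' U hU)
  (hP2 : (P 2).comap (Nodal.toOverlapZero (OE A K) (alphaSq R q K u'))
    = HypE.PMid A hq hA K hK hζ R hqR u' U hU)

set_option maxHeartbeats 4000000 in
include hy hP0 hP1 hP2 hprime hcop hord hθ hfrob in
/-- **The binder `hded` of `KContractE.holds_of_hyp`** (`L := R * q`, `E := K`, `O := OE A K`,
`u := alphaSq R q K u'`). -/
theorem hded [IsDedekindDomain (Chart (OE A K) u' ⧸ Ideal.span {piC u' ϖ})] :
    ∀ i : Fin 3, IsDedekindDomain (Nodal.Chart (OE A K) (alphaSq R q K u') ⧸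
      (P i).comap (Nodal.toOverlapZero (OE A K) (alphaSq R q K u'))) := by
  obtain ⟨h0, h1, h2⟩ := dedekind A hq hA K hK hζ R hqR u' U hU hy hprime hcop hord hθ hfrob
  have key : ∀ i : Fin 3, i = 0 ∨ i = 1 ∨ i = 2 := by decide
  intro i
  rcases key i with rfl | rfl | rfl
  · rw [hP0]; exact h0
  · rw [hP1]; exact h1
  · rw [hP2]; exact h2

set_option maxHeartbeats 4000000 in
include hζ hy hwu hP0 hprime hcop hord hθ hfrob in
/-- **The binder `hradα` of `KContractE.holds_of_hyp`.** -/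
theorem hradα
    (φa₀ : Nodal.Chart (OE A K) (alphaHom R q K u') →+*
      Nodal.Chart (OE A K) (alphaSq R q K u'))
    (hφa₀ : ∀ x : Nodal.Chart (OE A K) (alphaHom R q K u'),
      ((φa₀ x : Nodal.Chart (OE A K) (alphaSq R q K u')) : LE (R * q * q) K)
        = alphaHom (R * q) q K (x : LE (R * q) K))
    (hnormal : IsIntegrallyClosed (Chart (OE A K) u' ⧸ Ideal.span {piC u' ϖ}))
    (hKF : ∀ r : Chart (OE A K) u', ∃ s : Chart (OE A K) u',
      rM r ^ q = qExpand (IsLocalRing.ResidueField (OE A K)) q (rM s)) :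
    ∀ c : Nodal.Chart (OE A K) (alphaSq R q K u'),
      ∃ r : Nodal.Chart (OE A K) (alphaHom R q K u'),
        c ^ q - φa₀ r ∈ (P 0).comap (Nodal.toOverlapZero (OE A K) (alphaSq R q K u')) := by
  intro c
  obtain ⟨r, hr⟩ := rad_alpha A hq hA K hK hζ R hqR u' U hU hy hprime hcop hord hθ hfrob hwu
    hnormal hKF c
  refine ⟨r, ?_⟩
  have e : φa₀ r = HypE.alphaC A K R u' r := Subtype.ext (hφa₀ r)
  rw [hP0, e]
  exact hr

set_option maxHeartbeats 4000000 in
include hζ hy hqR hwu hP1 hprime hcop hord hθ hfrob in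
/-- **The binder `hradβ` of `KContractE.holds_of_hyp`.** -/
theorem hradβ
    (φb₀ : Nodal.Chart (OE A K) (alphaHom R q K u') →+*
      Nodal.Chart (OE A K) (alphaSq R q K u'))
    (hφb₀ : ∀ x : Nodal.Chart (OE A K) (alphaHom R q K u'),
      ((φb₀ x : Nodal.Chart (OE A K) (alphaSq R q K u')) : LE (R * q * q) K)
        = betaHom (R * q) q K (x : LE (R * q) K))
    (hnormal : IsIntegrallyClosed (Chart (OE A K) u' ⧸ Ideal.span {piC u' ϖ}))
    (hKF : ∀ r : Chart (OE A K) u', ∃ s : Chart (OE A K) u',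
      rM r ^ q = qExpand (IsLocalRing.ResidueField (OE A K)) q (rM s)) :
    ∀ c : Nodal.Chart (OE A K) (alphaSq R q K u'),
      ∃ r : Nodal.Chart (OE A K) (alphaHom R q K u'),
        c ^ q - φb₀ r ∈ (P 1).comap (Nodal.toOverlapZero (OE A K) (alphaSq R q K u')) := by
  intro c
  obtain ⟨r, hr⟩ := rad_beta A hq hA K hK hζ R hqR u' U hU hy hprime hcop hord hθ hfrob hwu
    hnormal hKF c
  refine ⟨r, ?_⟩
  have e : φb₀ r = HypE.betaC A hq K R hqR u' hwu r := Subtype.ext (hφb₀ r)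
  rw [hP1, e]
  exact hr

end Literal

end Inst

end Fermat.Agent.S36.SqChart.RadE
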