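import Mathlib
import Fermat.Agent.S36.Haupt9.LevelTwo
import Fermat.Agent.S36.Haupt9.Fibre
import Fermat.Agent.S36.QFormal
import Fermat.Agent.S36.SqRankE
import Fermat.Agent.S36.SqInt
import Fermat.Agent.S34.Sat

/-!
# S36, C2 modular instance at `q = 2`: the coordinate binders of `MidVal.package_mid` for `u₉`

Level `R` with `9 ∣ R`, `¬ 2 ∣ R`; tower `LE R K → LE (R·2) K → LE (R·2·2) K`,
`α = SqRankE.alphaSq R 2 K` (`= α₂ ∘ α₁`), `β = SqRankE.betaSq R 2 K` (`= β₂ ∘ β₁`),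
`σ = HauptU.Plug.sigmaHom (R·2·2) K`, `N = 2 * 2`, coordinate `u' = Haupt9.u9E R K h9` with
integral model `U = Haupt9.u9 O` (chart zero), and `u'⁻¹ = s₉` with `U = posO O s9Z` (chart at
infinity).  This file discharges the coordinate-specific binders of `S36/MidVal.package_mid`
(and of `S36/MultPrimesGauss.package`), in their literal shapes:

* generic: `qExpand_mul_self_eq_pow` (two Frobenius steps), `theta_ne_zero_of_coeff`;
* any DVR `O`: `theta_rho_u9_ne_zero` (`hθ`), `qExpand_sq_rho_u9` (`hfrob` at `N = ℓ * ℓ`),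
  and the same for `s₉` (`theta_rho_s9_ne_zero`, `qExpand_sq_rho_s9`);
  `hord`, `hcop` are `Haupt9.order_rho_u9_ne_zero`, `Haupt9.isCoprime_order_rho_u9 N`
  (re-exported as `hord_u9`, `hcop_u9`, `hord_s9`, `hcop_s9`);
* `sigma_alphaSq`, `sigma_betaSq` : `σ (α x) = x`, `σ (β x) = x(q^{ℓ·ℓ})` (any `ℓ`);
* `hσu_u9`, `hσu_s9` : `σ (α u') = ι U`;
* `hσy_u9`, `hσy_s9` : `σ (β u') = ι (U(q^{ℓ·ℓ}))`;
* `hy_u9`, `hy_u9'`, `hy_s9`, `hy_s9'` : `β u'` is integral over `O[α u']` and conversely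
  (`ℓ = 2`, from the explicit modular equation `Φ₉` / `G₉` of `Haupt9/ModEq2`);
* `finite_u9E`, `finite_u9E_inv` : `LE R K` is finite over `K(u₉)`, `K(u₉⁻¹)`;
* `hprime_u9`, `hprime_s9` : `π` is prime in the level-`R` chart rings (`Haupt9/Fibre`);
* `coord9_zero`, `coord9_inf` : everything at once for `O = OE A K`, `A` over `2`.
-/

set_option autoImplicit false
set_option linter.unusedSectionVars false
set_option linter.unusedVariables false
set_option linter.style.haveILetI false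
set_option synthInstance.maxHeartbeats 400000

open ModularCurve Polynomial

noncomputable section

namespace Fermat.Agent.S36.SqChart.Coord9

open Fermat.Agent.S18.K1Defs Fermat.Agent.S18.K1Main Fermat.Agent.S30
open Fermat.Agent.S34.TwoPrimesRank Fermat.Agent.S34.HauptU.Plug Fermat.Agent.S34.TwoPrimesGauss
open Fermat.Agent.S34.HauptU.E Fermat.Agent.S36.Haupt9 Fermat.Agent.S36.SqRankE

local notation "Qb" => AlgebraicClosure ℚ

/-! ### Generic series lemmas -/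

section Series

variable {κ : Type*} [CommRing κ]

/-- `x(q^{ℓ·ℓ}) = (x(q^ℓ))(q^ℓ)`, for any instances. -/
theorem qExpand_mul_self (ℓ : ℕ) [NeZero ℓ] [NeZero (ℓ * ℓ)] (x : LaurentSeries κ) :
    qExpand κ (ℓ * ℓ) x = qExpand κ ℓ (qExpand κ ℓ x) := by
  rw [ModularCurve.qExpand_qExpand]

/-- **Two Frobenius steps**: `x(q^ℓ) = x^ℓ` implies `x(q^{ℓ·ℓ}) = x^{ℓ·ℓ}`. -/
theorem qExpand_mul_self_eq_pow (ℓ : ℕ) [NeZero ℓ] [NeZero (ℓ * ℓ)] {x : LaurentSeries κ}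
    (h : qExpand κ ℓ x = x ^ ℓ) : qExpand κ (ℓ * ℓ) x = x ^ (ℓ * ℓ) := by
  rw [qExpand_mul_self, h, map_pow, h, ← pow_mul]

/-- `θ x ≠ 0` as soon as some `n · xₙ` is nonzero. -/
theorem theta_ne_zero_of_coeff {x : LaurentSeries κ} (n : ℤ) (h : (n : κ) * x.coeff n ≠ 0) :
    QFormal.theta x ≠ 0 := fun h0 =>
  h (by rw [← QFormal.coeff_theta, h0, HahnSeries.coeff_zero])

/-- `coeffMap` commutes with `q ↦ q^N`. -/
theorem coeffMap_qExpand' {κ' : Type*} [CommRing κ'] (f : κ →+* κ') (N : ℕ) [NeZero N]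
    (x : LaurentSeries κ) : coeffMap f (qExpand κ N x) = qExpand κ' N (coeffMap f x) := by
  ext n
  by_cases hn : (N : ℤ) ∣ n
  · obtain ⟨m, rfl⟩ := hn
    rw [coeffMap_coeff, qExpand_coeff_mul, qExpand_coeff_mul, coeffMap_coeff]
  · rw [coeffMap_coeff, qExpand_coeff_of_not_dvd N _ hn, qExpand_coeff_of_not_dvd N _ hn,
      map_zero]

end Series

/-! ### The integral series: `hord`, `hcop`, `hθ`, `hfrob` at `N = ℓ * ℓ` -/

section IntSeries

variable {O : Type*} [CommRing O] [IsDomain O] [IsDiscreteValuationRing O]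

/-- `hord`, chart zero. -/
theorem hord_u9 : (GaussDVR.rho O (u9 O)).order ≠ 0 := order_rho_u9_ne_zero

/-- `hcop`, chart zero (any `N`). -/
theorem hcop_u9 (N : ℕ) : IsCoprime (GaussDVR.rho O (u9 O)).order (N : ℤ) :=
  isCoprime_order_rho_u9 N

theorem coeff_rho_u9_neg_one : (GaussDVR.rho O (u9 O)).coeff (-1) = 1 := by
  rw [rho_u9, coeff_u9_neg_one]

/-- `hθ`, chart zero: `θ(ū₉) ≠ 0` (leading term `q⁻¹`), in every residue characteristic. -/
theorem theta_rho_u9_ne_zero : QFormal.theta (GaussDVR.rho O (u9 O)) ≠ 0 := by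
  refine theta_ne_zero_of_coeff (-1) ?_
  rw [coeff_rho_u9_neg_one, mul_one, Int.cast_neg, Int.cast_one]
  exact neg_ne_zero.mpr one_ne_zero

/-- `hfrob` at `N = ℓ * ℓ`, chart zero. -/
theorem qExpand_sq_rho_u9 (ℓ : ℕ) [NeZero ℓ] [NeZero (ℓ * ℓ)] (hℓ : ℓ.Prime)
    [CharP (IsLocalRing.ResidueField O) ℓ] :
    qExpand (IsLocalRing.ResidueField O) (ℓ * ℓ) (GaussDVR.rho O (u9 O)) =
      GaussDVR.rho O (u9 O) ^ (ℓ * ℓ) :=
  qExpand_mul_self_eq_pow ℓ (qExpand_rho_u9 ℓ hℓ)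

/-- `hord`, chart at infinity. -/
theorem hord_s9 : (GaussDVR.rho O (posO O s9Z)).order ≠ 0 := order_rho_s9_ne_zero

/-- `hcop`, chart at infinity (any `N`). -/
theorem hcop_s9 (N : ℕ) : IsCoprime (GaussDVR.rho O (posO O s9Z)).order (N : ℤ) :=
  isCoprime_order_rho_s9 N

theorem coeff_rho_posO (a : PowerSeries ℤ) (n : ℕ) :
    (GaussDVR.rho O (posO O a)).coeff (n : ℤ) =
      Int.castRingHom (IsLocalRing.ResidueField O) (PowerSeries.coeff n a) := by
  rw [posO, rho_intO, coeffMap_coeff, PowerSeries.coeff_coe, if_neg (by omega),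
    Int.natAbs_natCast]

/-- `hθ`, chart at infinity: `θ(s̄₉) ≠ 0` (leading term `q`). -/
theorem theta_rho_s9_ne_zero : QFormal.theta (GaussDVR.rho O (posO O s9Z)) ≠ 0 := by
  refine theta_ne_zero_of_coeff 1 ?_
  have h := coeff_rho_posO (O := O) s9Z 1
  rw [Nat.cast_one] at h
  rw [h, coeff_one_s9Z, map_one, mul_one, Int.cast_one]
  exact one_ne_zero

/-- `hfrob` at `N = ℓ * ℓ`, chart at infinity. -/
theorem qExpand_sq_rho_s9 (ℓ : ℕ) [NeZero ℓ] [NeZero (ℓ * ℓ)] (hℓ : ℓ.Prime)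
    [CharP (IsLocalRing.ResidueField O) ℓ] :
    qExpand (IsLocalRing.ResidueField O) (ℓ * ℓ) (GaussDVR.rho O (posO O s9Z)) =
      GaussDVR.rho O (posO O s9Z) ^ (ℓ * ℓ) :=
  qExpand_mul_self_eq_pow ℓ (qExpand_rho_s9 ℓ hℓ)

end IntSeries

/-! ### The level-`R ℓ ℓ` tower -/

section Level

variable (R : ℕ) [NeZero R] (K : IntermediateField ℚ Qb)

/-- `LE R K` is finite over `K(u₉)`. -/
theorem finite_u9E (h9 : 9 ∣ R) :
    FiniteDimensional (IntermediateField.adjoin K {u9E R K h9}) (LE R K) := by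
  haveI : FiniteDimensional (IntermediateField.adjoin K {jE R K}) (LE R K) :=
    E2Deg.finite_LE R K
  exact finiteDimensional_u9E R K h9 (jE R K) rfl

/-- `LE R K` is finite over `K(u₉⁻¹)`. -/
theorem finite_u9E_inv (h9 : 9 ∣ R) :
    FiniteDimensional (IntermediateField.adjoin K {(u9E R K h9)⁻¹}) (LE R K) := by
  haveI := finite_u9E R K h9
  exact finite_adjoin_inv (E := K) (u9E R K h9)

section Sigma

variable (ℓ : ℕ) [NeZero ℓ]

/-- `σ (α₂ (α₁ x)) = x` as `q`-expansions. -/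
theorem sigma_alphaSq (x : LE R K) :
    sigmaHom (R * ℓ * ℓ) K (alphaSq R ℓ K x) = (x : LaurentSeries K) := by
  rw [alphaSq, RingHom.comp_apply, Fermat.Agent.S34.Sat.sigma_alpha,
    Fermat.Agent.S34.Sat.alphaHom_apply, coe_heckeAlphaBar]

theorem betaHom_apply' (M : ℕ) [NeZero M] (x : LE M K) :
    betaHom M ℓ K x = heckeBetaBar K M ℓ x := rfl

/-- `σ (β₂ (β₁ x)) = x(q^{ℓ·ℓ})` as `q`-expansions. -/
theorem sigma_betaSq [NeZero (ℓ * ℓ)] (x : LE R K) :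
    sigmaHom (R * ℓ * ℓ) K (betaSq R ℓ K x) = qExpand K (ℓ * ℓ) (x : LaurentSeries K) := by
  rw [sigmaHom_apply, betaSq, RingHom.comp_apply, betaHom_apply', coe_heckeBetaBar,
    betaHom_apply', coe_heckeBetaBar, qExpand_mul_self]

variable {O : Type} [CommRing O] [IsDomain O] [IsDiscreteValuationRing O]
  [Algebra O K] [IsFractionRing O K]

/-- `hσu`, chart zero. -/
theorem hσu_u9 (h9 : 9 ∣ R) :
    sigmaHom (R * ℓ * ℓ) K (alphaSq R ℓ K (u9E R K h9)) = GaussDVR.iota O K (u9 O) := by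
  rw [sigma_alphaSq]
  exact coe_u9E_eq_iota R K h9

/-- `hσu`, chart at infinity. -/
theorem hσu_s9 (h9 : 9 ∣ R) :
    sigmaHom (R * ℓ * ℓ) K (alphaSq R ℓ K (u9E R K h9)⁻¹) = GaussDVR.iota O K (posO O s9Z) := by
  rw [sigma_alphaSq]
  exact coe_s9E_eq_iota R K h9

/-- `hσy`, chart zero: `σ (β u') = ι (U(q^{ℓ·ℓ}))`. -/
theorem hσy_u9 [NeZero (ℓ * ℓ)] (h9 : 9 ∣ R) :
    sigmaHom (R * ℓ * ℓ) K (betaSq R ℓ K (u9E R K h9))
      = GaussDVR.iota O K (qExpand O (ℓ * ℓ) (u9 O)) := by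
  rw [sigma_betaSq, coe_u9E_eq_iota (O := O) R K h9]
  exact (coeffMap_qExpand' (algebraMap O K) (ℓ * ℓ) (u9 O)).symm

/-- `hσy`, chart at infinity. -/
theorem hσy_s9 [NeZero (ℓ * ℓ)] (h9 : 9 ∣ R) :
    sigmaHom (R * ℓ * ℓ) K (betaSq R ℓ K (u9E R K h9)⁻¹)
      = GaussDVR.iota O K (qExpand O (ℓ * ℓ) (posO O s9Z)) := by
  rw [sigma_betaSq]
  have h := coe_s9E_eq_iota (O := O) R K h9
  rw [s9E] at h
  rw [h]
  exact (coeffMap_qExpand' (algebraMap O K) (ℓ * ℓ) (posO O s9Z)).symm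

end Sigma

/-! ### `hy` : integrality between `α u'` and `β u'` at level `R · 2 · 2` -/

section Integral

variable {O : Type*} [CommRing O] [Algebra O K]
  [Algebra O (LE (R * 2) K)] [IsScalarTower O K (LE (R * 2) K)]
  [Algebra O (LE (R * 2 * 2) K)] [IsScalarTower O K (LE (R * 2 * 2) K)]

/-- `hy`, chart zero: `u₉(q⁴)` is integral over `O[u₉(q)]` at level `R · 2 · 2`. -/
theorem hy_u9 (h9 : 9 ∣ R) :
    IsIntegral (Algebra.adjoin O {alphaSq R 2 K (u9E R K h9)}) (betaSq R 2 K (u9E R K h9)) :=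
  SqInt.isIntegral_bb_of_aa (alphaHom (R * 2) 2 K) (betaHom (R * 2) 2 K)
    (SqInt.alpha_algebraMap 2 K (R * 2)) (SqInt.beta_algebraMap 2 K (R * 2))
    (alphaHom R 2 K (u9E R K h9)) (betaHom R 2 K (u9E R K h9))
    (SqInt.alpha_beta_comm R 2 K (u9E R K h9)) (hwu_u9E R K h9)

/-- Chart zero: `u₉(q)` is integral over `O[u₉(q⁴)]`. -/
theorem hy_u9' (h9 : 9 ∣ R) :
    IsIntegral (Algebra.adjoin O {betaSq R 2 K (u9E R K h9)}) (alphaSq R 2 K (u9E R K h9)) :=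
  SqInt.isIntegral_aa_of_bb (alphaHom (R * 2) 2 K) (betaHom (R * 2) 2 K)
    (SqInt.alpha_algebraMap 2 K (R * 2)) (SqInt.beta_algebraMap 2 K (R * 2))
    (alphaHom R 2 K (u9E R K h9)) (betaHom R 2 K (u9E R K h9))
    (SqInt.alpha_beta_comm R 2 K (u9E R K h9)) (hwu_u9E' R K h9)

/-- `hy`, chart at infinity: `s₉(q⁴)` is integral over `O[s₉(q)]`. -/
theorem hy_s9 (h9 : 9 ∣ R) :
    IsIntegral (Algebra.adjoin O {alphaSq R 2 K (u9E R K h9)⁻¹})
      (betaSq R 2 K (u9E R K h9)⁻¹) :=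
  SqInt.isIntegral_bb_of_aa (alphaHom (R * 2) 2 K) (betaHom (R * 2) 2 K)
    (SqInt.alpha_algebraMap 2 K (R * 2)) (SqInt.beta_algebraMap 2 K (R * 2))
    (alphaHom R 2 K (u9E R K h9)⁻¹) (betaHom R 2 K (u9E R K h9)⁻¹)
    (SqInt.alpha_beta_comm R 2 K (u9E R K h9)⁻¹) (hwu_u9E_inv R K h9)

/-- Chart at infinity: `s₉(q)` is integral over `O[s₉(q⁴)]`. -/
theorem hy_s9' (h9 : 9 ∣ R) :
    IsIntegral (Algebra.adjoin O {betaSq R 2 K (u9E R K h9)⁻¹})
      (alphaSq R 2 K (u9E R K h9)⁻¹) :=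
  SqInt.isIntegral_aa_of_bb (alphaHom (R * 2) 2 K) (betaHom (R * 2) 2 K)
    (SqInt.alpha_algebraMap 2 K (R * 2)) (SqInt.beta_algebraMap 2 K (R * 2))
    (alphaHom R 2 K (u9E R K h9)⁻¹) (betaHom R 2 K (u9E R K h9)⁻¹)
    (SqInt.alpha_beta_comm R 2 K (u9E R K h9)⁻¹) (hwu_u9E_inv' R K h9)

end Integral

/-! ### The arithmetic instance `O = A ∩ K`, `A` over `2` -/

section Arith

variable (A : ValuationSubring Qb) (hA : A.LiesOverPrime 2) (h9 : 9 ∣ R) (h2R : ¬ 2 ∣ R)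
  [FiniteDimensional ℚ K] [IsDiscreteValuationRing (OE A K)]
  (z : Qb) (hz : IsPrimitiveRoot z R) (hzK : z ∈ K) (π : OE A K) (hπ : Irreducible π)

include hA h2R hz hzK hπ in
/-- `hprime`, chart zero: `π` is a prime element of the level-`R` chart ring of `u₉`. -/
theorem hprime_u9 :
    letI := algebraOL (OE A K) K (LE R K)
    Prime (piC (u9E R K h9) π) := by
  haveI : Fact (Nat.Prime 2) := ⟨Nat.prime_two⟩
  exact (Fibre.prime_u9 A R h9 h2R hA K z hz hzK π hπ).1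

include hA h2R hz hzK hπ in
/-- `hprime`, chart at infinity. -/
theorem hprime_s9 :
    letI := algebraOL (OE A K) K (LE R K)
    Prime (piC (u9E R K h9)⁻¹ π) := by
  haveI : Fact (Nat.Prime 2) := ⟨Nat.prime_two⟩
  exact (Fibre.prime_u9 A R h9 h2R hA K z hz hzK π hπ).2

include hA in
/-- The residue field of `A ∩ K` has characteristic `2`. -/
theorem charP_two : CharP (IsLocalRing.ResidueField (OE A K)) 2 :=
  Fermat.Agent.S34.Sat.charP_residue_OE' A K Nat.prime_two hA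

include hA h2R hz hzK hπ in
/-- **All coordinate binders of `MidVal.package_mid` at `q = 2`, chart zero**
(`u' = u₉`, `U = u9 (OE A K)`, `N = 2 * 2`): `hσu`, `hord`, `hcop`, `hθ`, `hfrob`, `hprime`,
`hy`, and the finiteness of `LE R K` over `K(u₉)`. -/
theorem coord9_zero :
    letI := algebraOL (OE A K) K (LE R K)
    letI := algebraOL (OE A K) K (LE (R * 2 * 2) K)
    sigmaHom (R * 2 * 2) K (alphaSq R 2 K (u9E R K h9))
        = GaussDVR.iota (OE A K) K (u9 (OE A K)) ∧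
      (GaussDVR.rho (OE A K) (u9 (OE A K))).order ≠ 0 ∧
      IsCoprime (GaussDVR.rho (OE A K) (u9 (OE A K))).order ((2 * 2 : ℕ) : ℤ) ∧
      QFormal.theta (GaussDVR.rho (OE A K) (u9 (OE A K))) ≠ 0 ∧
      qExpand (IsLocalRing.ResidueField (OE A K)) (2 * 2) (GaussDVR.rho (OE A K) (u9 (OE A K)))
        = GaussDVR.rho (OE A K) (u9 (OE A K)) ^ (2 * 2) ∧
      Prime (piC (u9E R K h9) π) ∧
      IsIntegral (Algebra.adjoin (OE A K) {alphaSq R 2 K (u9E R K h9)})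
        (betaSq R 2 K (u9E R K h9)) ∧
      FiniteDimensional (IntermediateField.adjoin K {u9E R K h9}) (LE R K) := by
  letI := algebraOL (OE A K) K (LE R K)
  letI := algebraOL (OE A K) K (LE (R * 2) K)
  haveI := isScalarTower_OL (OE A K) K (LE (R * 2) K)
  letI := algebraOL (OE A K) K (LE (R * 2 * 2) K)
  haveI := isScalarTower_OL (OE A K) K (LE (R * 2 * 2) K)
  haveI := charP_two K A hA
  exact ⟨hσu_u9 R K 2 h9, hord_u9, hcop_u9 _, theta_rho_u9_ne_zero,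
    qExpand_sq_rho_u9 2 Nat.prime_two, hprime_u9 R K A hA h9 h2R z hz hzK π hπ,
    hy_u9 R K h9, finite_u9E R K h9⟩

include hA h2R hz hzK hπ in
/-- **All coordinate binders of `MidVal.package_mid` at `q = 2`, chart at infinity**
(`u' = u₉⁻¹`, `U = posO (OE A K) s9Z`, `N = 2 * 2`). -/
theorem coord9_inf :
    letI := algebraOL (OE A K) K (LE R K)
    letI := algebraOL (OE A K) K (LE (R * 2 * 2) K)
    sigmaHom (R * 2 * 2) K (alphaSq R 2 K (u9E R K h9)⁻¹)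
        = GaussDVR.iota (OE A K) K (posO (OE A K) s9Z) ∧
      (GaussDVR.rho (OE A K) (posO (OE A K) s9Z)).order ≠ 0 ∧
      IsCoprime (GaussDVR.rho (OE A K) (posO (OE A K) s9Z)).order ((2 * 2 : ℕ) : ℤ) ∧
      QFormal.theta (GaussDVR.rho (OE A K) (posO (OE A K) s9Z)) ≠ 0 ∧
      qExpand (IsLocalRing.ResidueField (OE A K)) (2 * 2)
          (GaussDVR.rho (OE A K) (posO (OE A K) s9Z))
        = GaussDVR.rho (OE A K) (posO (OE A K) s9Z) ^ (2 * 2) ∧
      Prime (piC (u9E R K h9)⁻¹ π) ∧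
      IsIntegral (Algebra.adjoin (OE A K) {alphaSq R 2 K (u9E R K h9)⁻¹})
        (betaSq R 2 K (u9E R K h9)⁻¹) ∧
      FiniteDimensional (IntermediateField.adjoin K {(u9E R K h9)⁻¹}) (LE R K) := by
  letI := algebraOL (OE A K) K (LE R K)
  letI := algebraOL (OE A K) K (LE (R * 2) K)
  haveI := isScalarTower_OL (OE A K) K (LE (R * 2) K)
  letI := algebraOL (OE A K) K (LE (R * 2 * 2) K)
  haveI := isScalarTower_OL (OE A K) K (LE (R * 2 * 2) K)
  haveI := charP_two K A hA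
  exact ⟨hσu_s9 R K 2 h9, hord_s9, hcop_s9 _, theta_rho_s9_ne_zero,
    qExpand_sq_rho_s9 2 Nat.prime_two, hprime_s9 R K A hA h9 h2R z hz hzK π hπ,
    hy_s9 R K h9, finite_u9E_inv R K h9⟩

end Arith

end Level

end Fermat.Agent.S36.SqChart.Coord9
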