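import Mathlib
import Fermat.Agent.S36.SqChart.HypBridge
import Fermat.Agent.S36.SqInstW

/-!
# S36, C2 modular instance: `SqChart/HypE` and `SqInstW` name the same objects

Both `SqChart/HypE.hyp` (helper111, one call of `HypGauss.hyp`) and `SqInstW.hypE` (helper198, one
call of `SqAbsW.hyp_w`) produce `SqExit.Hyp` over `𝒪_K = OE A K` at the `E`-level objects of
`SqChart/InstA`.  This file identifies their NAMED abbreviations, one `rw`-able equation each:

* `alphaC_eq`  : `HypE.alphaC = SqInstW.alphaC`;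
* `betaC_eq`   : `HypE.betaC  = SqInstW.betaC`;
* `pInf_eq`    : `HypE.pInf   = ker SqInstW.redInf1`;
* `pZero_eq`   : `HypE.pZero  = ker SqInstW.redZero1`;
* `PInf_eq`    : `HypE.PInf   = ker SqInstW.redInf2`;
* `PZero_eq`   : `HypE.PZero  = ker SqInstW.redZero2`;
* `PMid_eq`    : `HypE.PMid   = SqGlue.centreM SqInstW.tauMid SqInstW.lamMid`;
* `hwu_iff`    : the two integrality hypotheses (`w₁ (α₁ u')` vs `β₁ u'`) are the same statement;
* `hyp_iff`    : the two `SqExit.Hyp` statements are equivalent;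
* `hypW`       : the conclusion of `SqInstW.hypE` from the hypotheses of `HypE.hyp`
  (no reverse integrality hypothesis `hwu'`).
-/

set_option autoImplicit false
set_option linter.unusedSectionVars false
set_option linter.unusedVariables false
set_option linter.style.haveILetI false
set_option synthInstance.maxHeartbeats 400000

open ModularCurve Polynomial

noncomputable section

namespace Fermat.Agent.S36.SqChart.HypBridgeW

open Fermat.Agent.S30
open Fermat.Agent.S18.K1Defs Fermat.Agent.S18.K1Main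
open Fermat.Agent.S34.TwoPrimesGauss Fermat.Agent.S34.TwoPrimesRank
open Fermat.Agent.S34.HauptU.Plug
open Fermat.Agent.S36 Fermat.Agent.S36.SqChart Fermat.Agent.S36.MultPrimesGauss
open Fermat.Agent.S36.CycloBase Fermat.Agent.S36.SqRankE Fermat.Agent.S36.SqChart.InstA

local notation "Qb" => AlgebraicClosure ℚ

attribute [local instance] InstA.algL InstA.towerL

variable (A : ValuationSubring Qb) {q : ℕ} (hq : q.Prime) [NeZero q] (hA : A.LiesOverPrime q)
  (K : IntermediateField ℚ Qb) [FiniteDimensional ℚ K]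
  (hK : A.inertiaSubgroupIn ℚ ≤ K.fixingSubgroup) {ζ : Qb} (hζ : IsPrimitiveRoot ζ q)
  [IsDiscreteValuationRing (OE A K)] [IsDiscreteValuationRing (OE A (cyclo K ζ))]
  (R : ℕ) [NeZero R] (hqR : ¬ q ∣ R)
  (u' : LE R K) (U : LaurentSeries (OE A K))
  (hU : (u' : LaurentSeries K) = GaussDVR.iota (OE A K) K U)

/-- The integrality hypothesis of `HypE.hyp` (`w₁ (α₁ u')`) and the one of `SqInstW.hypE`
(`β₁ u'`) are the same statement. -/
theorem hwu_iff :
    IsIntegral (Algebra.adjoin (OE A K) {alphaHom R q K u'})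
        (wHom R q K hq hqR (alphaHom R q K u'))
      ↔ IsIntegral (Algebra.adjoin (OE A K) {alphaHom R q K u'}) (betaHom R q K u') := by
  rw [wHom_alpha]
  exact Iff.rfl

/-- `HypE.alphaC = SqInstW.alphaC`. -/
theorem alphaC_eq : HypE.alphaC (q := q) A K R u' = SqInstW.alphaC (q := q) A K R u' :=
  HypBridge.alphaC_eq (q := q) A K R u'

/-- `HypE.betaC = SqInstW.betaC` (for any proofs of the two integrality hypotheses). -/
theorem betaC_eq
    (hwu : IsIntegral (Algebra.adjoin (OE A K) {alphaHom R q K u'})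
      (wHom R q K hq hqR (alphaHom R q K u')))
    (hwuβ : IsIntegral (Algebra.adjoin (OE A K) {alphaHom R q K u'}) (betaHom R q K u')) :
    HypE.betaC A hq K R hqR u' hwu = SqInstW.betaC (q := q) A K R u' hwuβ :=
  HypBridge.betaC_eq A hq K R hqR u' hwu _ hwuβ

/-- `HypE.pInf = ker SqInstW.redInf1`. -/
theorem pInf_eq :
    HypE.pInf A hq hA K hK R u' U hU = RingHom.ker (SqInstW.redInf1 A hq hA K hK R u' U hU) :=
  HypBridge.pInf_eq A hq hA K hK R u' U hU _ _ _ _

/-- `HypE.pZero = ker SqInstW.redZero1`. -/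
theorem pZero_eq :
    HypE.pZero A hq hA K hK R hqR u' U hU
      = RingHom.ker (SqInstW.redZero1 A hq hA K hK R hqR u' U hU) :=
  HypBridge.pZero_eq A hq hA K hK R hqR u' U hU _ _ _ _ _

/-- `HypE.PInf = ker SqInstW.redInf2`. -/
theorem PInf_eq :
    HypE.PInf A hq hA K hK R u' U hU = RingHom.ker (SqInstW.redInf2 A hq hA K hK R u' U hU) :=
  HypBridge.PInf_eq A hq hA K hK R u' U hU _ _ _ _ _

/-- `HypE.PZero = ker SqInstW.redZero2`. -/
theorem PZero_eq :
    HypE.PZero A hq hA K hK R hqR u' U hU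
      = RingHom.ker (SqInstW.redZero2 A hq hA K hK R hqR u' U hU) :=
  HypBridge.PZero_eq A hq hA K hK R hqR u' U hU _ _ _ _ _ _ _

/-- `HypE.PMid = SqGlue.centreM SqInstW.tauMid SqInstW.lamMid`. -/
theorem PMid_eq :
    HypE.PMid A hq hA K hK hζ R hqR u' U hU
      = SqGlue.centreM (SqInstW.tauMid A hq hA K hK hζ R hqR u' U hU)
          (SqInstW.lamMid A hq K hζ) :=
  HypBridge.PMid_eq A hq hA K hK hζ R hqR u' U hU _ _ _ _ _ _

set_option maxHeartbeats 1600000 in
/-- The `SqExit.Hyp` of `HypE.hyp` and the `SqExit.Hyp` of `SqInstW.hypE` are equivalent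
statements (for any proofs of the two integrality hypotheses, any `π`, any `k`). -/
theorem hyp_iff
    (hwu : IsIntegral (Algebra.adjoin (OE A K) {alphaHom R q K u'})
      (wHom R q K hq hqR (alphaHom R q K u')))
    (hwuβ : IsIntegral (Algebra.adjoin (OE A K) {alphaHom R q K u'}) (betaHom R q K u'))
    (π1 : Chart (OE A K) (alphaHom R q K u')) (k : ℕ) :
    SqExit.Hyp (HypE.alphaC (q := q) A K R u') (HypE.betaC A hq K R hqR u' hwu) π1
        (HypE.pInf A hq hA K hK R u' U hU) (HypE.pZero A hq hA K hK R hqR u' U hU)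
        (HypE.PInf A hq hA K hK R u' U hU) (HypE.PZero A hq hA K hK R hqR u' U hU)
        (HypE.PMid A hq hA K hK hζ R hqR u' U hU) k
      ↔ SqExit.Hyp (SqInstW.alphaC (q := q) A K R u')
        (SqInstW.betaC (q := q) A K R u' hwuβ) π1
        (RingHom.ker (SqInstW.redInf1 A hq hA K hK R u' U hU))
        (RingHom.ker (SqInstW.redZero1 A hq hA K hK R hqR u' U hU))
        (RingHom.ker (SqInstW.redInf2 A hq hA K hK R u' U hU))
        (RingHom.ker (SqInstW.redZero2 A hq hA K hK R hqR u' U hU))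
        (SqGlue.centreM (SqInstW.tauMid A hq hA K hK hζ R hqR u' U hU)
          (SqInstW.lamMid A hq K hζ)) k :=
  ⟨fun h => HypBridge.hyp_congr h (alphaC_eq (q := q) A K R u')
      (betaC_eq A hq K R hqR u' hwu hwuβ)
      (pInf_eq A hq hA K hK R u' U hU) (pZero_eq A hq hA K hK R hqR u' U hU)
      (PInf_eq A hq hA K hK R u' U hU) (PZero_eq A hq hA K hK R hqR u' U hU)
      (PMid_eq A hq hA K hK hζ R hqR u' U hU),
    fun h => HypBridge.hyp_congr h (alphaC_eq (q := q) A K R u').symm
      (betaC_eq A hq K R hqR u' hwu hwuβ).symm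
      (pInf_eq A hq hA K hK R u' U hU).symm (pZero_eq A hq hA K hK R hqR u' U hU).symm
      (PInf_eq A hq hA K hK R u' U hU).symm (PZero_eq A hq hA K hK R hqR u' U hU).symm
      (PMid_eq A hq hA K hK hζ R hqR u' U hU).symm⟩

include hK hU in
set_option maxHeartbeats 1600000 in
/-- **The conclusion of `SqInstW.hypE` from the hypotheses of `HypE.hyp`**: only ONE integrality
hypothesis (`β₁ u'` integral over `𝒪_K[α₁ u']`; no reverse hypothesis). -/
theorem hypW
    (hwuβ : IsIntegral (Algebra.adjoin (OE A K) {alphaHom R q K u'}) (betaHom R q K u'))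
    [FiniteDimensional (IntermediateField.adjoin K {u'}) (LE R K)]
    (hprime : Prime (piC u' ((q : ℕ) : OE A K)))
    (hcop : IsCoprime (GaussDVR.rho (OE A K) U).order ((q : ℕ) : ℤ))
    (hord : (GaussDVR.rho (OE A K) U).order ≠ 0)
    (hθ : QFormal.theta (GaussDVR.rho (OE A K) U) ≠ 0)
    (hfrob : qExpand (IsLocalRing.ResidueField (OE A K)) q (GaussDVR.rho (OE A K) U)
      = GaussDVR.rho (OE A K) U ^ q) :
    SqExit.Hyp (SqInstW.alphaC (q := q) A K R u') (SqInstW.betaC (q := q) A K R u' hwuβ)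
      (piC (alphaHom R q K u') ((q : ℕ) : OE A K))
      (RingHom.ker (SqInstW.redInf1 A hq hA K hK R u' U hU))
      (RingHom.ker (SqInstW.redZero1 A hq hA K hK R hqR u' U hU))
      (RingHom.ker (SqInstW.redInf2 A hq hA K hK R u' U hU))
      (RingHom.ker (SqInstW.redZero2 A hq hA K hK R hqR u' U hU))
      (SqGlue.centreM (SqInstW.tauMid A hq hA K hK hζ R hqR u' U hU)
        (SqInstW.lamMid A hq K hζ)) (q - 1) :=
  HypBridge.hyp_congr
    (HypE.hyp A hq hA K hK hζ R hqR u' U hU ((hwu_iff A hq K R hqR u').2 hwuβ) hprime hcop hord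
      hθ hfrob)
    (alphaC_eq (q := q) A K R u') (betaC_eq A hq K R hqR u' _ hwuβ)
    (pInf_eq A hq hA K hK R u' U hU) (pZero_eq A hq hA K hK R hqR u' U hU)
    (PInf_eq A hq hA K hK R u' U hU) (PZero_eq A hq hA K hK R hqR u' U hU)
    (PMid_eq A hq hA K hK hζ R hqR u' U hU)

end Fermat.Agent.S36.SqChart.HypBridgeW
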