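import Mathlib
import Fermat.Agent.S36.SqChart.RadE
import Fermat.Agent.S36.SqChart.Coord9
import Fermat.Agent.S36.StableBaseKF

/-!
# S36, C2 modular instance at `q = 2`: `hded`, `hradα`, `hradβ` for `u₉`

`SqChart/RadE` (coordinate-generic, any prime `q`) specialised to `q = 2`,
`u' = Haupt9.u9E R K h9` (`9 ∣ R`, `2 ∤ R`), `U = u9 (OE A K)`, with EVERY coordinate hypothesis
discharged:

* `hy`, `hprime`, `hcop`, `hord`, `hθ`, `hfrob`, finiteness : `SqChart/Coord9.coord9_zero`;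
* `hwu` : `Haupt9.hwu_u9E`;
* `(N)` the special fibre of the level-`R` chart of `u₉` is a Dedekind domain
  (`Haupt9/Fibre.dedekind_u9`), hence integrally closed;
* `(KF)` Frobenius-stability of the reduced level-`R` chart ring
  (`StableBase.hKF_redM_of_coeffEmb` at `x₀ = u9 ℚ`), for `K` stable under a Frobenius `φ` at `A`.

Exits (family 1: `InstA.algL` / `InstA.towerL`, literal objects of `SqChart/HypE`):

* `hKF_u9`, `dedekind_base_u9`, `normal_base_u9` : the two coordinate facts `(KF)`, `(N)`;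
* `dedekind_u9` : the three quotients `B2 ⧸ PZero`, `B2 ⧸ PInf`, `B2 ⧸ PMid` are Dedekind;
* `rad_alpha_u9`, `rad_beta_u9` : `c ^ 2 ≡ α r mod PZero`, `c ^ 2 ≡ β r mod PInf`;
* `hded_u9`, `hradα_u9`, `hradβ_u9` : the literal binders of `KContractE.holds_of_hyp` at `q = 2`
  (primes `P` of the overlap ring with the comap-zero identities);
* `hded_chart_u9`, `hradα_chart_u9`, `hradβ_chart_u9` : the chart-prime forms (binders of
  `KInst9.holds_of_chart_two`): any names `Pc i` of the three `HypE` primes.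
-/

set_option autoImplicit false
set_option linter.unusedSectionVars false
set_option linter.unusedVariables false
set_option linter.style.haveILetI false
set_option synthInstance.maxHeartbeats 400000

open ModularCurve Polynomial

noncomputable section

namespace Fermat.Agent.S36.SqChart.Rad9

open Fermat.Agent.S30 Fermat.Agent.S30.CSide Fermat.Agent.S34
open Fermat.Agent.S18.K1Defs Fermat.Agent.S18.K1Main
open Fermat.Agent.S34.TwoPrimesGauss Fermat.Agent.S34.TwoPrimesRank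
open Fermat.Agent.S34.HauptU.Plug
open Fermat.Agent.S36.SqChart Fermat.Agent.S36.MultPrimesGauss Fermat.Agent.S36.CycloBase
open Fermat.Agent.S36.SqRankE Fermat.Agent.S36.SqChart.InstA
open Fermat.Agent.S36.Haupt9

local notation "Qb" => AlgebraicClosure ℚ
local notation "Gq" => (AlgebraicClosure ℚ ≃ₐ[ℚ] AlgebraicClosure ℚ)

attribute [local instance] InstA.algL InstA.towerL

section Inst

variable (A : ValuationSubring Qb) (hq : Nat.Prime 2) (hA : A.LiesOverPrime 2)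
  (K : IntermediateField ℚ Qb) [FiniteDimensional ℚ K]
  (hK : A.inertiaSubgroupIn ℚ ≤ K.fixingSubgroup) {ζ : Qb} (hζ : IsPrimitiveRoot ζ 2)
  [IsDiscreteValuationRing (OE A K)] [IsDiscreteValuationRing (OE A (cyclo K ζ))]
  (R : ℕ) [NeZero R] (h9 : 9 ∣ R) (h2R : ¬ 2 ∣ R)
  (z : Qb) (hz : IsPrimitiveRoot z R) (hzK : z ∈ K)
  (hU : ((u9E R K h9 : LE R K) : LaurentSeries K) = GaussDVR.iota (OE A K) K (u9 (OE A K)))
  {φ : Gq} (hφ : A.IsFrobeniusAt φ 2) (hst : Fermat.Agent.S36.StableBase.Stable K φ)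

/-- `u₉` has rational `q`-expansion. -/
theorem coe_u9E_eq_coeffEmb :
    ((u9E R K h9 : LE R K) : LaurentSeries K) = coeffEmb K (u9 ℚ) := by
  rw [coe_u9E, coeffEmb_u9]

/-- `hwu` at level `R·2` in the `wHom` form (the `hwu` of `HypE.betaC`). -/
theorem hwu_u9 : IsIntegral (Algebra.adjoin (OE A K) {alphaHom R 2 K (u9E R K h9)})
    (wHom R 2 K hq h2R (alphaHom R 2 K (u9E R K h9))) := by
  rw [wHom_alpha]
  exact hwu_u9E R K h9

set_option maxHeartbeats 4000000 in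
include hφ hst in
/-- **`(KF)` at `u₉`, `q = 2`**: Frobenius-stability of the reduced level-`R` chart ring, in the
literal `redM` form of `RadE.hradα`, `RadE.hradβ`. -/
theorem hKF_u9 :
    ∀ r : Chart (OE A K) (u9E R K h9), ∃ s : Chart (OE A K) (u9E R K h9),
      redM ((2 : ℕ) : OE A K) (irreducible_q A hq hA K hK) (alphaSq R 2 K)
          (alphaSq_algebraMap R 2 K (O := OE A K)) (sigmaHom (R * 2 * 2) K)
          (sigmaHom_algebraMap (R * 2 * 2) K (O := OE A K))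
          (sigmaHom_mem_fracField (R * 2 * 2) K A) (u9E R K h9) (u9 (OE A K))
          (sigma_u A K R (u9E R K h9) (u9 (OE A K)) hU) r ^ 2
        = qExpand (IsLocalRing.ResidueField (OE A K)) 2
            (redM ((2 : ℕ) : OE A K) (irreducible_q A hq hA K hK) (alphaSq R 2 K)
              (alphaSq_algebraMap R 2 K (O := OE A K)) (sigmaHom (R * 2 * 2) K)
              (sigmaHom_algebraMap (R * 2 * 2) K (O := OE A K))
              (sigmaHom_mem_fracField (R * 2 * 2) K A) (u9E R K h9) (u9 (OE A K))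
              (sigma_u A K R (u9E R K h9) (u9 (OE A K)) hU) s) :=
  Fermat.Agent.S36.StableBase.hKF_redM_of_coeffEmb A 2 hq hA hφ hst R
    ((2 : ℕ) : OE A K) (irreducible_q A hq hA K hK) (alphaSq R 2 K)
    (alphaSq_algebraMap R 2 K (O := OE A K)) (sigmaHom (R * 2 * 2) K)
    (sigmaHom_algebraMap (R * 2 * 2) K (O := OE A K))
    (sigmaHom_mem_fracField (R * 2 * 2) K A) (u9E R K h9) (u9 (OE A K))
    (sigma_u A K R (u9E R K h9) (u9 (OE A K)) hU) (InstA.sigma_alphaSq K R) (u9 ℚ)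
    (coe_u9E_eq_coeffEmb K R h9)

include hq hA hK h2R hz hzK in
/-- **`(N)` at `u₉`, `q = 2`**: the special fibre of the level-`R` chart ring of `u₉` is a
Dedekind domain. -/
theorem dedekind_base_u9 :
    IsDedekindDomain (Chart (OE A K) (u9E R K h9) ⧸
      Ideal.span {piC (u9E R K h9) ((2 : ℕ) : OE A K)}) := by
  haveI : Fact (Nat.Prime 2) := ⟨hq⟩
  exact (Fibre.dedekind_u9 A R h9 h2R hA K z hz hzK ((2 : ℕ) : OE A K)
    (irreducible_q A hq hA K hK)).1

include hq hA hK h2R hz hzK in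
/-- `(N)` in the `hnormal` form. -/
theorem normal_base_u9 :
    IsIntegrallyClosed (Chart (OE A K) (u9E R K h9) ⧸
      Ideal.span {piC (u9E R K h9) ((2 : ℕ) : OE A K)}) := by
  haveI := dedekind_base_u9 A hq hA K hK R h9 h2R z hz hzK
  infer_instance

set_option maxHeartbeats 4000000 in
include hz hzK in
/-- **The three components of the level-`R·2·2` chart of `u₉` have Dedekind coordinate rings.** -/
theorem dedekind_u9 :
    IsDedekindDomain (HypE.B2 A K R (u9E R K h9) (q := 2) ⧸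
        HypE.PZero A hq hA K hK R h2R (u9E R K h9) (u9 (OE A K)) hU) ∧
      IsDedekindDomain (HypE.B2 A K R (u9E R K h9) (q := 2) ⧸
        HypE.PInf A hq hA K hK R (u9E R K h9) (u9 (OE A K)) hU) ∧
      IsDedekindDomain (HypE.B2 A K R (u9E R K h9) (q := 2) ⧸
        HypE.PMid A hq hA K hK hζ R h2R (u9E R K h9) (u9 (OE A K)) hU) := by
  have hc := Coord9.coord9_zero R K A hA h9 h2R z hz hzK ((2 : ℕ) : OE A K)
    (irreducible_q A hq hA K hK)
  haveI : FiniteDimensional (IntermediateField.adjoin K {u9E R K h9}) (LE R K) :=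
    Coord9.finite_u9E R K h9
  haveI := dedekind_base_u9 A hq hA K hK R h9 h2R z hz hzK
  exact RadE.dedekind A hq hA K hK hζ R h2R (u9E R K h9) (u9 (OE A K)) hU
    (Coord9.hy_u9 R K h9) hc.2.2.2.2.2.1 hc.2.2.1 hc.2.1 hc.2.2.2.1 hc.2.2.2.2.1

set_option maxHeartbeats 4000000 in
include hζ hz hzK hφ hst in
/-- **`hradα` at the `HypE` primes, `u₉`, `q = 2`**: `c ^ 2 ≡ α r` modulo `P0`. -/
theorem rad_alpha_u9 (c : HypE.B2 A K R (u9E R K h9) (q := 2)) :
    ∃ r : HypE.B1 A K R (u9E R K h9) (q := 2),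
      c ^ 2 - HypE.alphaC A K R (u9E R K h9) r
        ∈ HypE.PZero A hq hA K hK R h2R (u9E R K h9) (u9 (OE A K)) hU := by
  have hc := Coord9.coord9_zero R K A hA h9 h2R z hz hzK ((2 : ℕ) : OE A K)
    (irreducible_q A hq hA K hK)
  haveI : FiniteDimensional (IntermediateField.adjoin K {u9E R K h9}) (LE R K) :=
    Coord9.finite_u9E R K h9
  exact RadE.rad_alpha A hq hA K hK hζ R h2R (u9E R K h9) (u9 (OE A K)) hU
    (Coord9.hy_u9 R K h9) hc.2.2.2.2.2.1 hc.2.2.1 hc.2.1 hc.2.2.2.1 hc.2.2.2.2.1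
    (hwu_u9 A hq K R h9 h2R) (normal_base_u9 A hq hA K hK R h9 h2R z hz hzK)
    (hKF_u9 A hq hA K hK R h9 hU hφ hst) c

set_option maxHeartbeats 4000000 in
include hζ hz hzK hφ hst in
/-- **`hradβ` at the `HypE` primes, `u₉`, `q = 2`**: `c ^ 2 ≡ β r` modulo `P∞`. -/
theorem rad_beta_u9 (c : HypE.B2 A K R (u9E R K h9) (q := 2)) :
    ∃ r : HypE.B1 A K R (u9E R K h9) (q := 2),
      c ^ 2 - HypE.betaC A hq K R h2R (u9E R K h9) (hwu_u9 A hq K R h9 h2R) r
        ∈ HypE.PInf A hq hA K hK R (u9E R K h9) (u9 (OE A K)) hU := by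
  have hc := Coord9.coord9_zero R K A hA h9 h2R z hz hzK ((2 : ℕ) : OE A K)
    (irreducible_q A hq hA K hK)
  haveI : FiniteDimensional (IntermediateField.adjoin K {u9E R K h9}) (LE R K) :=
    Coord9.finite_u9E R K h9
  exact RadE.rad_beta A hq hA K hK hζ R h2R (u9E R K h9) (u9 (OE A K)) hU
    (Coord9.hy_u9 R K h9) hc.2.2.2.2.2.1 hc.2.2.1 hc.2.1 hc.2.2.2.1 hc.2.2.2.2.1
    (hwu_u9 A hq K R h9 h2R) (normal_base_u9 A hq hA K hK R h9 h2R z hz hzK)
    (hKF_u9 A hq hA K hK R h9 hU hφ hst) c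

/-! ### Chart-prime forms (binders of `KInst9.holds_of_chart_two`) -/

set_option maxHeartbeats 4000000 in
include hz hzK in
/-- **`hded` at `u₉`, `q = 2`, chart-prime form**: any names `Pc i` of the three `HypE` primes. -/
theorem hded_chart_u9 (Pc : Fin 3 → Ideal (HypE.B2 A K R (u9E R K h9) (q := 2)))
    (h0 : Pc 0 = HypE.PZero A hq hA K hK R h2R (u9E R K h9) (u9 (OE A K)) hU)
    (h1 : Pc 1 = HypE.PInf A hq hA K hK R (u9E R K h9) (u9 (OE A K)) hU)
    (h2 : Pc 2 = HypE.PMid A hq hA K hK hζ R h2R (u9E R K h9) (u9 (OE A K)) hU) :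
    ∀ i : Fin 3, IsDedekindDomain (HypE.B2 A K R (u9E R K h9) (q := 2) ⧸ Pc i) := by
  have h := dedekind_u9 A hq hA K hK hζ R h9 h2R z hz hzK hU
  have key : ∀ i : Fin 3, i = 0 ∨ i = 1 ∨ i = 2 := by decide
  intro i
  rcases key i with rfl | rfl | rfl
  · rw [h0]; exact h.1
  · rw [h1]; exact h.2.1
  · rw [h2]; exact h.2.2

set_option maxHeartbeats 4000000 in
include hζ hz hzK hφ hst in
/-- **`hradα` at `u₉`, `q = 2`, chart-prime form**: any chart map `φa₀` restricting `α₂`, any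
name `Pc0` of `HypE.PZero`. -/
theorem hradα_chart_u9
    (φa₀ : HypE.B1 A K R (u9E R K h9) (q := 2) →+* HypE.B2 A K R (u9E R K h9) (q := 2))
    (hφa₀ : ∀ x : HypE.B1 A K R (u9E R K h9) (q := 2),
      ((φa₀ x : HypE.B2 A K R (u9E R K h9) (q := 2)) : LE (R * 2 * 2) K)
        = alphaHom (R * 2) 2 K (x : LE (R * 2) K))
    (Pc0 : Ideal (HypE.B2 A K R (u9E R K h9) (q := 2)))
    (h0 : Pc0 = HypE.PZero A hq hA K hK R h2R (u9E R K h9) (u9 (OE A K)) hU) :
    ∀ c : HypE.B2 A K R (u9E R K h9) (q := 2),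
      ∃ r : HypE.B1 A K R (u9E R K h9) (q := 2), c ^ 2 - φa₀ r ∈ Pc0 := by
  intro c
  have hr := rad_alpha_u9 A hq hA K hK hζ R h9 h2R z hz hzK hU hφ hst c
  refine ⟨hr.choose, ?_⟩
  have e : φa₀ hr.choose = HypE.alphaC A K R (u9E R K h9) hr.choose := Subtype.ext (hφa₀ _)
  rw [h0, e]
  exact hr.choose_spec

set_option maxHeartbeats 4000000 in
include hζ h2R hz hzK hφ hst in
/-- **`hradβ` at `u₉`, `q = 2`, chart-prime form**: any chart map `φb₀` restricting `β₂`, any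
name `Pc1` of `HypE.PInf`. -/
theorem hradβ_chart_u9
    (φb₀ : HypE.B1 A K R (u9E R K h9) (q := 2) →+* HypE.B2 A K R (u9E R K h9) (q := 2))
    (hφb₀ : ∀ x : HypE.B1 A K R (u9E R K h9) (q := 2),
      ((φb₀ x : HypE.B2 A K R (u9E R K h9) (q := 2)) : LE (R * 2 * 2) K)
        = betaHom (R * 2) 2 K (x : LE (R * 2) K))
    (Pc1 : Ideal (HypE.B2 A K R (u9E R K h9) (q := 2)))
    (h1 : Pc1 = HypE.PInf A hq hA K hK R (u9E R K h9) (u9 (OE A K)) hU) :
    ∀ c : HypE.B2 A K R (u9E R K h9) (q := 2),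
      ∃ r : HypE.B1 A K R (u9E R K h9) (q := 2), c ^ 2 - φb₀ r ∈ Pc1 := by
  intro c
  have hr := rad_beta_u9 A hq hA K hK hζ R h9 h2R z hz hzK hU hφ hst c
  refine ⟨hr.choose, ?_⟩
  have e : φb₀ hr.choose
      = HypE.betaC A hq K R h2R (u9E R K h9) (hwu_u9 A hq K R h9 h2R) hr.choose :=
    Subtype.ext (hφb₀ _)
  rw [h1, e]
  exact hr.choose_spec

/-! ### The literal binders `hded`, `hradα`, `hradβ` of `KContractE.holds_of_hyp` at `q = 2` -/

section Literal

variable (P : Fin 3 → Ideal (Nodal.Overlap (OE A K) (alphaSq R 2 K (u9E R K h9))))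
  (hP0 : (P 0).comap (Nodal.toOverlapZero (OE A K) (alphaSq R 2 K (u9E R K h9)))
    = HypE.PZero A hq hA K hK R h2R (u9E R K h9) (u9 (OE A K)) hU)
  (hP1 : (P 1).comap (Nodal.toOverlapZero (OE A K) (alphaSq R 2 K (u9E R K h9)))
    = HypE.PInf A hq hA K hK R (u9E R K h9) (u9 (OE A K)) hU)
  (hP2 : (P 2).comap (Nodal.toOverlapZero (OE A K) (alphaSq R 2 K (u9E R K h9)))
    = HypE.PMid A hq hA K hK hζ R h2R (u9E R K h9) (u9 (OE A K)) hU)

set_option maxHeartbeats 4000000 in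
include hz hzK hP0 hP1 hP2 in
/-- **The binder `hded` of `KContractE.holds_of_hyp` at `q = 2`, `u' = u₉`** (`L := R * 2`,
`E := K`, `O := OE A K`, `u := alphaSq R 2 K u₉`). -/
theorem hded_u9 :
    ∀ i : Fin 3, IsDedekindDomain (Nodal.Chart (OE A K) (alphaSq R 2 K (u9E R K h9)) ⧸
      (P i).comap (Nodal.toOverlapZero (OE A K) (alphaSq R 2 K (u9E R K h9)))) :=
  hded_chart_u9 A hq hA K hK hζ R h9 h2R z hz hzK hU
    (fun i => (P i).comap (Nodal.toOverlapZero (OE A K) (alphaSq R 2 K (u9E R K h9))))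
    hP0 hP1 hP2

set_option maxHeartbeats 4000000 in
include hζ hz hzK hφ hst hP0 in
/-- **The binder `hradα` of `KContractE.holds_of_hyp` at `q = 2`, `u' = u₉`.** -/
theorem hradα_u9
    (φa₀ : Nodal.Chart (OE A K) (alphaHom R 2 K (u9E R K h9)) →+*
      Nodal.Chart (OE A K) (alphaSq R 2 K (u9E R K h9)))
    (hφa₀ : ∀ x : Nodal.Chart (OE A K) (alphaHom R 2 K (u9E R K h9)),
      ((φa₀ x : Nodal.Chart (OE A K) (alphaSq R 2 K (u9E R K h9))) : LE (R * 2 * 2) K)
        = alphaHom (R * 2) 2 K (x : LE (R * 2) K)) :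
    ∀ c : Nodal.Chart (OE A K) (alphaSq R 2 K (u9E R K h9)),
      ∃ r : Nodal.Chart (OE A K) (alphaHom R 2 K (u9E R K h9)),
        c ^ 2 - φa₀ r
          ∈ (P 0).comap (Nodal.toOverlapZero (OE A K) (alphaSq R 2 K (u9E R K h9))) :=
  hradα_chart_u9 A hq hA K hK hζ R h9 h2R z hz hzK hU hφ hst φa₀ hφa₀ _ hP0

set_option maxHeartbeats 4000000 in
include hζ h2R hz hzK hφ hst hP1 in
/-- **The binder `hradβ` of `KContractE.holds_of_hyp` at `q = 2`, `u' = u₉`.** -/
theorem hradβ_u9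
    (φb₀ : Nodal.Chart (OE A K) (alphaHom R 2 K (u9E R K h9)) →+*
      Nodal.Chart (OE A K) (alphaSq R 2 K (u9E R K h9)))
    (hφb₀ : ∀ x : Nodal.Chart (OE A K) (alphaHom R 2 K (u9E R K h9)),
      ((φb₀ x : Nodal.Chart (OE A K) (alphaSq R 2 K (u9E R K h9))) : LE (R * 2 * 2) K)
        = betaHom (R * 2) 2 K (x : LE (R * 2) K)) :
    ∀ c : Nodal.Chart (OE A K) (alphaSq R 2 K (u9E R K h9)),
      ∃ r : Nodal.Chart (OE A K) (alphaHom R 2 K (u9E R K h9)),
        c ^ 2 - φb₀ r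
          ∈ (P 1).comap (Nodal.toOverlapZero (OE A K) (alphaSq R 2 K (u9E R K h9))) :=
  hradβ_chart_u9 A hq hA K hK hζ R h9 h2R z hz hzK hU hφ hst φb₀ hφb₀ _ hP1

end Literal

end Inst

end Fermat.Agent.S36.SqChart.Rad9
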