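import Mathlib
import Fermat.Agent.S36.SqChart.RadE
import Fermat.Agent.S36.SqChart.Coord4
import Fermat.Agent.S36.StableBaseKF

/-!
# S36, C2 modular instance for `u₄` (`q` odd): the binders `hded`, `hradα`, `hradβ`

`SqChart/RadE` at the coordinate `u' = Haupt4.u4E R K h4`, `U = Haupt4.u4 (OE A K)`
(`4 ∣ R`, `¬ q ∣ R`, `q` odd), with every coordinate fact discharged:

* the coordinate block of `InstA.package_alpha` / `HypE.hyp` from `SqChart/Coord4`;
* `(N)` : the special fibre of the level-`R` chart is a Dedekind domain (`Haupt4/Fibre`);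
* `(KF)` : Frobenius-stability of the reduced level-`R` chart ring
  (`StableBaseKF.hKF_redM_of_coeffEmb`, `u₄` has rational `q`-expansion), for a base field
  `K` stable under a Frobenius element of `A`.

* `dedekind_base`, `hKF_u4` : the two coordinate facts;
* `hyp4` : `HypE.hyp` at `u₄`;
* `hded4`, `hradα4`, `hradβ4` : the literal binders of `KContractE.holds_of_hyp` at
  `u := alphaSq R q K (u4E R K h4)`, `u1 := alphaHom R q K (u4E R K h4)`.
-/

set_option autoImplicit false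
set_option linter.unusedSectionVars false
set_option linter.unusedVariables false
set_option linter.style.haveILetI false
set_option synthInstance.maxHeartbeats 400000

open ModularCurve Polynomial

noncomputable section

namespace Fermat.Agent.S36.SqChart.Rad4

open Fermat.Agent.S30 Fermat.Agent.S30.CSide Fermat.Agent.S34 Fermat.Agent.S36
open Fermat.Agent.S18.K1Defs Fermat.Agent.S18.K1Main
open Fermat.Agent.S34.TwoPrimesGauss Fermat.Agent.S34.TwoPrimesRank
open Fermat.Agent.S34.HauptU.Plug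
open Fermat.Agent.S36.SqChart Fermat.Agent.S36.MultPrimesGauss Fermat.Agent.S36.CycloBase
open Fermat.Agent.S36.SqRankE Fermat.Agent.S36.SqChart.InstA Fermat.Agent.S36.Haupt4

local notation "Qb" => AlgebraicClosure ℚ
local notation "Gq" => (AlgebraicClosure ℚ ≃ₐ[ℚ] AlgebraicClosure ℚ)

attribute [local instance] InstA.algL InstA.towerL

variable (A : ValuationSubring Qb) {q : ℕ} (hq : q.Prime) [NeZero q] (hA : A.LiesOverPrime q)
  (K : IntermediateField ℚ Qb) [FiniteDimensional ℚ K]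
  (hK : A.inertiaSubgroupIn ℚ ≤ K.fixingSubgroup) {ζ : Qb} (hζ : IsPrimitiveRoot ζ q)
  [IsDiscreteValuationRing (OE A K)] [IsDiscreteValuationRing (OE A (cyclo K ζ))]
  (R : ℕ) [NeZero R] (hqR : ¬ q ∣ R) (hodd : q ≠ 2) (h4 : 4 ∣ R)
  (z : Qb) (hz : IsPrimitiveRoot z R) (hzK : z ∈ K)

include hq hA hK hqR hodd hz hzK in
/-- `(N)` : the special fibre of the level-`R` chart of `u₄` is a Dedekind domain. -/
theorem dedekind_base :
    IsDedekindDomain (Chart (OE A K) (u4E R K h4) ⧸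
      Ideal.span {piC (u4E R K h4) ((q : ℕ) : OE A K)}) := by
  haveI : Fact q.Prime := ⟨hq⟩
  exact (Fibre.dedekind_u4 A R h4 hqR hA hodd K z hz hzK ((q : ℕ) : OE A K)
    (irreducible_q A hq hA K hK)).1

include hq hA hK hqR hodd hz hzK in
/-- `(N)` in the integrally closed form. -/
theorem normal_base :
    IsIntegrallyClosed (Chart (OE A K) (u4E R K h4) ⧸
      Ideal.span {piC (u4E R K h4) ((q : ℕ) : OE A K)}) := by
  haveI := dedekind_base A hq hA K hK R hqR hodd h4 z hz hzK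
  infer_instance

/-- The `q`-expansion of `u₄` is rational. -/
theorem coe_u4E_eq_coeffEmb :
    ((u4E R K h4 : LE R K) : LaurentSeries K) = coeffEmb K (u4 ℚ) :=
  (coeffMap_u4 (algebraMap ℚ K)).symm

/-- `(KF)` : Frobenius-stability of the reduced level-`R` chart ring of `u₄` (literal `hKF` of
`RadE.rad_alpha`, `RadE.rad_beta`). -/
theorem hKF_u4 (hfrobK : ∃ φ : Gq, A.IsFrobeniusAt φ q ∧ StableBase.Stable K φ) :
    ∀ r : Chart (OE A K) (u4E R K h4), ∃ s : Chart (OE A K) (u4E R K h4),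
      redM ((q : ℕ) : OE A K) (irreducible_q A hq hA K hK) (alphaSq R q K)
          (alphaSq_algebraMap R q K (O := OE A K)) (sigmaHom (R * q * q) K)
          (sigmaHom_algebraMap (R * q * q) K (O := OE A K))
          (sigmaHom_mem_fracField (R * q * q) K A) (u4E R K h4) (u4 (OE A K))
          (sigma_u A K R (u4E R K h4) (u4 (OE A K)) (Coord4.hU_u4 R K h4)) r ^ q
        = qExpand (IsLocalRing.ResidueField (OE A K)) q
          (redM ((q : ℕ) : OE A K) (irreducible_q A hq hA K hK) (alphaSq R q K)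
            (alphaSq_algebraMap R q K (O := OE A K)) (sigmaHom (R * q * q) K)
            (sigmaHom_algebraMap (R * q * q) K (O := OE A K))
            (sigmaHom_mem_fracField (R * q * q) K A) (u4E R K h4) (u4 (OE A K))
            (sigma_u A K R (u4E R K h4) (u4 (OE A K)) (Coord4.hU_u4 R K h4)) s) := by
  obtain ⟨φ, hφ, hst⟩ := hfrobK
  exact StableBase.hKF_redM_of_coeffEmb A q hq hA hφ hst R ((q : ℕ) : OE A K)
    (irreducible_q A hq hA K hK) (alphaSq R q K) (alphaSq_algebraMap R q K (O := OE A K))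
    (sigmaHom (R * q * q) K) (sigmaHom_algebraMap (R * q * q) K (O := OE A K))
    (sigmaHom_mem_fracField (R * q * q) K A) (u4E R K h4) (u4 (OE A K))
    (sigma_u A K R (u4E R K h4) (u4 (OE A K)) (Coord4.hU_u4 R K h4))
    (fun x => InstA.sigma_alphaSq K R x) (u4 ℚ) (coe_u4E_eq_coeffEmb K R h4)

include hA hodd in
/-- `hwu` for `u₄` in the `Plug.wHom` shape. -/
theorem hwu4 :
    IsIntegral (Algebra.adjoin (OE A K) {alphaHom R q K (u4E R K h4)})
      (wHom R q K hq hqR (alphaHom R q K (u4E R K h4))) :=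
  Coord4.hwuW_u4 R K q hq hodd A hA h4 hqR

/-! ### The literal binders -/

variable (P : Fin 3 → Ideal (Nodal.Overlap (OE A K) (alphaSq R q K (u4E R K h4))))
  (hP0 : (P 0).comap (Nodal.toOverlapZero (OE A K) (alphaSq R q K (u4E R K h4)))
    = HypE.PZero A hq hA K hK R hqR (u4E R K h4) (u4 (OE A K)) (Coord4.hU_u4 R K h4))
  (hP1 : (P 1).comap (Nodal.toOverlapZero (OE A K) (alphaSq R q K (u4E R K h4)))
    = HypE.PInf A hq hA K hK R (u4E R K h4) (u4 (OE A K)) (Coord4.hU_u4 R K h4))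
  (hP2 : (P 2).comap (Nodal.toOverlapZero (OE A K) (alphaSq R q K (u4E R K h4)))
    = HypE.PMid A hq hA K hK hζ R hqR (u4E R K h4) (u4 (OE A K)) (Coord4.hU_u4 R K h4))

set_option maxHeartbeats 4000000 in
include hodd hz hzK hP0 hP1 hP2 in
/-- **The binder `hded` of `KContractE.holds_of_hyp` at `u₄`.** -/
theorem hded4 :
    ∀ i : Fin 3, IsDedekindDomain (Nodal.Chart (OE A K) (alphaSq R q K (u4E R K h4)) ⧸
      (P i).comap (Nodal.toOverlapZero (OE A K) (alphaSq R q K (u4E R K h4)))) := by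
  haveI := Coord4.finite_u4E R K h4
  haveI := Coord4.charP_ell K q hq A hA
  haveI := dedekind_base A hq hA K hK R hqR hodd h4 z hz hzK
  have h2 := Coord4.isUnit_two K q hq hodd A hA
  exact RadE.hded A hq hA K hK hζ R hqR (u4E R K h4) (u4 (OE A K)) (Coord4.hU_u4 R K h4)
    (Coord4.hy_u4 R K q h2 hq hodd hqR h4)
    (Coord4.hprime_u4 R K q hq hodd A hA h4 hqR z hz hzK _ (irreducible_q A hq hA K hK))
    (Coord4.hcop_u4 (q * q)) Coord4.hord_u4 Coord4.theta_rho_u4_ne_zero
    (Coord4.qExpand_sq_rho_u4 q hq) P hP0 hP1 hP2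

set_option maxHeartbeats 4000000 in
include hζ hodd hz hzK hP0 in
/-- **The binder `hradα` of `KContractE.holds_of_hyp` at `u₄`.** -/
theorem hradα4 (hfrobK : ∃ φ : Gq, A.IsFrobeniusAt φ q ∧ StableBase.Stable K φ)
    (φa₀ : Nodal.Chart (OE A K) (alphaHom R q K (u4E R K h4)) →+*
      Nodal.Chart (OE A K) (alphaSq R q K (u4E R K h4)))
    (hφa₀ : ∀ x : Nodal.Chart (OE A K) (alphaHom R q K (u4E R K h4)),
      ((φa₀ x : Nodal.Chart (OE A K) (alphaSq R q K (u4E R K h4))) : LE (R * q * q) K)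
        = alphaHom (R * q) q K (x : LE (R * q) K)) :
    ∀ c : Nodal.Chart (OE A K) (alphaSq R q K (u4E R K h4)),
      ∃ r : Nodal.Chart (OE A K) (alphaHom R q K (u4E R K h4)),
        c ^ q - φa₀ r ∈
          (P 0).comap (Nodal.toOverlapZero (OE A K) (alphaSq R q K (u4E R K h4))) := by
  haveI := Coord4.finite_u4E R K h4
  haveI := Coord4.charP_ell K q hq A hA
  have h2 := Coord4.isUnit_two K q hq hodd A hA
  exact RadE.hradα A hq hA K hK hζ R hqR (u4E R K h4) (u4 (OE A K)) (Coord4.hU_u4 R K h4)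
    (Coord4.hy_u4 R K q h2 hq hodd hqR h4)
    (Coord4.hprime_u4 R K q hq hodd A hA h4 hqR z hz hzK _ (irreducible_q A hq hA K hK))
    (Coord4.hcop_u4 (q * q)) Coord4.hord_u4 Coord4.theta_rho_u4_ne_zero
    (Coord4.qExpand_sq_rho_u4 q hq) (hwu4 A hq hA K R hqR hodd h4) P hP0 φa₀ hφa₀
    (normal_base A hq hA K hK R hqR hodd h4 z hz hzK)
    (hKF_u4 A hq hA K hK R h4 hfrobK)

set_option maxHeartbeats 4000000 in
include hζ hqR hodd hz hzK hP1 in
/-- **The binder `hradβ` of `KContractE.holds_of_hyp` at `u₄`.** -/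
theorem hradβ4 (hfrobK : ∃ φ : Gq, A.IsFrobeniusAt φ q ∧ StableBase.Stable K φ)
    (φb₀ : Nodal.Chart (OE A K) (alphaHom R q K (u4E R K h4)) →+*
      Nodal.Chart (OE A K) (alphaSq R q K (u4E R K h4)))
    (hφb₀ : ∀ x : Nodal.Chart (OE A K) (alphaHom R q K (u4E R K h4)),
      ((φb₀ x : Nodal.Chart (OE A K) (alphaSq R q K (u4E R K h4))) : LE (R * q * q) K)
        = betaHom (R * q) q K (x : LE (R * q) K)) :
    ∀ c : Nodal.Chart (OE A K) (alphaSq R q K (u4E R K h4)),
      ∃ r : Nodal.Chart (OE A K) (alphaHom R q K (u4E R K h4)),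
        c ^ q - φb₀ r ∈
          (P 1).comap (Nodal.toOverlapZero (OE A K) (alphaSq R q K (u4E R K h4))) := by
  haveI := Coord4.finite_u4E R K h4
  haveI := Coord4.charP_ell K q hq A hA
  have h2 := Coord4.isUnit_two K q hq hodd A hA
  exact RadE.hradβ A hq hA K hK hζ R hqR (u4E R K h4) (u4 (OE A K)) (Coord4.hU_u4 R K h4)
    (Coord4.hy_u4 R K q h2 hq hodd hqR h4)
    (Coord4.hprime_u4 R K q hq hodd A hA h4 hqR z hz hzK _ (irreducible_q A hq hA K hK))
    (Coord4.hcop_u4 (q * q)) Coord4.hord_u4 Coord4.theta_rho_u4_ne_zero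
    (Coord4.qExpand_sq_rho_u4 q hq) (hwu4 A hq hA K R hqR hodd h4) P hP1 φb₀ hφb₀
    (normal_base A hq hA K hK R hqR hodd h4 z hz hzK)
    (hKF_u4 A hq hA K hK R h4 hfrobK)

end Fermat.Agent.S36.SqChart.Rad4
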