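import Mathlib
import Fermat.Agent.S36.SqChart.HypE
import Fermat.Agent.S36.SqChart.Coord4Alt

/-!
# S36, C2 exit at the coordinate `u₄` (`q` odd): `SqExit.Hyp` for the chart rings of `u₄`

`HypE.hyp` (the `E`-level `SqExit.Hyp` for the chart rings of levels `R q`, `R q²` over
`𝒪_K = A ∩ K`, coordinate-generic) at `u' := Haupt4.u4E R K h4`, `U := Haupt4.u4 (OE A K)`
(`4 ∣ R`, `q` an odd prime, `q ∤ R`), with EVERY coordinate hypothesis discharged
(`SqChart/Coord4Alt` + `Haupt4/Hwu`).  Base field `K` in the explicit shape: a number field with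
`OE A K` a DVR, inside the inertia field of `A`, containing a primitive `R`-th root of unity `z`.

* `hwu_u4` : `w (α₁ u₄)` is integral over `𝒪_K[α₁ u₄]` (the binder `hwu` of `HypE`, `w`-form);
* `hyp_u4` : `SqExit.Hyp (HypE.alphaC ..) (HypE.betaC ..) q (HypE.pInf ..) (HypE.pZero ..)
  (HypE.PInf ..) (HypE.PZero ..) (HypE.PMid ..) (q - 1)` at `u₄`.
-/

set_option autoImplicit false
set_option linter.unusedSectionVars false
set_option linter.unusedVariables false
set_option linter.style.haveILetI false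
set_option synthInstance.maxHeartbeats 400000

open ModularCurve Polynomial

noncomputable section

namespace Fermat.Agent.S36.SqChart.HypU4Alt

open Fermat.Agent.S30 Fermat.Agent.S30.CSide
open Fermat.Agent.S18.K1Defs Fermat.Agent.S18.K1Main
open Fermat.Agent.S34.TwoPrimesGauss Fermat.Agent.S34.TwoPrimesRank
open Fermat.Agent.S34.HauptU.Plug
open Fermat.Agent.S36.SqChart Fermat.Agent.S36.MultPrimesGauss Fermat.Agent.S36.CycloBase
open Fermat.Agent.S36.SqRankE Fermat.Agent.S36.SqChart.InstA Fermat.Agent.S36.Haupt4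
open Fermat.Agent.S34.HauptU.E Fermat.Agent.S36

local notation "Qb" => AlgebraicClosure ℚ

attribute [local instance] InstA.algL InstA.towerL

variable (A : ValuationSubring Qb) {q : ℕ} (hq : q.Prime) [NeZero q] (hA : A.LiesOverPrime q)
  (hodd : q ≠ 2)
  (K : IntermediateField ℚ Qb) [FiniteDimensional ℚ K]
  (hK : A.inertiaSubgroupIn ℚ ≤ K.fixingSubgroup) {ζ : Qb} (hζ : IsPrimitiveRoot ζ q)
  [IsDiscreteValuationRing (OE A K)] [IsDiscreteValuationRing (OE A (cyclo K ζ))]
  (R : ℕ) [NeZero R] (hqR : ¬ q ∣ R) (h4 : 4 ∣ R)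
  (z : Qb) (hz : IsPrimitiveRoot z R) (hzK : z ∈ K)

include hA hodd in
/-- The binder `hwu` of `HypE` at `u₄`: `w (α₁ u₄)` is integral over `𝒪_K[α₁ u₄]`. -/
theorem hwu_u4 : IsIntegral (Algebra.adjoin (OE A K) {alphaHom R q K (u4E R K h4)})
    (wHom R q K hq hqR (alphaHom R q K (u4E R K h4))) :=
  Hwu.hwu_u4E R q K (Coord4Alt.isUnit_two K q hq hodd A hA) hq hodd hqR h4

set_option maxHeartbeats 4000000 in
include hz hzK in
/-- **`SqExit.Hyp` for the chart rings of `u₄` of levels `R q`, `R q²` over `𝒪_K`** (`q` odd):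
`HypE.hyp` at `u' = u₄`, all coordinate hypotheses discharged. -/
theorem hyp_u4 :
    SqExit.Hyp (HypE.alphaC A K R (u4E R K h4))
      (HypE.betaC A hq K R hqR (u4E R K h4) (hwu_u4 A hq hA hodd K R hqR h4))
      (piC (alphaHom R q K (u4E R K h4)) ((q : ℕ) : OE A K))
      (HypE.pInf A hq hA K hK R (u4E R K h4) (u4 (OE A K)) (Coord4Alt.hU_u4 R K h4))
      (HypE.pZero A hq hA K hK R hqR (u4E R K h4) (u4 (OE A K)) (Coord4Alt.hU_u4 R K h4))
      (HypE.PInf A hq hA K hK R (u4E R K h4) (u4 (OE A K)) (Coord4Alt.hU_u4 R K h4))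
      (HypE.PZero A hq hA K hK R hqR (u4E R K h4) (u4 (OE A K)) (Coord4Alt.hU_u4 R K h4))
      (HypE.PMid A hq hA K hK hζ R hqR (u4E R K h4) (u4 (OE A K)) (Coord4Alt.hU_u4 R K h4))
      (q - 1) := by
  haveI := Coord4Alt.finite_u4E R K h4
  haveI := Coord4Alt.charP_ell K q hq A hA
  exact HypE.hyp A hq hA K hK hζ R hqR (u4E R K h4) (u4 (OE A K)) (Coord4Alt.hU_u4 R K h4)
    (hwu_u4 A hq hA hodd K R hqR h4)
    (Coord4Alt.hprime_u4 R K q hq hodd A hA h4 hqR z hz hzK _ (irreducible_q A hq hA K hK))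
    (Coord4Alt.hcop_u4 q) Coord4Alt.hord_u4 Coord4Alt.theta_rho_u4_ne_zero
    (Coord4Alt.qExpand_rho_u4 q hq)

end Fermat.Agent.S36.SqChart.HypU4Alt
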