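import Mathlib
import Fermat.Agent.S36.ECall.Cusp
import Fermat.Agent.S36.SqChart.HypU4Alt

/-!
# S36, the cusp binder `hcusp` in CHART-PRIME form, coordinate `u₄` (`q` odd)

The binder `hcusp` of `KInst9.holds_of_chart` (the `K`-level contract with the vertical primes
given on the CHART rings) at `O := OE A K`, `L := R * q`, `E := K`,
`u := alphaSq R q K u'`, `u1 := alphaHom R q K u'`:

  `∀ y, y.IsMaximal → ¬ good y → ∀ i : Fin 3, Pc i ≤ y →
      ∃ t' ∈ Pc i, ∀ x ∈ Pc i, ∃ s, s ∉ y ∧ s * x ∈ Ideal.span {t'}`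

with `good y := uC * (uC + 16) ∉ y`.

* `hcusp4_chart` : coordinate-generic, for ANY chart primes `Pc`, `pc` carrying a `SqExit.Hyp`
  with `pc 1 = HypE.pInf`, `pc 0 = HypE.pZero`, `Pc 2 = HypE.PMid` (the chart-prime twin of
  `ECall.Cusp.hcusp4` (helper1); one call of `ECall.Cusp.hcusp_gen4`, no overlap ring);
* `hcusp_u4'` : at `u' := Haupt4.u4E R K h4`, EVERY coordinate hypothesis discharged
  (`h := HypU4Alt.hyp_u4` (helper90), `J' := K1Main.jE R K`, `Haupt4.jE_mul_u4E`,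
  `Coord4Alt.isUnit_two`), for ANY spelling of the three primes `Pc` (`hPc0`, `hPc1`, `hPc2`)
  and of the coordinate `uC` (`huC`);
* `hcusp_u4` : the same at the literals `Pc := ![HypE.PZero .., HypE.PInf .., HypE.PMid ..]`,
  `uC := incl (alphaSq R q K) _ u₄ (polyChart u₄ X)`.
-/

set_option autoImplicit false
set_option linter.unusedSectionVars false
set_option linter.unusedVariables false
set_option linter.style.haveILetI false
set_option synthInstance.maxHeartbeats 400000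

open ModularCurve Polynomial

noncomputable section

namespace Fermat.Agent.S36.SqChart.Cusp4

open Fermat.Agent.S30 Fermat.Agent.S30.CSide
open Fermat.Agent.S18.K1Defs Fermat.Agent.S18.K1Main
open Fermat.Agent.S34.TwoPrimesRank Fermat.Agent.S34.HauptU.Plug
open Fermat.Agent.S36.SqChart Fermat.Agent.S36.CycloBase Fermat.Agent.S36.SqRankE
open Fermat.Agent.S34.Nodal (Chart)
open Fermat.Agent.S34.TwoPrimesGauss (piC incl polyChart coe_incl coe_polyChart)

local notation "Qb" => AlgebraicClosure ℚ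

attribute [local instance] InstA.algL InstA.towerL

/-! ### Coordinate-generic, chart primes -/

section Generic

variable (A : ValuationSubring Qb) {q : ℕ} (hq : q.Prime) [NeZero q] (hA : A.LiesOverPrime q)
  (K : IntermediateField ℚ Qb) [FiniteDimensional ℚ K]
  (hK : A.inertiaSubgroupIn ℚ ≤ K.fixingSubgroup) {ζ : Qb} (hζ : IsPrimitiveRoot ζ q)
  [IsDiscreteValuationRing (OE A K)] [IsDiscreteValuationRing (OE A (cyclo K ζ))]
  (R : ℕ) [NeZero R] (hqR : ¬ q ∣ R)
  (u' : LE R K) (U : LaurentSeries (OE A K))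
  (hU : (u' : LaurentSeries K) = GaussDVR.iota (OE A K) K U)

/-- **The binder `hcusp` in chart-prime form, Hauptmodul `u₄`, coordinate-generic** (`q` odd):
`good y := uC * (uC + 16) ∉ y` for any name `uC` of the coordinate `alphaSq R q K u'` in its chart
ring; `Pc`, `pc` are ANY chart primes carrying a `SqExit.Hyp` with `pc 1`, `pc 0`, `Pc 2` the
primes `HypE.pInf`, `HypE.pZero`, `HypE.PMid` of the E-level C2 exit. -/
theorem hcusp4_chart
    (Pc : Fin 3 → Ideal (Chart (OE A K) (alphaSq R q K u')))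
    (pc : Fin 2 → Ideal (Chart (OE A K) (alphaHom R q K u')))
    (φa₀ : Chart (OE A K) (alphaHom R q K u') →+* Chart (OE A K) (alphaSq R q K u'))
    (hφa₀ : ∀ x : Chart (OE A K) (alphaHom R q K u'),
      ((φa₀ x : Chart (OE A K) (alphaSq R q K u')) : LE (R * q * q) K)
        = alphaHom (R * q) q K (x : LE (R * q) K))
    (φb₀ : Chart (OE A K) (alphaHom R q K u') →+* Chart (OE A K) (alphaSq R q K u'))
    (hφb₀ : ∀ x : Chart (OE A K) (alphaHom R q K u'),
      ((φb₀ x : Chart (OE A K) (alphaSq R q K u')) : LE (R * q * q) K)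
        = betaHom (R * q) q K (x : LE (R * q) K))
    {π1 : Chart (OE A K) (alphaHom R q K u')}
    (h : SqExit.Hyp φa₀ φb₀ π1 (pc 1) (pc 0) (Pc 1) (Pc 0) (Pc 2) (q - 1))
    (hπ1 : (π1 : LE (R * q) K) = algebraMap (OE A K) (LE (R * q) K) ((q : ℕ) : OE A K))
    (hp1 : pc 1 = HypE.pInf A hq hA K hK R u' U hU)
    (hp0 : pc 0 = HypE.pZero A hq hA K hK R hqR u' U hU)
    (hP2 : Pc 2 = HypE.PMid A hq hA K hK hζ R hqR u' U hU)
    (J' : LE R K) (hJ' : (J' : LaurentSeries K) = coeffEmb K jq)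
    (hrel : J' * u' ^ 4 * (u' + 16) = (u' ^ 2 + 256 * u' + 4096) ^ 3)
    (h2 : IsUnit (2 : OE A K))
    (uC : Chart (OE A K) (alphaSq R q K u'))
    (huC : (uC : LE (R * q * q) K) = alphaSq R q K u') :
    ∀ y : Ideal (Chart (OE A K) (alphaSq R q K u')), y.IsMaximal → ¬ (uC * (uC + 16) ∉ y) →
      ∀ i : Fin 3, Pc i ≤ y →
      ∃ t' ∈ Pc i, ∀ x ∈ Pc i,
        ∃ s : Chart (OE A K) (alphaSq R q K u'), s ∉ y ∧ s * x ∈ Ideal.span {t'} := by
  haveI : Fact q.Prime := ⟨hq⟩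
  haveI : CharP (IsLocalRing.ResidueField (OE A K)) q :=
    Fermat.Agent.S34.Sat.charP_residue_OE' A K hq hA
  have hqπ : ((q : ℕ) : Chart (OE A K) (alphaSq R q K u')) = φa₀ π1 * 1 := by
    have e : ((φa₀ π1 * 1 : Chart (OE A K) (alphaSq R q K u')) : LE (R * q * q) K)
        = ((q : ℕ) : LE (R * q * q) K) := by
      rw [mul_one, hφa₀, hπ1, alphaHom_algebraMap (R * q) q K (O := OE A K), map_natCast]
    exact Subtype.ext e.symm
  exact ECall.Cusp.hcusp_gen4 (inclOE A (le_cyclo K ζ)) (inclE (le_cyclo K ζ))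
    (inclE_algebraMap A (le_cyclo K ζ)) ((q : ℕ) : OE A K) (InstA.irreducible_q A hq hA K hK) q
    (alphaHom R q K) (betaHom R q K) (sigmaHom (R * q) K)
    (sigmaHom_algebraMap (R * q) K (O := OE A K)) (sigmaHom_mem_fracField (R * q) K A) u' U
    (ECall.Cusp.sigma1_u A K R u' U hU) (ECall.Cusp.sig1z hq K R hqR)
    (ECall.Cusp.sig1z_algebraMap A hq K R hqR) (ECall.Cusp.sig1z_mem_fracField A hq K R hqR)
    (ECall.Cusp.sig1z_alpha hq K R hqR) (ECall.Cusp.sigma1_beta K R)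
    (ECall.Cusp.sig1z_beta hq K R hqR) (alphaHom (R * q) q K) (betaHom (R * q) q K)
    (alphaHom_algebraMap (R * q) q K (O := OE A K)) (betaHom_algebraMap (R * q) q K (O := OE A K))
    (sigmaHom (R * q * q) K) (ECall.Cusp.sigma_alpha2 K R (q := q)) (ECall.Cusp.sigma_beta2 K R)
    (InstA.sigM A hq hA K hζ R hqR) (InstA.sigM_algebraMap A hq hA K hζ R hqR)
    (InstA.sigM_mem_fracField A hq hA K hζ R hqR) (zetaU A hq K hζ)
    (InstA.irreducible_zeta_sub_one A hq hA K hK hζ) (InstA.sigM_alpha A hq hA K hζ R hqR)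
    (InstA.sigM_beta A hq hA K hζ R hqR) hφa₀ hφb₀ 1 isUnit_one hqπ Pc pc h
    (hp1.trans (HypBridge.pInf_eq A hq hA K hK R u' U hU (InstA.irreducible_q A hq hA K hK)
      (sigmaHom_algebraMap (R * q) K (O := OE A K)) (sigmaHom_mem_fracField (R * q) K A)
      (ECall.Cusp.sigma1_u A K R u' U hU)))
    (hp0.trans (HypBridge.pZero_eq A hq hA K hK R hqR u' U hU (InstA.irreducible_q A hq hA K hK)
      (ECall.Cusp.sigma1_u A K R u' U hU) (ECall.Cusp.sig1z_algebraMap A hq K R hqR)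
      (ECall.Cusp.sig1z_mem_fracField A hq K R hqR) (ECall.Cusp.sig1z_alpha hq K R hqR)))
    (hP2.trans (HypBridge.PMid_eq A hq hA K hK hζ R hqR u' U hU
      (ECall.Cusp.sigma1_u A K R u' U hU) (ECall.Cusp.sigma_alpha2 K R (q := q))
      (InstA.sigM_algebraMap A hq hA K hζ R hqR) (InstA.sigM_mem_fracField A hq hA K hζ R hqR)
      (InstA.irreducible_zeta_sub_one A hq hA K hK hζ) (InstA.sigM_alpha A hq hA K hζ R hqR)))
    J' (ECall.Cusp.sigma1_J K R J' hJ') hrel h2 uC huC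

end Generic

/-! ### The coordinate `u₄` -/

section U4

open Fermat.Agent.S36.Haupt4

variable (A : ValuationSubring Qb) {q : ℕ} (hq : q.Prime) [NeZero q] (hA : A.LiesOverPrime q)
  (hodd : q ≠ 2)
  (K : IntermediateField ℚ Qb) [FiniteDimensional ℚ K]
  (hK : A.inertiaSubgroupIn ℚ ≤ K.fixingSubgroup) {ζ : Qb} (hζ : IsPrimitiveRoot ζ q)
  [IsDiscreteValuationRing (OE A K)] [IsDiscreteValuationRing (OE A (cyclo K ζ))]
  (R : ℕ) [NeZero R] (hqR : ¬ q ∣ R) (h4 : 4 ∣ R)
  (z : Qb) (hz : IsPrimitiveRoot z R) (hzK : z ∈ K)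

include hodd hz hzK in
/-- **The binder `hcusp` of `KInst9.holds_of_chart` at `u₄`** (`q` odd), every coordinate
hypothesis discharged, for ANY spelling `Pc` of the three vertical primes
`HypE.PZero`, `HypE.PInf`, `HypE.PMid` of the level-`R q²` chart ring and ANY name `uC` of the
coordinate in that ring: `good y := uC * (uC + 16) ∉ y`. -/
theorem hcusp_u4'
    (Pc : Fin 3 → Ideal (Chart (OE A K) (alphaSq R q K (u4E R K h4))))
    (hPc0 : Pc 0 = HypE.PZero A hq hA K hK R hqR (u4E R K h4) (u4 (OE A K))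
      (Coord4Alt.hU_u4 R K h4))
    (hPc1 : Pc 1 = HypE.PInf A hq hA K hK R (u4E R K h4) (u4 (OE A K)) (Coord4Alt.hU_u4 R K h4))
    (hPc2 : Pc 2 = HypE.PMid A hq hA K hK hζ R hqR (u4E R K h4) (u4 (OE A K))
      (Coord4Alt.hU_u4 R K h4))
    (uC : Chart (OE A K) (alphaSq R q K (u4E R K h4)))
    (huC : (uC : LE (R * q * q) K) = alphaSq R q K (u4E R K h4)) :
    ∀ y : Ideal (Chart (OE A K) (alphaSq R q K (u4E R K h4))), y.IsMaximal →
      ¬ (uC * (uC + 16) ∉ y) → ∀ i : Fin 3, Pc i ≤ y →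
      ∃ t' ∈ Pc i, ∀ x ∈ Pc i,
        ∃ s : Chart (OE A K) (alphaSq R q K (u4E R K h4)), s ∉ y ∧ s * x ∈ Ideal.span {t'} :=
  hcusp4_chart A hq hA K hK hζ R hqR (u4E R K h4) (u4 (OE A K)) (Coord4Alt.hU_u4 R K h4) Pc
    ![HypE.pZero A hq hA K hK R hqR (u4E R K h4) (u4 (OE A K)) (Coord4Alt.hU_u4 R K h4),
      HypE.pInf A hq hA K hK R (u4E R K h4) (u4 (OE A K)) (Coord4Alt.hU_u4 R K h4)]
    (HypE.alphaC (q := q) A K R (u4E R K h4)) (fun _ => rfl)
    (HypE.betaC A hq K R hqR (u4E R K h4) (HypU4Alt.hwu_u4 A hq hA hodd K R hqR h4))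
    (fun _ => rfl)
    (π1 := piC (alphaHom R q K (u4E R K h4)) ((q : ℕ) : OE A K))
    (HypBridge.hyp_congr (HypU4Alt.hyp_u4 A hq hA hodd K hK hζ R hqR h4 z hz hzK) rfl rfl rfl rfl
      hPc1.symm hPc0.symm hPc2.symm)
    rfl rfl rfl hPc2 (Fermat.Agent.S18.K1Main.jE R K) rfl
    (jE_mul_u4E R K h4 (Fermat.Agent.S18.K1Main.jE R K) rfl)
    (Coord4Alt.isUnit_two K q hq hodd A hA) uC huC

include hodd hz hzK in
/-- **The binder `hcusp` of `KInst9.holds_of_chart` at `u₄`** (`q` odd), at the literals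
`Pc := ![HypE.PZero .., HypE.PInf .., HypE.PMid ..]` and
`uC := incl (alphaSq R q K) _ u₄ (polyChart u₄ X)`; no hypothesis left. -/
theorem hcusp_u4 :
    ∀ y : Ideal (Chart (OE A K) (alphaSq R q K (u4E R K h4))), y.IsMaximal →
      ¬ (incl (alphaSq R q K) (alphaSq_algebraMap R q K (O := OE A K)) (u4E R K h4)
            (polyChart (u4E R K h4) X)
          * (incl (alphaSq R q K) (alphaSq_algebraMap R q K (O := OE A K)) (u4E R K h4)
            (polyChart (u4E R K h4) X) + 16) ∉ y) →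
      ∀ i : Fin 3,
        (![HypE.PZero A hq hA K hK R hqR (u4E R K h4) (u4 (OE A K)) (Coord4Alt.hU_u4 R K h4),
          HypE.PInf A hq hA K hK R (u4E R K h4) (u4 (OE A K)) (Coord4Alt.hU_u4 R K h4),
          HypE.PMid A hq hA K hK hζ R hqR (u4E R K h4) (u4 (OE A K)) (Coord4Alt.hU_u4 R K h4)] :
          Fin 3 → Ideal (Chart (OE A K) (alphaSq R q K (u4E R K h4)))) i ≤ y →
      ∃ t' ∈ (![HypE.PZero A hq hA K hK R hqR (u4E R K h4) (u4 (OE A K))
              (Coord4Alt.hU_u4 R K h4),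
            HypE.PInf A hq hA K hK R (u4E R K h4) (u4 (OE A K)) (Coord4Alt.hU_u4 R K h4),
            HypE.PMid A hq hA K hK hζ R hqR (u4E R K h4) (u4 (OE A K))
              (Coord4Alt.hU_u4 R K h4)] :
            Fin 3 → Ideal (Chart (OE A K) (alphaSq R q K (u4E R K h4)))) i,
        ∀ x ∈ (![HypE.PZero A hq hA K hK R hqR (u4E R K h4) (u4 (OE A K))
              (Coord4Alt.hU_u4 R K h4),
            HypE.PInf A hq hA K hK R (u4E R K h4) (u4 (OE A K)) (Coord4Alt.hU_u4 R K h4),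
            HypE.PMid A hq hA K hK hζ R hqR (u4E R K h4) (u4 (OE A K))
              (Coord4Alt.hU_u4 R K h4)] :
            Fin 3 → Ideal (Chart (OE A K) (alphaSq R q K (u4E R K h4)))) i,
          ∃ s : Chart (OE A K) (alphaSq R q K (u4E R K h4)),
            s ∉ y ∧ s * x ∈ Ideal.span {t'} :=
  hcusp_u4' A hq hA hodd K hK hζ R hqR h4 z hz hzK _ rfl rfl rfl _
    (by rw [coe_incl, coe_polyChart, aeval_X])

end U4

end Fermat.Agent.S36.SqChart.Cusp4
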