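import Mathlib
import Fermat.Agent.S34.Nodal.Defs
import Fermat.Agent.S36.SqChart.HypMult
import Fermat.Agent.S36.SqChart.Coord4Alt

/-!
# S36, the multiplicity identity `hmult` at the coordinate `u₄` (helper107)

`SqChart/HypMult.hmult` (the generic multiplicity identity at `P_11 = HypE.PMid`, binder block of
`HypE.hyp`) at `u' := Haupt4.u4E R K h4`, `U := Haupt4.u4 (OE A K)`, `q` odd, with EVERY coordinate
hypothesis discharged (`SqChart/Coord4Alt`, `Haupt4/Hwu`); shape (S1): `K` contains a primitive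
`R`-th root of unity `z`.

* `hwu4` : the binder `hwu` of `HypE.hyp` / `HypE.betaC` at `u₄`;
* `hmult_u4_PMid` : `∃ δ ∈ PMid, ∃ a₀ b₀, a₀ ∉ PMid ∧ a₀ * q = b₀ * δ ^ (q - 1)` on the chart ring
  of level `R q²`;
* `hmult_u4` : the same as the LITERAL binder `hmult` of `KContractE.holds_of_hyp` /
  `KContractChart.kContract_of_hyp_mult` at `L := R * q`, `E := K`, `O := OE A K`,
  `π := q`, `u := alphaSq R q K u₄`, for any family `P` of ideals of the overlap ring whose third
  member contracts to `HypE.PMid` (`hP2`).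
-/

set_option autoImplicit false
set_option linter.unusedSectionVars false
set_option linter.unusedVariables false
set_option linter.style.haveILetI false
set_option synthInstance.maxHeartbeats 400000

open ModularCurve Polynomial

noncomputable section

namespace Fermat.Agent.S36.SqChart.HypMultU

open Fermat.Agent.S30 Fermat.Agent.S30.CSide
open Fermat.Agent.S18.K1Defs Fermat.Agent.S18.K1Main
open Fermat.Agent.S34.TwoPrimesGauss Fermat.Agent.S34.TwoPrimesRank
open Fermat.Agent.S34.HauptU.Plug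
open Fermat.Agent.S36.SqChart Fermat.Agent.S36.MultPrimesGauss Fermat.Agent.S36.CycloBase
open Fermat.Agent.S36.SqRankE Fermat.Agent.S36.SqChart.InstA Fermat.Agent.S36.Haupt4
open Fermat.Agent.S34.HauptU.E Fermat.Agent.S36

local notation "Qb" => AlgebraicClosure ℚ

attribute [local instance] InstA.algL InstA.towerL

variable (A : ValuationSubring Qb) {q : ℕ} (hq : q.Prime) [NeZero q] (hA : A.LiesOverPrime q)
  (hodd : q ≠ 2)
  (K : IntermediateField ℚ Qb) [FiniteDimensional ℚ K]
  (hK : A.inertiaSubgroupIn ℚ ≤ K.fixingSubgroup) {ζ : Qb} (hζ : IsPrimitiveRoot ζ q)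
  [IsDiscreteValuationRing (OE A K)] [IsDiscreteValuationRing (OE A (cyclo K ζ))]
  (R : ℕ) [NeZero R] (hqR : ¬ q ∣ R) (h4 : 4 ∣ R)
  (z : Qb) (hz : IsPrimitiveRoot z R) (hzK : z ∈ K)

include hA hodd in
/-- The binder `hwu` of `HypE.hyp` at `u₄`: `w (α u₄)` is integral over `𝒪_K[α u₄]`. -/
theorem hwu4 : IsIntegral (Algebra.adjoin (OE A K) {alphaHom R q K (u4E R K h4)})
    (wHom R q K hq hqR (alphaHom R q K (u4E R K h4))) :=
  Hwu.hwu_u4E R q K (Coord4Alt.isUnit_two K q hq hodd A hA) hq hodd hqR h4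

set_option maxHeartbeats 4000000 in
include hodd hz hzK in
/-- **The multiplicity identity at `P_11 = HypE.PMid` for the coordinate `u₄`** (`q` odd), all
coordinate hypotheses discharged. -/
theorem hmult_u4_PMid :
    ∃ δ ∈ HypE.PMid A hq hA K hK hζ R hqR (u4E R K h4) (u4 (OE A K)) (Coord4Alt.hU_u4 R K h4),
      ∃ a₀ b₀ : HypE.B2 A K R (u4E R K h4) (q := q),
        a₀ ∉ HypE.PMid A hq hA K hK hζ R hqR (u4E R K h4) (u4 (OE A K))
            (Coord4Alt.hU_u4 R K h4) ∧
          a₀ * piC (alphaSq R q K (u4E R K h4)) ((q : ℕ) : OE A K) = b₀ * δ ^ (q - 1) := by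
  haveI := Coord4Alt.finite_u4E R K h4
  haveI := Coord4Alt.charP_ell K q hq A hA
  exact HypMult.hmult A hq hA K hK hζ R hqR (u4E R K h4) (u4 (OE A K)) (Coord4Alt.hU_u4 R K h4)
    (hwu4 A hq hA hodd K R hqR h4)
    (Coord4Alt.hprime_u4 R K q hq hodd A hA h4 hqR z hz hzK _ (irreducible_q A hq hA K hK))
    (Coord4Alt.hcop_u4 q) Coord4Alt.hord_u4 Coord4Alt.theta_rho_u4_ne_zero
    (Coord4Alt.qExpand_rho_u4 q hq)

set_option maxHeartbeats 4000000 in
include hodd hz hzK in
/-- **The binder `hmult` of `KContractE.holds_of_hyp` at `u₄`** (`q` odd), literal shape: `P` any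
family of ideals of the overlap ring of `u = alphaSq R q K u₄` with
`(P 2).comap (toOverlapZero ..) = HypE.PMid ..`. -/
theorem hmult_u4
    (P : Fin 3 → Ideal (Fermat.Agent.S34.Nodal.Overlap (OE A K) (alphaSq R q K (u4E R K h4))))
    (hP2 : (P 2).comap
        (Fermat.Agent.S34.Nodal.toOverlapZero (OE A K) (alphaSq R q K (u4E R K h4)))
      = HypE.PMid A hq hA K hK hζ R hqR (u4E R K h4) (u4 (OE A K)) (Coord4Alt.hU_u4 R K h4)) :
    ∃ δ ∈ (P 2).comap
        (Fermat.Agent.S34.Nodal.toOverlapZero (OE A K) (alphaSq R q K (u4E R K h4))),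
      ∃ a₀ b₀ : Fermat.Agent.S34.Nodal.Chart (OE A K) (alphaSq R q K (u4E R K h4)),
        a₀ ∉ (P 2).comap
            (Fermat.Agent.S34.Nodal.toOverlapZero (OE A K) (alphaSq R q K (u4E R K h4))) ∧
          a₀ * algebraMap (OE A K)
              (Fermat.Agent.S34.Nodal.Chart (OE A K) (alphaSq R q K (u4E R K h4)))
              ((q : ℕ) : OE A K) = b₀ * δ ^ (q - 1) := by
  rw [hP2]
  exact hmult_u4_PMid A hq hA hodd K hK hζ R hqR h4 z hz hzK

end Fermat.Agent.S36.SqChart.HypMultU
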