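import Mathlib
import Fermat.Agent.S34.Nodal.Defs
import Fermat.Agent.S36.SqChart.HypMult
import Fermat.Agent.S36.SqChart.Coord9

/-!
# S36, the multiplicity identity `hmult` at the coordinate `u₉`, `q = 2` (helper107)

`SqChart/HypMult.hmult` (the generic multiplicity identity at `P_11 = HypE.PMid`, binder block of
`HypE.hyp`) at `q = 2`, `u' := Haupt9.u9E R K h9`, `U := Haupt9.u9 (OE A K)` (`9 ∣ R`, `2 ∤ R`),
with EVERY coordinate hypothesis discharged (`SqChart/Coord9`, `Haupt9/LevelTwo`, `Haupt9/Inputs`);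
shape (S1): `K` contains a primitive `R`-th root of unity `z`.

* `hU9`, `hwu9` : the binders `hU`, `hwu` of `HypE.hyp` / `HypE.betaC` at `u₉`, `q = 2`;
* `hmult_u9_PMid` : `∃ δ ∈ PMid, ∃ a₀ b₀, a₀ ∉ PMid ∧ a₀ * 2 = b₀ * δ ^ (2 - 1)` on the chart ring
  of level `R · 2 · 2`;
* `hmult_u9` : the same as the LITERAL binder `hmult` of `KContractE.holds_of_hyp` at `q := 2`,
  `L := R * 2`, `E := K`, `O := OE A K`, `π := 2`, `u := alphaSq R 2 K u₉`, for any family `P` of
  ideals of the overlap ring whose third member contracts to `HypE.PMid` (`hP2`).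

(At `q = 2` the middle component is reduced and the identity also holds trivially with `δ = 2`,
see `KInst9.hmult_one`; the present form is the twin of `HypMultU.hmult_u4_PMid`, through the
same general statement.)
-/

set_option autoImplicit false
set_option linter.unusedSectionVars false
set_option linter.unusedVariables false
set_option linter.style.haveILetI false
set_option synthInstance.maxHeartbeats 400000

open ModularCurve Polynomial

noncomputable section

namespace Fermat.Agent.S36.SqChart.HypMultU9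

open Fermat.Agent.S30 Fermat.Agent.S30.CSide
open Fermat.Agent.S18.K1Defs Fermat.Agent.S18.K1Main
open Fermat.Agent.S34.TwoPrimesGauss Fermat.Agent.S34.TwoPrimesRank
open Fermat.Agent.S34.HauptU.Plug
open Fermat.Agent.S36.SqChart Fermat.Agent.S36.MultPrimesGauss Fermat.Agent.S36.CycloBase
open Fermat.Agent.S36.SqRankE Fermat.Agent.S36.SqChart.InstA Fermat.Agent.S36.Haupt9
open Fermat.Agent.S34.HauptU.E Fermat.Agent.S36

local notation "Qb" => AlgebraicClosure ℚ

attribute [local instance] InstA.algL InstA.towerL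

variable (A : ValuationSubring Qb) (hq : Nat.Prime 2) (hA : A.LiesOverPrime 2)
  (K : IntermediateField ℚ Qb) [FiniteDimensional ℚ K]
  (hK : A.inertiaSubgroupIn ℚ ≤ K.fixingSubgroup) {ζ : Qb} (hζ : IsPrimitiveRoot ζ 2)
  [IsDiscreteValuationRing (OE A K)] [IsDiscreteValuationRing (OE A (cyclo K ζ))]
  (R : ℕ) [NeZero R] (h2R : ¬ 2 ∣ R) (h9 : 9 ∣ R)
  (z : Qb) (hz : IsPrimitiveRoot z R) (hzK : z ∈ K)

/-- The binder `hU` of `InstA` / `HypE` at `u₉`. -/
theorem hU9 :
    ((u9E R K h9 : LE R K) : LaurentSeries K) = GaussDVR.iota (OE A K) K (u9 (OE A K)) :=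
  coe_u9E_eq_iota R K h9

/-- The binder `hwu` of `HypE.hyp` at `u₉`, `q = 2`: `w (α u₉)` is integral over `𝒪_K[α u₉]`. -/
theorem hwu9 : IsIntegral (Algebra.adjoin (OE A K) {alphaHom R 2 K (u9E R K h9)})
    (wHom R 2 K hq h2R (alphaHom R 2 K (u9E R K h9))) := by
  rw [wHom_alpha]
  exact hwu_u9E R K h9

set_option maxHeartbeats 4000000 in
include hz hzK in
/-- **The multiplicity identity at `P_11 = HypE.PMid` for the coordinate `u₉`, `q = 2`**, all
coordinate hypotheses discharged. -/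
theorem hmult_u9_PMid :
    ∃ δ ∈ HypE.PMid A hq hA K hK hζ R h2R (u9E R K h9) (u9 (OE A K)) (hU9 A K R h9),
      ∃ a₀ b₀ : HypE.B2 A K R (u9E R K h9) (q := 2),
        a₀ ∉ HypE.PMid A hq hA K hK hζ R h2R (u9E R K h9) (u9 (OE A K)) (hU9 A K R h9) ∧
          a₀ * piC (alphaSq R 2 K (u9E R K h9)) ((2 : ℕ) : OE A K) = b₀ * δ ^ (2 - 1) := by
  haveI := Coord9.finite_u9E R K h9
  haveI := Coord9.charP_two K A hA
  exact HypMult.hmult A hq hA K hK hζ R h2R (u9E R K h9) (u9 (OE A K)) (hU9 A K R h9)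
    (hwu9 A hq K R h2R h9)
    (Coord9.hprime_u9 R K A hA h9 h2R z hz hzK _ (irreducible_q A hq hA K hK))
    (Coord9.hcop_u9 2) Coord9.hord_u9 Coord9.theta_rho_u9_ne_zero
    (qExpand_rho_u9 2 hq)

set_option maxHeartbeats 4000000 in
include hz hzK in
/-- **The binder `hmult` of `KContractE.holds_of_hyp` at `u₉`, `q = 2`**, literal shape: `P` any
family of ideals of the overlap ring of `u = alphaSq R 2 K u₉` with
`(P 2).comap (toOverlapZero ..) = HypE.PMid ..`. -/
theorem hmult_u9
    (P : Fin 3 → Ideal (Fermat.Agent.S34.Nodal.Overlap (OE A K) (alphaSq R 2 K (u9E R K h9))))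
    (hP2 : (P 2).comap
        (Fermat.Agent.S34.Nodal.toOverlapZero (OE A K) (alphaSq R 2 K (u9E R K h9)))
      = HypE.PMid A hq hA K hK hζ R h2R (u9E R K h9) (u9 (OE A K)) (hU9 A K R h9)) :
    ∃ δ ∈ (P 2).comap
        (Fermat.Agent.S34.Nodal.toOverlapZero (OE A K) (alphaSq R 2 K (u9E R K h9))),
      ∃ a₀ b₀ : Fermat.Agent.S34.Nodal.Chart (OE A K) (alphaSq R 2 K (u9E R K h9)),
        a₀ ∉ (P 2).comap
            (Fermat.Agent.S34.Nodal.toOverlapZero (OE A K) (alphaSq R 2 K (u9E R K h9))) ∧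
          a₀ * algebraMap (OE A K)
              (Fermat.Agent.S34.Nodal.Chart (OE A K) (alphaSq R 2 K (u9E R K h9)))
              ((2 : ℕ) : OE A K) = b₀ * δ ^ (2 - 1) := by
  rw [hP2]
  exact hmult_u9_PMid A hq hA K hK hζ R h2R h9 z hz hzK

end Fermat.Agent.S36.SqChart.HypMultU9
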