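import Mathlib
import Fermat.Agent.S36.SqChart.HypE
import Fermat.Agent.S36.SqChart.Coord9
import Fermat.Agent.S36.ECall.Hyp

/-!
# S36, C2 exit at the coordinate `u₉` (`q = 2`): `SqExit.Hyp` for the chart rings of `u₉`

`HypE.hyp` (the `E`-level `SqExit.Hyp` for the chart rings of levels `R q`, `R q²` over
`𝒪_K = A ∩ K`, coordinate-generic) at `q = 2`, `u' := Haupt9.u9E R K h9`,
`U := Haupt9.u9 (OE A K)` (`9 ∣ R`, `2 ∤ R`), with EVERY coordinate hypothesis discharged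
(`SqChart/Coord9` + `Haupt9/LevelTwo`).  Variable block = the block of `SqChart/Rad9` (base field
`K` in the explicit shape: a number field with `OE A K` a DVR, inside the inertia field of `A`,
containing a primitive `R`-th root of unity `z`; `hq : Nat.Prime 2` and `hU` are variables).

* `hwu_u9` : `w (α₁ u₉)` is integral over `𝒪_K[α₁ u₉]` (the binder `hwu` of `HypE`, `w`-form);
* `hyp_u9` : `SqExit.Hyp (HypE.alphaC ..) (HypE.betaC ..) 2 (HypE.pInf ..) (HypE.pZero ..)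
  (HypE.PInf ..) (HypE.PZero ..) (HypE.PMid ..) 1` at `u₉`;
* `hyp_chart_u9` : the chart-prime form = the binder `h` of `KInst9.holds_of_chart_two` (and of
  `KInst9.holds_of_chart` at `k = 1`): any chart maps `φa₀`, `φb₀` restricting `α₂`, `β₂`, any
  names `Pc i`, `pc j` of the five `HypE` primes, `π` in the literal form
  `algebraMap O (Chart O u1) 2`;
* `h_u9` : the literal binder `h` of `KContractE.holds_of_hyp` at `q = 2`, `k = 1` (primes of the
  overlap rings with the comap-zero identities).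
-/

set_option autoImplicit false
set_option linter.unusedSectionVars false
set_option linter.unusedVariables false
set_option linter.style.haveILetI false
set_option synthInstance.maxHeartbeats 400000

open ModularCurve Polynomial

noncomputable section

namespace Fermat.Agent.S36.SqChart.HypU9

open Fermat.Agent.S30 Fermat.Agent.S30.CSide Fermat.Agent.S34
open Fermat.Agent.S18.K1Defs Fermat.Agent.S18.K1Main
open Fermat.Agent.S34.TwoPrimesGauss Fermat.Agent.S34.TwoPrimesRank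
open Fermat.Agent.S34.HauptU.Plug
open Fermat.Agent.S36.SqChart Fermat.Agent.S36.MultPrimesGauss Fermat.Agent.S36.CycloBase
open Fermat.Agent.S36.SqRankE Fermat.Agent.S36.SqChart.InstA
open Fermat.Agent.S36.Haupt9 Fermat.Agent.S36

local notation "Qb" => AlgebraicClosure ℚ

attribute [local instance] InstA.algL InstA.towerL Fermat.Agent.S36.ECall.ChartAlg.chartAlg

variable (A : ValuationSubring Qb) (hq : Nat.Prime 2) (hA : A.LiesOverPrime 2)
  (K : IntermediateField ℚ Qb) [FiniteDimensional ℚ K]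
  (hK : A.inertiaSubgroupIn ℚ ≤ K.fixingSubgroup) {ζ : Qb} (hζ : IsPrimitiveRoot ζ 2)
  [IsDiscreteValuationRing (OE A K)] [IsDiscreteValuationRing (OE A (cyclo K ζ))]
  (R : ℕ) [NeZero R] (h9 : 9 ∣ R) (h2R : ¬ 2 ∣ R)
  (z : Qb) (hz : IsPrimitiveRoot z R) (hzK : z ∈ K)
  (hU : ((u9E R K h9 : LE R K) : LaurentSeries K) = GaussDVR.iota (OE A K) K (u9 (OE A K)))

/-- The binder `hwu` of `HypE` at `u₉`, `q = 2`: `w (α₁ u₉)` is integral over `𝒪_K[α₁ u₉]`. -/
theorem hwu_u9 : IsIntegral (Algebra.adjoin (OE A K) {alphaHom R 2 K (u9E R K h9)})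
    (wHom R 2 K hq h2R (alphaHom R 2 K (u9E R K h9))) := by
  rw [wHom_alpha]
  exact hwu_u9E R K h9

set_option maxHeartbeats 4000000 in
include hz hzK in
/-- **`SqExit.Hyp` for the chart rings of `u₉` of levels `2 R`, `4 R` over `𝒪_K`** (`q = 2`,
exponent `k = 2 - 1 = 1`): `HypE.hyp` at `u' = u₉`, all coordinate hypotheses discharged. -/
theorem hyp_u9 :
    SqExit.Hyp (HypE.alphaC A K R (u9E R K h9) (q := 2))
      (HypE.betaC A hq K R h2R (u9E R K h9) (hwu_u9 A hq K R h9 h2R))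
      (piC (alphaHom R 2 K (u9E R K h9)) ((2 : ℕ) : OE A K))
      (HypE.pInf A hq hA K hK R (u9E R K h9) (u9 (OE A K)) hU)
      (HypE.pZero A hq hA K hK R h2R (u9E R K h9) (u9 (OE A K)) hU)
      (HypE.PInf A hq hA K hK R (u9E R K h9) (u9 (OE A K)) hU)
      (HypE.PZero A hq hA K hK R h2R (u9E R K h9) (u9 (OE A K)) hU)
      (HypE.PMid A hq hA K hK hζ R h2R (u9E R K h9) (u9 (OE A K)) hU)
      1 := by
  haveI := Coord9.finite_u9E R K h9
  haveI := Coord9.charP_two K A hA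
  exact HypE.hyp A hq hA K hK hζ R h2R (u9E R K h9) (u9 (OE A K)) hU
    (hwu_u9 A hq K R h9 h2R)
    (Coord9.hprime_u9 R K A hA h9 h2R z hz hzK _ (irreducible_q A hq hA K hK))
    (Coord9.hcop_u9 2) Coord9.hord_u9 Coord9.theta_rho_u9_ne_zero
    (qExpand_rho_u9 2 hq)

set_option maxHeartbeats 4000000 in
include hz hzK in
/-- **The binder `h` of `KInst9.holds_of_chart_two` at `u₉`** (chart-prime form, `k = 1`): any
chart maps `φa₀`, `φb₀` restricting `α₂ = alphaHom (R * 2) 2 K`, `β₂ = betaHom (R * 2) 2 K`, any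
names `Pc i`, `pc j` of the five `HypE` primes. -/
theorem hyp_chart_u9
    (φa₀ : HypE.B1 A K R (u9E R K h9) (q := 2) →+* HypE.B2 A K R (u9E R K h9) (q := 2))
    (hφa₀ : ∀ x : HypE.B1 A K R (u9E R K h9) (q := 2),
      ((φa₀ x : HypE.B2 A K R (u9E R K h9) (q := 2)) : LE (R * 2 * 2) K)
        = alphaHom (R * 2) 2 K (x : LE (R * 2) K))
    (φb₀ : HypE.B1 A K R (u9E R K h9) (q := 2) →+* HypE.B2 A K R (u9E R K h9) (q := 2))
    (hφb₀ : ∀ x : HypE.B1 A K R (u9E R K h9) (q := 2),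
      ((φb₀ x : HypE.B2 A K R (u9E R K h9) (q := 2)) : LE (R * 2 * 2) K)
        = betaHom (R * 2) 2 K (x : LE (R * 2) K))
    (Pc : Fin 3 → Ideal (HypE.B2 A K R (u9E R K h9) (q := 2)))
    (pc : Fin 2 → Ideal (HypE.B1 A K R (u9E R K h9) (q := 2)))
    (hP0 : Pc 0 = HypE.PZero A hq hA K hK R h2R (u9E R K h9) (u9 (OE A K)) hU)
    (hP1 : Pc 1 = HypE.PInf A hq hA K hK R (u9E R K h9) (u9 (OE A K)) hU)
    (hP2 : Pc 2 = HypE.PMid A hq hA K hK hζ R h2R (u9E R K h9) (u9 (OE A K)) hU)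
    (hp0 : pc 0 = HypE.pZero A hq hA K hK R h2R (u9E R K h9) (u9 (OE A K)) hU)
    (hp1 : pc 1 = HypE.pInf A hq hA K hK R (u9E R K h9) (u9 (OE A K)) hU) :
    SqExit.Hyp φa₀ φb₀
      (algebraMap (OE A K) (Nodal.Chart (OE A K) (alphaHom R 2 K (u9E R K h9)))
        ((2 : ℕ) : OE A K))
      (pc 1) (pc 0) (Pc 1) (Pc 0) (Pc 2) 1 :=
  ECall.Hyp.hyp_congr (hyp_u9 A hq hA K hK hζ R h9 h2R z hz hzK hU)
    (ECall.Hyp.alphaC_eq A K R (u9E R K h9) φa₀ hφa₀)
    (ECall.Hyp.betaC_eq A hq K R h2R (u9E R K h9) (hwu_u9 A hq K R h9 h2R) φb₀ hφb₀)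
    (ECall.Hyp.algebraMap_eq_piC A K R (u9E R K h9)) hp1 hp0 hP1 hP0 hP2

set_option maxHeartbeats 4000000 in
include hz hzK in
/-- **The binder `h` of `KContractE.holds_of_hyp` at `q = 2`, `u' = u₉`, `k = 1`** (`L := R * 2`,
`E := K`, `O := OE A K`, `π := 2`, `u := alphaSq R 2 K u₉`, `u1 := alphaHom R 2 K u₉`): primes
`P`, `p` of the overlap rings with the comap-zero identities. -/
theorem h_u9
    (P : Fin 3 → Ideal (Nodal.Overlap (OE A K) (alphaSq R 2 K (u9E R K h9))))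
    (p : Fin 2 → Ideal (Nodal.Overlap (OE A K) (alphaHom R 2 K (u9E R K h9))))
    (hp1 : (p 1).comap (Nodal.toOverlapZero (OE A K) (alphaHom R 2 K (u9E R K h9)))
      = HypE.pInf A hq hA K hK R (u9E R K h9) (u9 (OE A K)) hU)
    (hp0 : (p 0).comap (Nodal.toOverlapZero (OE A K) (alphaHom R 2 K (u9E R K h9)))
      = HypE.pZero A hq hA K hK R h2R (u9E R K h9) (u9 (OE A K)) hU)
    (hP1 : (P 1).comap (Nodal.toOverlapZero (OE A K) (alphaSq R 2 K (u9E R K h9)))
      = HypE.PInf A hq hA K hK R (u9E R K h9) (u9 (OE A K)) hU)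
    (hP0 : (P 0).comap (Nodal.toOverlapZero (OE A K) (alphaSq R 2 K (u9E R K h9)))
      = HypE.PZero A hq hA K hK R h2R (u9E R K h9) (u9 (OE A K)) hU)
    (hP2 : (P 2).comap (Nodal.toOverlapZero (OE A K) (alphaSq R 2 K (u9E R K h9)))
      = HypE.PMid A hq hA K hK hζ R h2R (u9E R K h9) (u9 (OE A K)) hU)
    (φa₀ : Nodal.Chart (OE A K) (alphaHom R 2 K (u9E R K h9)) →+*
      Nodal.Chart (OE A K) (alphaSq R 2 K (u9E R K h9)))
    (hφa₀ : ∀ x : Nodal.Chart (OE A K) (alphaHom R 2 K (u9E R K h9)),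
      ((φa₀ x : Nodal.Chart (OE A K) (alphaSq R 2 K (u9E R K h9))) : LE (R * 2 * 2) K)
        = alphaHom (R * 2) 2 K (x : LE (R * 2) K))
    (φb₀ : Nodal.Chart (OE A K) (alphaHom R 2 K (u9E R K h9)) →+*
      Nodal.Chart (OE A K) (alphaSq R 2 K (u9E R K h9)))
    (hφb₀ : ∀ x : Nodal.Chart (OE A K) (alphaHom R 2 K (u9E R K h9)),
      ((φb₀ x : Nodal.Chart (OE A K) (alphaSq R 2 K (u9E R K h9))) : LE (R * 2 * 2) K)
        = betaHom (R * 2) 2 K (x : LE (R * 2) K)) :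
    SqExit.Hyp φa₀ φb₀
      (algebraMap (OE A K) (Nodal.Chart (OE A K) (alphaHom R 2 K (u9E R K h9)))
        ((2 : ℕ) : OE A K))
      ((p 1).comap (Nodal.toOverlapZero (OE A K) (alphaHom R 2 K (u9E R K h9))))
      ((p 0).comap (Nodal.toOverlapZero (OE A K) (alphaHom R 2 K (u9E R K h9))))
      ((P 1).comap (Nodal.toOverlapZero (OE A K) (alphaSq R 2 K (u9E R K h9))))
      ((P 0).comap (Nodal.toOverlapZero (OE A K) (alphaSq R 2 K (u9E R K h9))))
      ((P 2).comap (Nodal.toOverlapZero (OE A K) (alphaSq R 2 K (u9E R K h9)))) 1 :=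
  ECall.Hyp.hyp_congr (hyp_u9 A hq hA K hK hζ R h9 h2R z hz hzK hU)
    (ECall.Hyp.alphaC_eq A K R (u9E R K h9) φa₀ hφa₀)
    (ECall.Hyp.betaC_eq A hq K R h2R (u9E R K h9) (hwu_u9 A hq K R h9 h2R) φb₀ hφb₀)
    (ECall.Hyp.algebraMap_eq_piC A K R (u9E R K h9)) hp1 hp0 hP1 hP0 hP2

end Fermat.Agent.S36.SqChart.HypU9
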