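import Mathlib
import Fermat.Agent.S36.MultPrimesGauss

/-!
# S36, C2 modular instance: the second base of the three-prime package, on the SAME chart ring

`S36/MultPrimesGauss.package` describes the chart ring `C = Chart O (α u')` of level `q² M'`
over the level-`M'` chart ring `R = Chart O u'` embedded through `α` (`= α₂ ∘ α₁`).  For the norm
along the second degeneracy map and for the component `P_0` one needs the same statements over
`R` embedded through `β` (`= β₂ ∘ β₁`, `x ↦ x(q^N)`).  Applying `package` with `α := β` and the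
roles of the embeddings `σ`, `σ₀` exchanged gives statements about `Chart O (β u')`, which is a
different type.  When `α u'` and `β u'` are integral over each other the two chart rings have
the same elements; this file transports the second application to `Chart O (α u')`.

* `isIntegral_adjoin_trans`, `chartEquiv` : charts of mutually integral coordinates coincide.
* `inclB` : the inclusion `R → C`, `r ↦ β r`.
* `packageB` : centre (`CEN_B`), `ONTO_B` (`C / P_0 = R / π` through `β`), `SPAN_B`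
  (`P_∞` has residue degree `N` over the `β`-base), `THREE_B`, `GRADED_B`, all stated with the
  reductions `rI`, `rZ` and the middle valuation `τm` of the `α`-setup.

Level-free.  Instance: `α = α₂ ∘ α₁`, `β = β₂ ∘ β₁`, `σ₀ = σ ∘ W_{q²}`, `N = q²`.
-/

set_option autoImplicit false
set_option linter.unusedSectionVars false
set_option linter.unusedVariables false
set_option linter.style.haveILetI false

noncomputable section

namespace Fermat.Agent.S36.SqChart.PackageB

open ModularCurve Polynomial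
open Fermat.Agent.S30 Fermat.Agent.S34 Fermat.Agent.S34.TwoPrimesGauss
open Fermat.Agent.S36.MultPrimesGauss

universe u

/-! ### Charts of mutually integral coordinates -/

section ChartEquiv

variable {O : Type*} {L : Type*} [CommRing O] [Field L] [Algebra O L]

/-- Every element of `O[v]` is integral over `O[u]` if `v` is. -/
theorem isIntegral_of_mem_adjoin {u v : L} (huv : IsIntegral (Algebra.adjoin O {u}) v) {z : L}
    (hz : z ∈ Algebra.adjoin O {v}) : IsIntegral (Algebra.adjoin O {u}) z := by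
  let T : Subalgebra O L := (integralClosure (Algebra.adjoin O {u}) L).restrictScalars O
  have hv : v ∈ T := huv
  have hle : Algebra.adjoin O {v} ≤ T := Algebra.adjoin_le (by
    intro x hx
    rw [Set.mem_singleton_iff] at hx
    rw [hx]
    exact hv)
  exact hle hz

/-- Transitivity of integrality over the rings `O[u]`. -/
theorem isIntegral_adjoin_trans {u v c : L} (huv : IsIntegral (Algebra.adjoin O {u}) v)
    (hc : IsIntegral (Algebra.adjoin O {v}) c) : IsIntegral (Algebra.adjoin O {u}) c := by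
  let f : Algebra.adjoin O {v} →+* integralClosure (Algebra.adjoin O {u}) L :=
    { toFun := fun z => ⟨(z : L), isIntegral_of_mem_adjoin huv z.2⟩
      map_one' := rfl
      map_mul' := fun _ _ => rfl
      map_zero' := rfl
      map_add' := fun _ _ => rfl }
  have hcA : IsIntegral (integralClosure (Algebra.adjoin O {u}) L) c := by
    obtain ⟨P, hP, hPc⟩ := hc
    refine ⟨P.map f, hP.map _, ?_⟩
    rw [eval₂_map]
    exact hPc
  exact isIntegral_trans (R := Algebra.adjoin O {u})
    (A := integralClosure (Algebra.adjoin O {u}) L) c hcA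

/-- The chart rings of two coordinates which are integral over each other coincide. -/
def chartEquiv (u v : L) (huv : IsIntegral (Algebra.adjoin O {u}) v)
    (hvu : IsIntegral (Algebra.adjoin O {v}) u) : Chart O v ≃+* Chart O u where
  toFun c := ⟨(c : L), isIntegral_adjoin_trans huv c.2⟩
  invFun c := ⟨(c : L), isIntegral_adjoin_trans hvu c.2⟩
  left_inv _ := Subtype.ext rfl
  right_inv _ := Subtype.ext rfl
  map_mul' _ _ := Subtype.ext rfl
  map_add' _ _ := Subtype.ext rfl

@[simp] theorem coe_chartEquiv (u v : L) (huv : IsIntegral (Algebra.adjoin O {u}) v)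
    (hvu : IsIntegral (Algebra.adjoin O {v}) u) (c : Chart O v) :
    ((chartEquiv u v huv hvu c : Chart O u) : L) = (c : L) := rfl

@[simp] theorem coe_chartEquiv_symm (u v : L) (huv : IsIntegral (Algebra.adjoin O {u}) v)
    (hvu : IsIntegral (Algebra.adjoin O {v}) u) (c : Chart O u) :
    (((chartEquiv u v huv hvu).symm c : Chart O v) : L) = (c : L) := rfl

theorem chartEquiv_piC (u v : L) (huv : IsIntegral (Algebra.adjoin O {u}) v)
    (hvu : IsIntegral (Algebra.adjoin O {v}) u) (ϖ : O) :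
    chartEquiv u v huv hvu (piC v ϖ) = piC u ϖ := Subtype.ext rfl

end ChartEquiv

/-! ### The second base -/

section PackageB

variable {O : Type*} {E : Type u} [CommRing O] [IsDomain O] [IsDiscreteValuationRing O] [Field E]
  [Algebra O E] [FaithfulSMul O E]
  {L' L : Type*} [Field L'] [Field L] [Algebra O L'] [Algebra O L]
  (ϖ : O) (hϖ : Irreducible ϖ)
  (α : L' →+* L) (hαO : ∀ r : O, α (algebraMap O L' r) = algebraMap O L r)
  (σ : L →+* LaurentSeries E)
  (hσO : ∀ r : O, σ (algebraMap O L r) = HahnSeries.C (algebraMap O E r))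
  (hσfrac : ∀ x : L, σ x ∈ GaussDVR.fracField O E)
  (u' : L') (U : LaurentSeries O) (hσu : σ (α u') = GaussDVR.iota O E U)
  (N : ℕ) [NeZero N]
  (σ₀ : L →+* LaurentSeries E)
  (hσ₀O : ∀ r : O, σ₀ (algebraMap O L r) = HahnSeries.C (algebraMap O E r))
  (hσ₀frac : ∀ x : L, σ₀ x ∈ GaussDVR.fracField O E)
  (hσ₀α : ∀ x : L', σ₀ (α x) = qExpand E N (σ (α x)))
  (β : L' →+* L) (hβO : ∀ r : O, β (algebraMap O L' r) = algebraMap O L r)
  (hσβ : ∀ x : L', σ (β x) = qExpand E N (σ (α x)))
  (hσ₀β : ∀ x : L', σ₀ (β x) = σ (α x))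
  (hab : IsIntegral (Algebra.adjoin O {α u'}) (β u'))
  (hba : IsIntegral (Algebra.adjoin O {β u'}) (α u'))

/-- The inclusion of the level-`M'` chart ring into `C = Chart O (α u')` through `β`. -/
def inclB : Chart O u' →+* Chart O (α u') :=
  ((chartEquiv (α u') (β u') hab hba : Chart O (β u') ≃+* Chart O (α u')) :
    Chart O (β u') →+* Chart O (α u')).comp (incl β hβO u')

theorem coe_inclB (a : Chart O u') :
    ((inclB α u' β hβO hab hba a : Chart O (α u')) : L) = β (a : L') := rfl

theorem inclB_injective : Function.Injective (inclB α u' β hβO hab hba) := by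
  intro x y h
  exact Subtype.ext (β.injective (congrArg (fun z : Chart O (α u') => (z : L)) h))

theorem inclB_piC : inclB α u' β hβO hab hba (piC u' ϖ) = piC (α u') ϖ :=
  Subtype.ext (hβO ϖ)

include hσu hσ₀β in
theorem sigma0_beta_u : σ₀ (β u') = GaussDVR.iota O E U := by
  rw [hσ₀β, hσu]

include hσβ hσ₀β in
theorem sigma_beta (x : L') : σ (β x) = qExpand E N (σ₀ (β x)) := by
  rw [hσ₀β]
  exact hσβ x

/-- The level-`M'` reductions attached to `(β, σ₀)` and to `(α, σ)` agree. -/
theorem redM_beta (a : Chart O u') :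
    redM ϖ hϖ β hβO σ₀ hσ₀O hσ₀frac u' U (sigma0_beta_u α σ u' U hσu σ₀ β hσ₀β) a =
      redM ϖ hϖ α hαO σ hσO hσfrac u' U hσu a := by
  show GaussDVR.red O E _ = GaussDVR.red O E _
  congr 1
  exact Subtype.ext (hσ₀β (a : L'))

variable {Vm : Type u} [CommRing Vm] [IsDomain Vm]
  (τm : Chart O (α u') →+* Vm) (lam : Vm) (hlam : Prime lam) (e : ℕ) (he : 0 < e)
  (hm1 : lam ^ e ∣ τm (piC (α u') ϖ))
  (hm2B : ∀ a : Chart O u', lam ∣ τm (inclB α u' β hβO hab hba a) →
    redM ϖ hϖ α hαO σ hσO hσfrac u' U hσu a = 0)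
  (d : Vm) (hd : ¬ lam ∣ d)
  (hm3 : τm ((⟨β u', hab⟩ : Chart O (α u')) - incl α hαO u' (polyChart u' X)) = lam * d)
  (hprime : Prime (piC u' ϖ))
  (hcop : IsCoprime (GaussDVR.rho O U).order (N : ℤ)) (hord : (GaussDVR.rho O U).order ≠ 0)
  (hN : 2 ≤ N)
  (hfrob : qExpand (IsLocalRing.ResidueField O) N (GaussDVR.rho O U) = GaussDVR.rho O U ^ N)
  (hrankB : ∀ v : Fin (1 + N + e + 1) → Chart O (β u'),
    ∃ c : Fin (1 + N + e + 1) → Chart O u', c ≠ 0 ∧ ∑ i, incl β hβO u' (c i) * v i = 0)

local notation "rI" => redInf ϖ hϖ α σ hσO hσfrac u' U hσu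
local notation "rZ" => redZ ϖ hϖ α σ u' U hσu N σ₀ hσ₀O hσ₀frac hσ₀α
local notation "rM" => redM ϖ hϖ α hαO σ hσO hσfrac u' U hσu
local notation "ιB" => inclB α u' β hβO hab hba
local notation "yC" => (Subtype.mk (β u') hab : Chart O (α u'))
local notation "uC" => incl α hαO u' (polyChart u' X)

set_option maxHeartbeats 800000 in
include hσβ hσ₀β hlam he hm1 hm2B hd hm3 hprime hcop hord hN hfrob hrankB in
/-- **The three-prime package over the second base**, on the chart ring `C = Chart O (α u')`. -/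
theorem packageB :
    (∀ a : Chart O u', rZ (ιB a) = rM a ∧
      rI (ιB a) = qExpand (IsLocalRing.ResidueField O) N (rM a)) ∧
    (IsIntegrallyClosed (Chart O u' ⧸ Ideal.span {piC u' ϖ}) →
      (∀ c : Chart O (α u'), ∃ a : Chart O u', rZ (c - ιB a) = 0) ∧
      (∀ c : Chart O (α u'), ∃ a : Chart O u', lam ∣ τm (c - ιB a))) ∧
    (∀ c : Chart O (α u'), ∃ (s : Chart O u') (a : Fin N → Chart O u'), ¬ piC u' ϖ ∣ s ∧
      rI (ιB s * c - ∑ k, ιB (a k) * uC ^ (k : ℕ)) = 0) ∧
    (∀ Q : Ideal (Chart O (α u')), Q.IsPrime → piC (α u') ϖ ∈ Q →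
      (∀ a : Chart O u', ιB a ∈ Q → piC u' ϖ ∣ a) →
      Q = RingHom.ker rZ ∨ Q = RingHom.ker rI ∨ Q = (Ideal.span {lam}).comap τm) ∧
    (∀ l : ℕ, l < e → ∀ c : Chart O (α u'), lam ^ l ∣ τm c →
      ∃ s a : Chart O u', ¬ piC u' ϖ ∣ s ∧
        lam ^ (l + 1) ∣ τm (ιB s * c - ιB a * (uC - yC) ^ l)) := by
  classical
  -- the `β`-setup
  have hσuB : σ₀ (β u') = GaussDVR.iota O E U := sigma0_beta_u α σ u' U hσu σ₀ β hσ₀β
  have hσ₀αB : ∀ x : L', σ (β x) = qExpand E N (σ₀ (β x)) := sigma_beta α σ N σ₀ β hσβ hσ₀β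
  have hσyB : σ₀ (α u') = GaussDVR.iota O E (qExpand O N U) :=
    sigma0_u α σ u' U hσu N σ₀ hσ₀α
  set eqv : Chart O (β u') ≃+* Chart O (α u') := chartEquiv (α u') (β u') hab hba with heqv
  set τmB : Chart O (β u') →+* Vm := τm.comp (eqv : Chart O (β u') →+* Chart O (α u'))
    with hτmB
  have hm1B : lam ^ e ∣ τmB (piC (β u') ϖ) := by
    have h1 : τmB (piC (β u') ϖ) = τm (piC (α u') ϖ) := by
      rw [hτmB, RingHom.comp_apply]
      congr 1
    rw [h1]
    exact hm1
  have hm2B' : ∀ a : Chart O u', lam ∣ τmB (incl β hβO u' a) →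
      redM ϖ hϖ β hβO σ₀ hσ₀O hσ₀frac u' U hσuB a = 0 := by
    intro a ha
    rw [redM_beta ϖ hϖ α hαO σ hσO hσfrac u' U hσu σ₀ hσ₀O hσ₀frac β hβO hσ₀β a]
    exact hm2B a ha
  have hδ : eqv ((⟨α u', hba⟩ : Chart O (β u')) - incl β hβO u' (polyChart u' X)) =
      -(yC - uC) := by
    apply Subtype.ext
    show α u' - β (aeval u' (X : O[X])) = -(β u' - α (aeval u' (X : O[X])))
    rw [aeval_X]
    ring
  have hm3B : τmB ((⟨α u', hba⟩ : Chart O (β u')) - incl β hβO u' (polyChart u' X)) =
      lam * (-d) := by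
    rw [hτmB, RingHom.comp_apply]
    show τm (eqv _) = _
    rw [hδ, map_neg, hm3]
    ring
  have hdB : ¬ lam ∣ -d := fun h => hd ((dvd_neg).mp h)
  obtain ⟨-, hThree, hOnto, hSpan, hGraded, -, -, -, -, -, -⟩ :=
    package (ϖ := ϖ) (hϖ := hϖ) (α := β) (hαO := hβO) (σ := σ₀) (hσO := hσ₀O)
      (hσfrac := hσ₀frac) (u' := u') (U := U) (hσu := hσuB) (N := N) (σ₀ := σ) (hσ₀O := hσO)
      (hσ₀frac := hσfrac) (hσ₀α := hσ₀αB) (y := α u') (hy := hba) (hσy := hσyB)
      (hσ₀y := hσu) (τm := τmB) (lam := lam) (hlam := hlam) (e := e) (he := he) (hm1 := hm1B)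
      (hm2 := hm2B') (d := -d) (hd := hdB) (hm3 := hm3B) (hprime := hprime) (hcop := hcop)
      (hord := hord) (hN := hN) (hfrob := hfrob) (hrank := hrankB)
  -- dictionary between the two chart rings
  have hI : ∀ c' : Chart O (β u'),
      redInf ϖ hϖ β σ₀ hσ₀O hσ₀frac u' U hσuB c' = rZ (eqv c') := fun c' => rfl
  have hZ : ∀ c' : Chart O (β u'),
      redZ ϖ hϖ β σ₀ u' U hσuB N σ hσO hσfrac hσ₀αB c' = rI (eqv c') := fun c' => rfl
  have hτ : ∀ c' : Chart O (β u'), τmB c' = τm (eqv c') := fun c' => rfl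
  have hι : ∀ a : Chart O u', eqv (incl β hβO u' a) = ιB a := fun a => rfl
  have hyB : eqv (⟨α u', hba⟩ : Chart O (β u')) = uC := by
    apply Subtype.ext
    show α u' = α (aeval u' (X : O[X]))
    rw [aeval_X]
  have hδ' : eqv ((⟨α u', hba⟩ : Chart O (β u')) - incl β hβO u' (polyChart u' X)) =
      uC - yC := by
    rw [hδ]; ring
  refine ⟨?_, ?_, ?_, ?_, ?_⟩
  · -- centre
    intro a
    constructor
    · rw [← hι, ← hI, redInf_incl]
      exact redM_beta ϖ hϖ α hαO σ hσO hσfrac u' U hσu σ₀ hσ₀O hσ₀frac β hβO hσ₀β a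
    · rw [← hι, ← hZ, redZ_incl ϖ hϖ β hβO σ₀ hσ₀O hσ₀frac,
        redM_beta ϖ hϖ α hαO σ hσO hσfrac u' U hσu σ₀ hσ₀O hσ₀frac β hβO hσ₀β a]
  · -- onto
    intro hnormal
    obtain ⟨h1, h2⟩ := hOnto hnormal
    constructor
    · intro c
      obtain ⟨a, ha⟩ := h1 (eqv.symm c)
      refine ⟨a, ?_⟩
      rw [hI, map_sub, RingEquiv.apply_symm_apply, hι] at ha
      exact ha
    · intro c
      obtain ⟨a, ha⟩ := h2 (eqv.symm c)
      refine ⟨a, ?_⟩
      rw [hτ, map_sub, RingEquiv.apply_symm_apply, hι] at ha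
      exact ha
  · -- span of `P_∞` over the `β`-base
    intro c
    obtain ⟨s, a, hs, ha⟩ := hSpan (eqv.symm c)
    refine ⟨s, a, hs, ?_⟩
    rw [hZ, map_sub, map_mul, RingEquiv.apply_symm_apply, hι, map_sum] at ha
    have hsum : ∑ k : Fin N, eqv (incl β hβO u' (a k) * (⟨α u', hba⟩ : Chart O (β u')) ^ (k : ℕ))
        = ∑ k : Fin N, ιB (a k) * uC ^ (k : ℕ) := by
      refine Finset.sum_congr rfl fun k _ => ?_
      rw [map_mul, map_pow, hι, hyB]
    rw [hsum] at ha
    exact ha
  · -- the primes over `π` through the `β`-base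
    intro Q hQ hπQ hcen
    have hQ' : (Q.comap (eqv : Chart O (β u') →+* Chart O (α u'))).IsPrime :=
      Ideal.comap_isPrime _ Q
    have hmem : ∀ c' : Chart O (β u'),
        c' ∈ Q.comap (eqv : Chart O (β u') →+* Chart O (α u')) ↔ eqv c' ∈ Q := fun c' => Iff.rfl
    have hπQ' : piC (β u') ϖ ∈ Q.comap (eqv : Chart O (β u') →+* Chart O (α u')) := by
      rw [hmem, heqv, chartEquiv_piC]
      exact hπQ
    have hcen' : ∀ a : Chart O u',
        incl β hβO u' a ∈ Q.comap (eqv : Chart O (β u') →+* Chart O (α u')) →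
          piC u' ϖ ∣ a := by
      intro a ha
      rw [hmem, hι] at ha
      exact hcen a ha
    have key : ∀ (J : Ideal (Chart O (β u'))) (I : Ideal (Chart O (α u'))),
        (∀ c' : Chart O (β u'), c' ∈ J ↔ eqv c' ∈ I) →
        Q.comap (eqv : Chart O (β u') →+* Chart O (α u')) = J → Q = I := by
      intro J I hJI hQJ
      ext c
      have h1 : c ∈ Q ↔ eqv.symm c ∈ J := by
        rw [← hQJ, hmem, RingEquiv.apply_symm_apply]
      rw [h1, hJI, RingEquiv.apply_symm_apply]
    rcases hThree _ hQ' hπQ' hcen' with h | h | h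
    · left
      refine key _ _ (fun c' => ?_) h
      rw [RingHom.mem_ker, RingHom.mem_ker, hI]
    · right; left
      refine key _ _ (fun c' => ?_) h
      rw [RingHom.mem_ker, RingHom.mem_ker, hZ]
    · right; right
      refine key _ _ (fun c' => ?_) h
      rw [Ideal.mem_comap, Ideal.mem_comap, hτ]
  · -- graded spanning at the middle valuation
    intro l hl c hc
    have hc' : lam ^ l ∣ τmB (eqv.symm c) := by
      rw [hτ, RingEquiv.apply_symm_apply]
      exact hc
    obtain ⟨s, a, hs, ha⟩ := hGraded l hl (eqv.symm c) hc'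
    refine ⟨s, a, hs, ?_⟩
    rw [hτ, map_sub, map_mul, map_mul, map_pow, RingEquiv.apply_symm_apply, hι, hι, hδ'] at ha
    exact ha

end PackageB

end Fermat.Agent.S36.SqChart.PackageB
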