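import Mathlib
import Fermat.Agent.S36.SqChart.Rad4

/-!
# S36, C2 modular instance for `u₄` (`q` odd): `hded`, `hradα`, `hradβ` in chart-prime form

The chart-prime forms (RULING #17: the binders of `KInst9.holds_of_chart` at
`Pc := ![HypE.PZero .., HypE.PInf .., HypE.PMid ..]`) of `SqChart/RadE` at the coordinate
`u' = Haupt4.u4E R K h4`, `U = Haupt4.u4 (OE A K)`, with every coordinate fact discharged
exactly as in `SqChart/Rad4` (which carries the overlap forms).

* `dedekind4` : the three components `B2 ⧸ P0`, `B2 ⧸ P∞`, `B2 ⧸ P11` are Dedekind;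
* `hded4c` : the same, indexed by `Fin 3` over `![P0, P∞, P11]`;
* `rad_alpha4`, `rad_beta4` : `c ^ q ≡ α r` modulo `P0`, `c ^ q ≡ β r` modulo `P∞`;
* `hradα4c`, `hradβ4c` : the same, with the prime written `![P0, P∞, P11] 0`, `.. 1`.
-/

set_option autoImplicit false
set_option linter.unusedSectionVars false
set_option linter.unusedVariables false
set_option linter.style.haveILetI false
set_option synthInstance.maxHeartbeats 400000

open ModularCurve Polynomial

noncomputable section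

namespace Fermat.Agent.S36.SqChart.Rad4Chart

open Fermat.Agent.S30 Fermat.Agent.S30.CSide Fermat.Agent.S34 Fermat.Agent.S36
open Fermat.Agent.S18.K1Defs Fermat.Agent.S18.K1Main
open Fermat.Agent.S34.TwoPrimesGauss Fermat.Agent.S34.TwoPrimesRank
open Fermat.Agent.S34.HauptU.Plug
open Fermat.Agent.S36.SqChart Fermat.Agent.S36.MultPrimesGauss Fermat.Agent.S36.CycloBase
open Fermat.Agent.S36.SqRankE Fermat.Agent.S36.SqChart.InstA Fermat.Agent.S36.Haupt4

local notation "Qb" => AlgebraicClosure ℚ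
local notation "Gq" => (AlgebraicClosure ℚ ≃ₐ[ℚ] AlgebraicClosure ℚ)

attribute [local instance] InstA.algL InstA.towerL

variable (A : ValuationSubring Qb) {q : ℕ} (hq : q.Prime) [NeZero q] (hA : A.LiesOverPrime q)
  (K : IntermediateField ℚ Qb) [FiniteDimensional ℚ K]
  (hK : A.inertiaSubgroupIn ℚ ≤ K.fixingSubgroup) {ζ : Qb} (hζ : IsPrimitiveRoot ζ q)
  [IsDiscreteValuationRing (OE A K)] [IsDiscreteValuationRing (OE A (cyclo K ζ))]
  (R : ℕ) [NeZero R] (hqR : ¬ q ∣ R) (hodd : q ≠ 2) (h4 : 4 ∣ R)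
  (z : Qb) (hz : IsPrimitiveRoot z R) (hzK : z ∈ K)

set_option maxHeartbeats 4000000 in
include hodd hz hzK in
/-- **The three components of the level-`R q²` chart of `u₄` have Dedekind coordinate rings.** -/
theorem dedekind4 :
    IsDedekindDomain (HypE.B2 A K R (u4E R K h4) (q := q) ⧸
      HypE.PZero A hq hA K hK R hqR (u4E R K h4) (u4 (OE A K)) (Coord4.hU_u4 R K h4)) ∧
    IsDedekindDomain (HypE.B2 A K R (u4E R K h4) (q := q) ⧸
      HypE.PInf A hq hA K hK R (u4E R K h4) (u4 (OE A K)) (Coord4.hU_u4 R K h4)) ∧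
    IsDedekindDomain (HypE.B2 A K R (u4E R K h4) (q := q) ⧸
      HypE.PMid A hq hA K hK hζ R hqR (u4E R K h4) (u4 (OE A K)) (Coord4.hU_u4 R K h4)) := by
  haveI := Coord4.finite_u4E R K h4
  haveI := Coord4.charP_ell K q hq A hA
  haveI := Rad4.dedekind_base A hq hA K hK R hqR hodd h4 z hz hzK
  have h2 := Coord4.isUnit_two K q hq hodd A hA
  exact RadE.dedekind A hq hA K hK hζ R hqR (u4E R K h4) (u4 (OE A K)) (Coord4.hU_u4 R K h4)
    (Coord4.hy_u4 R K q h2 hq hodd hqR h4)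
    (Coord4.hprime_u4 R K q hq hodd A hA h4 hqR z hz hzK _ (irreducible_q A hq hA K hK))
    (Coord4.hcop_u4 (q * q)) Coord4.hord_u4 Coord4.theta_rho_u4_ne_zero
    (Coord4.qExpand_sq_rho_u4 q hq)

set_option maxHeartbeats 4000000 in
include hodd hz hzK in
/-- **The binder `hded` of `KInst9.holds_of_chart` at `u₄`**, for
`Pc := ![HypE.PZero .., HypE.PInf .., HypE.PMid ..]`. -/
theorem hded4c :
    ∀ i : Fin 3, IsDedekindDomain (HypE.B2 A K R (u4E R K h4) (q := q) ⧸
      (![HypE.PZero A hq hA K hK R hqR (u4E R K h4) (u4 (OE A K)) (Coord4.hU_u4 R K h4),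
         HypE.PInf A hq hA K hK R (u4E R K h4) (u4 (OE A K)) (Coord4.hU_u4 R K h4),
         HypE.PMid A hq hA K hK hζ R hqR (u4E R K h4) (u4 (OE A K)) (Coord4.hU_u4 R K h4)] :
        Fin 3 → Ideal (HypE.B2 A K R (u4E R K h4) (q := q))) i) := by
  obtain ⟨h0, h1, h2⟩ := dedekind4 A hq hA K hK hζ R hqR hodd h4 z hz hzK
  intro i
  fin_cases i
  · exact h0
  · exact h1
  · exact h2

set_option maxHeartbeats 4000000 in
include hζ hodd hz hzK in
/-- **`hradα` at `u₄`, chart-prime form**: `c ^ q ≡ α r` modulo `P0`. -/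
theorem rad_alpha4 (hfrobK : ∃ φ : Gq, A.IsFrobeniusAt φ q ∧ StableBase.Stable K φ)
    (c : HypE.B2 A K R (u4E R K h4) (q := q)) :
    ∃ r : HypE.B1 A K R (u4E R K h4) (q := q),
      c ^ q - HypE.alphaC A K R (u4E R K h4) r ∈
        HypE.PZero A hq hA K hK R hqR (u4E R K h4) (u4 (OE A K)) (Coord4.hU_u4 R K h4) := by
  haveI := Coord4.finite_u4E R K h4
  haveI := Coord4.charP_ell K q hq A hA
  have h2 := Coord4.isUnit_two K q hq hodd A hA
  exact RadE.rad_alpha A hq hA K hK hζ R hqR (u4E R K h4) (u4 (OE A K)) (Coord4.hU_u4 R K h4)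
    (Coord4.hy_u4 R K q h2 hq hodd hqR h4)
    (Coord4.hprime_u4 R K q hq hodd A hA h4 hqR z hz hzK _ (irreducible_q A hq hA K hK))
    (Coord4.hcop_u4 (q * q)) Coord4.hord_u4 Coord4.theta_rho_u4_ne_zero
    (Coord4.qExpand_sq_rho_u4 q hq) (Rad4.hwu4 A hq hA K R hqR hodd h4)
    (Rad4.normal_base A hq hA K hK R hqR hodd h4 z hz hzK)
    (Rad4.hKF_u4 A hq hA K hK R h4 hfrobK) c

set_option maxHeartbeats 4000000 in
include hζ hodd hz hzK in
/-- **`hradβ` at `u₄`, chart-prime form**: `c ^ q ≡ β r` modulo `P∞`. -/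
theorem rad_beta4 (hfrobK : ∃ φ : Gq, A.IsFrobeniusAt φ q ∧ StableBase.Stable K φ)
    (c : HypE.B2 A K R (u4E R K h4) (q := q)) :
    ∃ r : HypE.B1 A K R (u4E R K h4) (q := q),
      c ^ q - HypE.betaC A hq K R hqR (u4E R K h4) (Rad4.hwu4 A hq hA K R hqR hodd h4) r ∈
        HypE.PInf A hq hA K hK R (u4E R K h4) (u4 (OE A K)) (Coord4.hU_u4 R K h4) := by
  haveI := Coord4.finite_u4E R K h4
  haveI := Coord4.charP_ell K q hq A hA
  have h2 := Coord4.isUnit_two K q hq hodd A hA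
  exact RadE.rad_beta A hq hA K hK hζ R hqR (u4E R K h4) (u4 (OE A K)) (Coord4.hU_u4 R K h4)
    (Coord4.hy_u4 R K q h2 hq hodd hqR h4)
    (Coord4.hprime_u4 R K q hq hodd A hA h4 hqR z hz hzK _ (irreducible_q A hq hA K hK))
    (Coord4.hcop_u4 (q * q)) Coord4.hord_u4 Coord4.theta_rho_u4_ne_zero
    (Coord4.qExpand_sq_rho_u4 q hq) (Rad4.hwu4 A hq hA K R hqR hodd h4)
    (Rad4.normal_base A hq hA K hK R hqR hodd h4 z hz hzK)
    (Rad4.hKF_u4 A hq hA K hK R h4 hfrobK) c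

set_option maxHeartbeats 4000000 in
include hζ hodd hz hzK in
/-- **The binder `hradα` of `KInst9.holds_of_chart` at `u₄`**, for
`Pc := ![HypE.PZero .., HypE.PInf .., HypE.PMid ..]`, `φa₀ := HypE.alphaC ..`. -/
theorem hradα4c (hfrobK : ∃ φ : Gq, A.IsFrobeniusAt φ q ∧ StableBase.Stable K φ) :
    ∀ c : HypE.B2 A K R (u4E R K h4) (q := q), ∃ r : HypE.B1 A K R (u4E R K h4) (q := q),
      c ^ q - HypE.alphaC A K R (u4E R K h4) r ∈
        (![HypE.PZero A hq hA K hK R hqR (u4E R K h4) (u4 (OE A K)) (Coord4.hU_u4 R K h4),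
           HypE.PInf A hq hA K hK R (u4E R K h4) (u4 (OE A K)) (Coord4.hU_u4 R K h4),
           HypE.PMid A hq hA K hK hζ R hqR (u4E R K h4) (u4 (OE A K)) (Coord4.hU_u4 R K h4)] :
          Fin 3 → Ideal (HypE.B2 A K R (u4E R K h4) (q := q))) 0 :=
  fun c => rad_alpha4 A hq hA K hK hζ R hqR hodd h4 z hz hzK hfrobK c

set_option maxHeartbeats 4000000 in
include hζ hodd hz hzK in
/-- **The binder `hradβ` of `KInst9.holds_of_chart` at `u₄`**, for
`Pc := ![HypE.PZero .., HypE.PInf .., HypE.PMid ..]`, `φb₀ := HypE.betaC ..`. -/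
theorem hradβ4c (hfrobK : ∃ φ : Gq, A.IsFrobeniusAt φ q ∧ StableBase.Stable K φ) :
    ∀ c : HypE.B2 A K R (u4E R K h4) (q := q), ∃ r : HypE.B1 A K R (u4E R K h4) (q := q),
      c ^ q - HypE.betaC A hq K R hqR (u4E R K h4) (Rad4.hwu4 A hq hA K R hqR hodd h4) r ∈
        (![HypE.PZero A hq hA K hK R hqR (u4E R K h4) (u4 (OE A K)) (Coord4.hU_u4 R K h4),
           HypE.PInf A hq hA K hK R (u4E R K h4) (u4 (OE A K)) (Coord4.hU_u4 R K h4),
           HypE.PMid A hq hA K hK hζ R hqR (u4E R K h4) (u4 (OE A K)) (Coord4.hU_u4 R K h4)] :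
          Fin 3 → Ideal (HypE.B2 A K R (u4E R K h4) (q := q))) 1 :=
  fun c => rad_beta4 A hq hA K hK hζ R hqR hodd h4 z hz hzK hfrobK c

end Fermat.Agent.S36.SqChart.Rad4Chart
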